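import Mathlib
import Fermat.Agent.S36.Norm.General

/-!
# S36 / R : definitions of the abstract layer (route R, board #1240, #1622)

No modular object, no valuation, no `O_F` appears here.

* `Reg2At z a b`  : ELEMENTWISE form of "`M_z` is local with `𝔪 = (a, b)` and `M_z/(a)` is a DVR with uniformiser `b`".
* `Model M R π ι` : a normal chart `M` of an arithmetic surface, `π` the uniformiser of the base, with its vertical components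
                    `c : ι`, given by REDUCTION HOMS `ρ c : M ↠ R` (`ker (ρ c) = 𝔭_c`), multiplicities `e c`.
     `pow` : `𝔭_c ^ (e c) ⊆ π M_{𝔭_c}`;   `sat` : `M/π ↪ ∏_c (M/π)_{𝔭_c}` (saturation `M = O_F ∩ M[1/π]` + the list is complete);
     `sep` : the `𝔭_c` are pairwise incomparable.
* `Tower`         : the three levels `M0 → M1 → M2` (`N'`, `lN'`, `l²N'`), `α β : M0 → M1` (`E₀`, `E₁`), `p1 p2 : M1 → M2`
                    (`(E₀,E₁)`, `(E₁,E₂)`).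
     Components: level 1: `0 = ∞`, `1 = 0`;  level 2: `0 = ∞`, `1 = mid`, `2 = 0`.
     In the application `R = red(M0) ⊆ k((q))`, `ρ¹₀ = red`, `ρ¹₁ = red ∘ w₁`, `ρ²₀ = red`, `ρ²₁ = red ∘ τ_z`, `ρ²₂ = red ∘ w₂`,
     `Fr = V_l`.
-/

set_option autoImplicit false

namespace Fermat.Agent.S36.R

open Fermat.Agent.S36.Norm

/-- `M_z` has maximal ideal `(a, b)` and `M_z / (a)` is a DVR with uniformiser `b` (elementwise). -/
structure Reg2At {M : Type*} [CommRing M] (z : Ideal M) (a b : M) : Prop where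
  mem_a : a ∈ z
  mem_b : b ∈ z
  gen : ∀ f ∈ z, ∃ s u v : M, s ∉ z ∧ s * f = u * a + v * b
  nonnil : ∀ (k : ℕ) (s : M), s ∉ z → ¬ a ∣ s * b ^ k

/-- The ideal `𝔮` is principal in `M_z` (elementwise). -/
def LocPrin {M : Type*} [CommRing M] (z 𝔮 : Ideal M) (g : M) : Prop :=
  g ∈ 𝔮 ∧ ∀ f ∈ 𝔮, ∃ s, s ∉ z ∧ g ∣ s * f

/-- A chart with its vertical components. -/
structure Model (M R : Type*) [CommRing M] [CommRing R] (π : M) (ι : Type*) where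
  /-- reduction to the component `c` -/
  ρ : ι → M →+* R
  /-- multiplicity of the component `c` -/
  e : ι → ℕ
  surj : ∀ c, Function.Surjective (ρ c)
  map_pi : ∀ c, ρ c π = 0
  pow : ∀ c f, ρ c f = 0 → ∃ t, ρ c t ≠ 0 ∧ π ∣ t * f ^ e c
  sat : ∀ a : M, (∀ c, ∃ t, ρ c t ≠ 0 ∧ π ∣ t * a) → π ∣ a
  sep : ∀ c c', c ≠ c' → ∃ u, ρ c' u = 0 ∧ ρ c u ≠ 0
  /-- `M_{𝔭_c}[1/π]` is the fraction field (finite order of vanishing along `c`) -/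
  fin : ∀ c (d : M), d ≠ 0 → ∃ (N : ℕ) (t : M), ρ c t ≠ 0 ∧ d ∣ t * π ^ N

namespace Model

variable {M R : Type*} [CommRing M] [CommRing R] {π : M} {ι : Type*}

/-- The vertical prime `𝔭_c`. -/
def P (𝓜 : Model M R π ι) (c : ι) : Ideal M := RingHom.ker (𝓜.ρ c)

/-- The component `c` passes through `n`. -/
def Thru (𝓜 : Model M R π ι) (n : Ideal M) (c : ι) : Prop := 𝓜.P c ≤ n

/-- `b` is a unit at all vertical components ("`b ∈ O_F^×`"). -/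
def VUnit (𝓜 : Model M R π ι) (b : M) : Prop := ∀ c, 𝓜.ρ c b ≠ 0

end Model

/-- The tower of the three levels (one chart). -/
structure Tower (l : ℕ) {M0 M1 M2 R : Type*} [CommRing M0] [CommRing M1] [CommRing M2] [CommRing R]
    (π : M0) (α β : M0 →+* M1) (p1 p2 : M1 →+* M2) where
  /-- level `N'` -/
  m0 : Model M0 R π Unit
  /-- level `l N'`: `0 = ∞`, `1 = 0` -/
  m1 : Model M1 R (α π) (Fin 2)
  /-- level `l² N'`: `0 = ∞`, `1 = mid`, `2 = 0` -/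
  m2 : Model M2 R (p1 (α π)) (Fin 3)
  /-- `V_l` on `R` -/
  Fr : R →+* R
  notField : ¬ IsField R
  Fr_inj : Function.Injective Fr
  Fr_insep : ∀ r : R, ∃ r', Fr r' = r ^ l
  e0 : m0.e () = 1
  e1 : ∀ c, m1.e c = 1
  e2_0 : m2.e 0 = 1
  e2_1 : m2.e 1 = l - 1
  e2_2 : m2.e 2 = 1
  beta_pi : β π = α π
  comm : ∀ f, p1 (β f) = p2 (α f)
  α_fin : α.Finite
  β_fin : β.Finite
  p1_fin : p1.Finite
  p2_fin : p2.Finite
  α_inj : Function.Injective α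
  β_inj : Function.Injective β
  p1_inj : Function.Injective p1
  p2_inj : Function.Injective p2
  r1_0_α : ∀ f, m1.ρ 0 (α f) = m0.ρ () f
  r1_0_β : ∀ f, m1.ρ 0 (β f) = Fr (m0.ρ () f)
  r1_1_α : ∀ f, m1.ρ 1 (α f) = Fr (m0.ρ () f)
  r1_1_β : ∀ f, m1.ρ 1 (β f) = m0.ρ () f
  r2_0_p1 : ∀ g, m2.ρ 0 (p1 g) = m1.ρ 0 g
  r2_1_p1 : ∀ g, m2.ρ 1 (p1 g) = m1.ρ 0 g
  r2_2_p1 : ∀ g, m2.ρ 2 (p1 g) = Fr (m1.ρ 1 g)
  r2_0_p2 : ∀ g, m2.ρ 0 (p2 g) = Fr (m1.ρ 0 g)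
  r2_1_p2 : ∀ g, m2.ρ 1 (p2 g) = m1.ρ 1 g
  r2_2_p2 : ∀ g, m2.ρ 2 (p2 g) = m1.ρ 1 g
  /-- every nonzero integer divides a power of `π` (residue characteristic 0 at the horizontal primes) -/
  hchar : ∀ n : ℕ, n ≠ 0 → ∃ k, (n : M0) ∣ π ^ k
  algClosed : ∀ (𝔫 : Ideal R) [𝔫.IsMaximal], @IsAlgClosed (R ⧸ 𝔫) (Ideal.Quotient.field 𝔫)
  /-- `M1 / α(M0)` is unramified at the horizontal primes under a node. -/
  unr1 : ∀ z : Ideal M1, z.IsMaximal → m1.Thru z 0 → m1.Thru z 1 →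
    ∀ 𝔮 : Ideal M0, 𝔮.IsPrime → 𝔮 ≤ z.comap α → π ∉ 𝔮 →
      ∀ y : M1, y ^ 2 ∈ 𝔮.map α → ∃ s, s ∉ 𝔮 ∧ α s * y ∈ 𝔮.map α
  /-- `M2 / p1(M1)` is unramified at the horizontal primes through a non-node of the component `∞` of level 1. -/
  unr2 : ∀ z : Ideal M1, z.IsMaximal → m1.Thru z 0 → ¬ m1.Thru z 1 →
    ∀ 𝔮 : Ideal M1, 𝔮.IsPrime → 𝔮 ≤ z → α π ∉ 𝔮 →
      ∀ y : M2, y ^ 2 ∈ 𝔮.map p1 → ∃ s, s ∉ 𝔮 ∧ p1 s * y ∈ 𝔮.map p1

/-- The discriminant of the powers of `θ` along a homomorphism of fields. -/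
noncomputable def discrHom {F E : Type*} [Field F] [Field E] (φ : F →+* E) (n : ℕ) (θ : E) : F :=
  letI := φ.toAlgebra
  Algebra.discr F (fun i : Fin n => θ ^ (i : ℕ))

/-- Fraction fields, degrees and the two discriminant bounds. -/
structure TowerF (l : ℕ) {M0 M1 M2 R : Type*} [CommRing M0] [CommRing M1] [CommRing M2] [CommRing R]
    {π : M0} {α β : M0 →+* M1} {p1 p2 : M1 →+* M2} (𝓣 : Tower (R := R) l π α β p1 p2)
    {F0 F1 F2 : Type*} [Field F0] [Field F1] [Field F2] [Algebra M0 F0] [Algebra M1 F1] [Algebra M2 F2]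
    (αF : F0 →+* F1) (φ1 φ2 : F1 →+* F2) : Prop where
  αF_map : ∀ f, αF (algebraMap M0 F0 f) = algebraMap M1 F1 (α f)
  φ1_map : ∀ g, φ1 (algebraMap M1 F1 g) = algebraMap M2 F2 (p1 g)
  φ2_map : ∀ g, φ2 (algebraMap M1 F1 g) = algebraMap M2 F2 (p2 g)
  deg_α : degHom αF = l + 1
  deg_1 : degHom φ1 = l
  deg_2 : degHom φ2 = l
  db1 : ∃ (θ : M1) (δ : M0), 𝓣.m0.ρ () δ ≠ 0 ∧
    discrHom αF (l + 1) (algebraMap M1 F1 θ) = algebraMap M0 F0 (π ^ l * δ)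
  db2 : ∃ (θ : M2) (δ : M1), 𝓣.m1.ρ 0 δ ≠ 0 ∧
    discrHom φ1 l (algebraMap M2 F2 θ) = algebraMap M1 F1 (α π ^ (l - 2) * δ)
  /-- reduction of the norm along `p1` (helper97 (V2)) -/
  nm1 : ∀ a : M2, ∃ b : M1, algebraMap M1 F1 b = normHom φ1 (algebraMap M2 F2 a) ∧
    𝓣.m1.ρ 0 b = 𝓣.m2.ρ 0 a * 𝓣.m2.ρ 1 a ^ (l - 1) ∧ 𝓣.Fr (𝓣.m1.ρ 1 b) = 𝓣.m2.ρ 2 a ^ l
  /-- reduction of the norm along `p2` -/
  nm2 : ∀ a : M2, ∃ b : M1, algebraMap M1 F1 b = normHom φ2 (algebraMap M2 F2 a) ∧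
    𝓣.Fr (𝓣.m1.ρ 0 b) = 𝓣.m2.ρ 0 a ^ l ∧ 𝓣.m1.ρ 1 b = 𝓣.m2.ρ 2 a * 𝓣.m2.ρ 1 a ^ (l - 1)

/-- `W ≡ 1 mod π O_F`:  `W = a / b`, `b` a vertical unit, `π ∣ a - b`. -/
def OneMod {M R F : Type*} [CommRing M] [CommRing R] [Field F] [Algebra M F] {π : M} {ι : Type*}
    (𝓜 : Model M R π ι) (W : F) : Prop :=
  ∃ a b : M, 𝓜.VUnit b ∧ π ∣ a - b ∧ W * algebraMap M F b = algebraMap M F a

/-- `h ≡ u` at the component `c`, to the full multiplicity of `π`. -/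
def CongAt {M R F : Type*} [CommRing M] [CommRing R] [Field F] [Algebra M F] {π : M} {ι : Type*}
    (𝓜 : Model M R π ι) (c : ι) (h : F) (u : M) : Prop :=
  ∃ a b t : M, 𝓜.ρ c b ≠ 0 ∧ 𝓜.ρ c t ≠ 0 ∧ π ∣ t * (a - u * b) ∧ h * algebraMap M F b = algebraMap M F a

/-- `y` is a local generator of `I_m(W)` at `n`:  `y ^ m * W ∈ M_n^×`. -/
def LocGen {M F : Type*} [CommRing M] [Field F] [Algebra M F] (m : ℕ) (W : F) (n : Ideal M) (y : F) : Prop :=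
  y ≠ 0 ∧ ∃ u₁ u₂ : M, u₁ ∉ n ∧ u₂ ∉ n ∧ y ^ m * W * algebraMap M F u₂ = algebraMap M F u₁

/-- BRANCH VALUE: the reduction of `y` on the component `c` is regular at the point `n`, with value `v mod n`. -/
def BV {M R F : Type*} [CommRing M] [CommRing R] [Field F] [Algebra M F] {π : M} {ι : Type*}
    (𝓜 : Model M R π ι) (n : Ideal M) (c : ι) (y : F) (v : M) : Prop :=
  ∃ a b g s : M, y * algebraMap M F b = algebraMap M F a ∧ 𝓜.ρ c b ≠ 0 ∧ s ∉ n ∧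
    𝓜.ρ c (s * a - g * b) = 0 ∧ g - v * s ∈ n

/-- `W` is a unit times an `m`-th power at every horizontal prime. -/
def HorPow {M F : Type*} [CommRing M] [Field F] [Algebra M F] (π : M) (m : ℕ) (W : F) : Prop :=
  ∀ 𝔮 : Ideal M, 𝔮.IsPrime → π ∉ 𝔮 → ∃ (y : F) (a b : M), y ≠ 0 ∧ a ∉ 𝔮 ∧ b ∉ 𝔮 ∧
    y ^ m * W * algebraMap M F b = algebraMap M F a

/-- A local solution at `n`: `y ∈ I_m(W)`, `y ≡ s mod π O_F`, `s ∉ n`. -/
def LocSol {M R F : Type*} [CommRing M] [CommRing R] [Field F] [Algebra M F] {π : M} {ι : Type*}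
    (𝓜 : Model M R π ι) (m : ℕ) (W : F) (n : Ideal M) : Prop :=
  ∃ (s : M) (y : F), s ∉ n ∧ (∃ r : M, y ^ m * W = algebraMap M F r) ∧
    ∃ b r : M, 𝓜.VUnit b ∧ (y - algebraMap M F s) * algebraMap M F b = algebraMap M F (π * r)

end Fermat.Agent.S36.R
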