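import Fermat.Agent.S36.R.Toric

/-!
# S36 / R / Main : the chart theorem of the abstract layer

`chart_main`: in one chart, `W ≡ 1 mod π`, horizontally an `m`-th power, with both norms `m`-th powers `h₁ ^ m`, `h₂ ^ m`, where
`h₁ ≡ (ua, ub)`, `h₂ ≡ (uc, ud)` on the components `(∞¹, 0¹)` (constants, `u ^ m = 1`), and `lam ≡ (λ_∞, λ_mid, 1)` with
`λ_∞ = ((ub ud)/(ua uc))^(l-1)`, `λ_mid = (ub/ua)^l (uc/ud)`.
Then `W ^ (l² - 1) * lam ^ m` has a local solution at every closed point of the fibre.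
-/

set_option autoImplicit false

namespace Fermat.Agent.S36.R

open Fermat.Agent.S36.Norm

section Stability

variable {M R F : Type*} [CommRing M] [IsDomain M] [CommRing R] [IsDomain R] [Field F] [Algebra M F]
  [IsFractionRing M F] {π : M} {ι : Type*} [Finite ι] (𝓜 : Model M R π ι)

/-- `OneMod` from the components (`sat` + `sep`: common denominator `b = ∑ b_c w_c`). -/
theorem oneMod_of_congAt {W : F} (h : ∀ c, CongAt 𝓜 c W 1) : OneMod 𝓜 W := by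
  classical
  cases nonempty_fintype ι
  have hinj := IsFractionRing.injective M F
  choose a b t hb ht hdvd hW using h
  have hsep : ∀ c c' : ι, ∃ u : M, 𝓜.ρ c u ≠ 0 ∧ (c ≠ c' → 𝓜.ρ c' u = 0) := by
    intro c c'
    by_cases hcc : c = c'
    · exact ⟨1, by rw [map_one]; exact one_ne_zero, fun h => absurd hcc h⟩
    · obtain ⟨u, hu1, hu2⟩ := 𝓜.sep c c' hcc
      exact ⟨u, hu2, fun _ => hu1⟩
  choose u hu1 hu2 using hsep
  set w : ι → M := fun c => ∏ c', u c c' with hw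
  have hw1 : ∀ c, 𝓜.ρ c (w c) ≠ 0 := by
    intro c
    rw [hw]
    simp only [map_prod]
    exact Finset.prod_ne_zero_iff.mpr fun c' _ => hu1 c c'
  have hw2 : ∀ c c', c ≠ c' → 𝓜.ρ c' (w c) = 0 := by
    intro c c' hcc
    rw [hw]
    simp only [map_prod]
    exact Finset.prod_eq_zero (Finset.mem_univ c') (hu2 c c' hcc)
  have hcross : ∀ c c', (a c' - b c') * b c = (a c - b c) * b c' := by
    intro c c'
    apply hinj
    simp only [map_mul, map_sub, ← hW]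
    ring
  refine ⟨∑ c, a c * w c, ∑ c, b c * w c, ?_, ?_, ?_⟩
  · intro c
    rw [map_sum, Finset.sum_eq_single c]
    · rw [map_mul]
      exact mul_ne_zero (hb c) (hw1 c)
    · intro c' _ hne
      rw [map_mul, hw2 c' c hne, mul_zero]
    · intro hc
      exact absurd (Finset.mem_univ c) hc
  · apply 𝓜.sat
    intro c
    refine ⟨t c * b c, by rw [map_mul]; exact mul_ne_zero (ht c) (hb c), ?_⟩
    have h1 : t c * b c * (∑ c, a c * w c - ∑ c, b c * w c) =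
        t c * (a c - 1 * b c) * ∑ c', b c' * w c' := by
      rw [← Finset.sum_sub_distrib, Finset.mul_sum, Finset.mul_sum]
      refine Finset.sum_congr rfl fun c' _ => ?_
      linear_combination t c * w c' * hcross c c'
    rw [h1]
    exact Dvd.dvd.mul_right (hdvd c) _
  · rw [map_sum, map_sum, Finset.mul_sum]
    refine Finset.sum_congr rfl fun c _ => ?_
    rw [map_mul, map_mul, ← hW c]
    ring

theorem OneMod.congAt {W : F} (h : OneMod 𝓜 W) (c : ι) : CongAt 𝓜 c W 1 := by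
  obtain ⟨a, b, hb, hdvd, hW⟩ := h
  refine ⟨a, b, 1, hb c, by rw [map_one]; exact one_ne_zero, ?_, hW⟩
  rwa [one_mul, one_mul]

theorem CongAt.mul {c : ι} {h h' : F} {u u' : M} (H : CongAt 𝓜 c h u) (H' : CongAt 𝓜 c h' u') :
    CongAt 𝓜 c (h * h') (u * u') := by
  obtain ⟨a, b, t, hb, ht, ⟨r, hr⟩, hW⟩ := H
  obtain ⟨a', b', t', hb', ht', ⟨r', hr'⟩, hW'⟩ := H'
  refine ⟨a * a', b * b', t * t', ?_, ?_, ⟨r * (t' * a') + r' * (t * u * b), ?_⟩, ?_⟩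
  · rw [map_mul]; exact mul_ne_zero hb hb'
  · rw [map_mul]; exact mul_ne_zero ht ht'
  · linear_combination (t' * a') * hr + (t * u * b) * hr'
  · rw [map_mul, map_mul, ← hW, ← hW']
    ring

theorem CongAt.pow {c : ι} {h : F} {u : M} (H : CongAt 𝓜 c h u) (k : ℕ) :
    CongAt 𝓜 c (h ^ k) (u ^ k) := by
  induction k with
  | zero =>
    refine ⟨1, 1, 1, ?_, ?_, ⟨0, by ring⟩, by simp⟩ <;> · rw [map_one]; exact one_ne_zero
  | succ k ih =>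
    rw [pow_succ, pow_succ]
    exact CongAt.mul 𝓜 ih H

omit [Finite ι] [IsDomain R] in
/-- `HorPow` is stable under `W ↦ W ^ k * lam ^ m`. -/
theorem HorPow.pow_mul {m : ℕ} {W : F} (h : HorPow π m W) (k : ℕ) {lam : F} (hlam : lam ≠ 0) :
    HorPow π m (W ^ k * lam ^ m) := by
  intro 𝔮 h𝔮 hπ
  obtain ⟨y, a, b, hy, ha, hb, hW⟩ := h 𝔮 h𝔮 hπ
  refine ⟨y ^ k * lam⁻¹, a ^ k, b ^ k, mul_ne_zero (pow_ne_zero k hy) (inv_ne_zero hlam),
    fun h => ha (h𝔮.mem_of_pow_mem k h), fun h => hb (h𝔮.mem_of_pow_mem k h), ?_⟩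
  rw [map_pow, map_pow, ← hW]
  have h1 : lam⁻¹ ^ m * lam ^ m = 1 := by
    rw [← mul_pow, inv_mul_cancel₀ hlam, one_pow]
  calc (y ^ k * lam⁻¹) ^ m * (W ^ k * lam ^ m) * algebraMap M F b ^ k
      = (y ^ m * W * algebraMap M F b) ^ k * (lam⁻¹ ^ m * lam ^ m) := by ring
    _ = (y ^ m * W * algebraMap M F b) ^ k := by rw [h1, mul_one]

omit [Finite ι] [IsDomain R] in
/-- `LocGen` for `W ^ k * lam ^ m`. -/
theorem LocGen.pow_mul {m : ℕ} {W : F} {n : Ideal M} (hn : n.IsPrime) {y : F} (h : LocGen m W n y) (k : ℕ)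
    {lam : F} (hlam : lam ≠ 0) : LocGen m (W ^ k * lam ^ m) n (y ^ k * lam⁻¹) := by
  obtain ⟨hy, u₁, u₂, hu₁, hu₂, hW⟩ := h
  refine ⟨mul_ne_zero (pow_ne_zero k hy) (inv_ne_zero hlam), u₁ ^ k, u₂ ^ k,
    fun h => hu₁ (hn.mem_of_pow_mem k h), fun h => hu₂ (hn.mem_of_pow_mem k h), ?_⟩
  rw [map_pow, map_pow, ← hW]
  have h1 : lam⁻¹ ^ m * lam ^ m = 1 := by
    rw [← mul_pow, inv_mul_cancel₀ hlam, one_pow]
  calc (y ^ k * lam⁻¹) ^ m * (W ^ k * lam ^ m) * algebraMap M F u₂ ^ k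
      = (y ^ m * W * algebraMap M F u₂) ^ k * (lam⁻¹ ^ m * lam ^ m) := by ring
    _ = (y ^ m * W * algebraMap M F u₂) ^ k := by rw [h1, mul_one]

end Stability

variable {l : ℕ} {M0 M1 M2 R : Type*} [CommRing M0] [CommRing M1] [CommRing M2] [CommRing R]
  [IsDomain M0] [IsDomain M1] [IsDomain M2] [IsNoetherianRing M0] [IsNoetherianRing M1]
  [IsNoetherianRing M2] [IsIntegrallyClosed M1] [IsDomain R] [IsDedekindDomain R]
  {π : M0} {α β : M0 →+* M1} {p1 p2 : M1 →+* M2} (𝓣 : Tower (R := R) l π α β p1 p2)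
  {F0 F1 F2 : Type*} [Field F0] [Field F1] [Field F2] [Algebra M0 F0] [Algebra M1 F1]
  [Algebra M2 F2] [IsFractionRing M0 F0] [IsFractionRing M1 F1] [IsFractionRing M2 F2]
  {αF : F0 →+* F1} {φ1 φ2 : F1 →+* F2}

/-- The two norm relations at a triple point (`normBranch` for `p1` with `(ca,cb,cs1,cs2,ci) = (0,1,0,1,2)` and for `p2` with
`(1,0,2,1,0)`; `Tower.triple_unique_over`). -/
theorem Tower.toric_relations (𝓕 : TowerF l 𝓣 αF φ1 φ2) (hl : 2 ≤ l) (m : ℕ) (hm : m ≠ 0)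
    (n : Ideal M2) (hn : n.IsMaximal) (ht : ∀ c, 𝓣.m2.Thru n c)
    (W y : F2) (hy : LocGen m W n y) (v : Fin 3 → M2) (hv : ∀ c, BV 𝓣.m2 n c y (v c))
    (h1 h2 : F1) (hN1 : normHom φ1 W = h1 ^ m) (hN2 : normHom φ2 W = h2 ^ m) (ua ub uc ud : M0)
    (hβ : β ua = α ua ∧ β ub = α ub ∧ β uc = α uc ∧ β ud = α ud)
    (ha : CongAt 𝓣.m1 0 h1 (α ua)) (hb : CongAt 𝓣.m1 1 h1 (α ub))
    (hc : CongAt 𝓣.m1 0 h2 (α uc)) (hd : CongAt 𝓣.m1 1 h2 (α ud)) :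
    v 0 * v 1 ^ (l - 1) * p1 (α ua) - v 2 ^ l * p1 (α ub) ∈ n ∧
    v 2 * v 1 ^ (l - 1) * p1 (α ud) - v 0 ^ l * p1 (α uc) ∈ n := by
  have hl0 : l ≠ 0 := by omega
  constructor
  · exact normBranch p1 𝓣.p1_fin.to_isIntegral 𝓣.p1_inj φ1 𝓕.φ1_map l m hm 𝓕.deg_1 hl0 𝓣.m1 𝓣.m2
      𝓣.Fr 𝓣.Fr_inj 0 1 0 1 2 (by decide) (by decide) (by decide) 𝓣.r2_0_p1 𝓣.r2_1_p1 𝓣.r2_2_p1
      𝓕.nm1 n hn (ht 0) (ht 1) (ht 2)
      (fun n' hn' hc => (𝓣.triple_unique_over 𝓕 n hn ht n' hn').1 hc)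
      W y hy (v 0) (v 1) (v 2) (hv 0) (hv 1) (hv 2) h1 hN1 (α ua) (α ub) ha hb
  · have key := normBranch p2 𝓣.p2_fin.to_isIntegral 𝓣.p2_inj φ2 𝓕.φ2_map l m hm 𝓕.deg_2 hl0 𝓣.m1
      𝓣.m2 𝓣.Fr 𝓣.Fr_inj 1 0 2 1 0 (by decide) (by decide) (by decide) 𝓣.r2_2_p2 𝓣.r2_1_p2
      𝓣.r2_0_p2
      (fun a => by
        obtain ⟨b, hb1, hb2, hb3⟩ := 𝓕.nm2 a
        exact ⟨b, hb1, hb3, hb2⟩)
      n hn (ht 2) (ht 1) (ht 0)
      (fun n' hn' hc => (𝓣.triple_unique_over 𝓕 n hn ht n' hn').2 hc)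
      W y hy (v 2) (v 1) (v 0) (hv 2) (hv 1) (hv 0) h2 hN2 (α ud) (α uc) hd hc
    rwa [← 𝓣.comm, ← 𝓣.comm, hβ.2.2.2, hβ.2.2.1] at key

/-- Pure field arithmetic in `k = M2 / n`: from `A B^(l-1) ua = ub`, `B^(l-1) ud = A^l uc` (`A = v0/v2`, `B = v1/v2`) one gets
`v0^(l²-1) = λ_∞ v2^(l²-1)`, `v1^(l²-1) = λ_mid v2^(l²-1)`.  All `u` satisfy `u ^ m = 1` (`u⁻¹ = u^(m-1)`). -/
theorem toric_arith {k : Type*} [Field k] (l m : ℕ) (hl : 2 ≤ l) (hm : m ≠ 0) (v0 v1 v2 ua ub uc ud : k)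
    (h0 : v0 ≠ 0) (h1 : v1 ≠ 0) (h2 : v2 ≠ 0) (hua : ua ^ m = 1) (hub : ub ^ m = 1) (huc : uc ^ m = 1)
    (hud : ud ^ m = 1) (r1 : v0 * v1 ^ (l - 1) * ua = v2 ^ l * ub)
    (r2 : v2 * v1 ^ (l - 1) * ud = v0 ^ l * uc) :
    v0 ^ (l ^ 2 - 1) = (ub * ud * ua ^ (m - 1) * uc ^ (m - 1)) ^ (l - 1) * v2 ^ (l ^ 2 - 1) ∧
    v1 ^ (l ^ 2 - 1) = (ub * ua ^ (m - 1)) ^ l * (uc * ud ^ (m - 1)) * v2 ^ (l ^ 2 - 1) := by
  obtain ⟨j, rfl⟩ : ∃ j, l = j + 1 := ⟨l - 1, by omega⟩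
  have hinv : ∀ u : k, u ^ m = 1 → u ≠ 0 ∧ u ^ (m - 1) = u⁻¹ := by
    intro u hu
    have hu0 : u ≠ 0 := by
      rintro rfl
      rw [zero_pow hm] at hu
      exact zero_ne_one hu
    refine ⟨hu0, ?_⟩
    have : u ^ (m - 1) * u = 1 := by
      rw [← pow_succ, Nat.sub_add_cancel (Nat.one_le_iff_ne_zero.2 hm), hu]
    exact eq_inv_of_mul_eq_one_left this
  obtain ⟨ha0, ha⟩ := hinv ua hua
  obtain ⟨hb0, -⟩ := hinv ub hub
  obtain ⟨hc0, hc⟩ := hinv uc huc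
  obtain ⟨hd0, hd⟩ := hinv ud hud
  rw [ha, hc, hd]
  have hexp : (j + 1) ^ 2 - 1 = j * (j + 2) := by
    apply Nat.sub_eq_of_eq_add; ring
  rw [hexp]
  simp only [Nat.add_sub_cancel] at r1 r2 ⊢
  have E1 : v0 ^ (j + 2) * (ua * uc) = v2 ^ (j + 2) * (ub * ud) := by
    linear_combination (v2 * ud) * r1 - (v0 * ua) * r2
  have E2 : v0 ^ (j + 2) = (ub * ud * ua⁻¹ * uc⁻¹) * v2 ^ (j + 2) := by
    field_simp
    linear_combination E1
  have E3 : v1 ^ j = v2 ^ (j + 1) * ub * (v0⁻¹ * ua⁻¹) := by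
    field_simp
    linear_combination r1
  constructor
  · rw [mul_comm j (j + 2), pow_mul, E2, mul_pow, ← pow_mul]
  · rw [pow_mul, E3, mul_pow, mul_pow, mul_pow, inv_pow v0, E2]
    have e1 : (v2 ^ (j + 1)) ^ (j + 2) = v2 ^ (j * (j + 2)) * v2 ^ (j + 2) := by
      rw [← pow_mul, ← pow_add]; congr 1; ring
    rw [e1]
    have hX : v2 ^ (j + 2) ≠ 0 := pow_ne_zero _ h2
    generalize v2 ^ (j + 2) = X at hX
    generalize v2 ^ (j * (j + 2)) = Y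
    rw [pow_succ ub (j + 1), pow_succ ua⁻¹ (j + 1), mul_pow ub ua⁻¹ (j + 1), inv_pow]
    have hA : ua ^ (j + 1) ≠ 0 := pow_ne_zero _ ha0
    generalize ua ^ (j + 1) = A at hA
    generalize ub ^ (j + 1) = B
    field_simp

/-- **THE CHART THEOREM.**
Proof.  `W' = W ^ (l²-1) * lam ^ m` satisfies `OneMod`, `HorPow`.  `Tower.reg_all` gives `Reg2At n a b`.
If only one component passes through `n`: `exists_locGen`, `exists_BV`, `locSol_of_BV` for `W'`.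
Otherwise (`Tower.trichotomy`) `n` is a triple point: `y` a local generator for `W`, `v c` its branch values (`∉ n`),
`toric_relations` + `toric_arith` in `M2 / n`; `y' = y ^ (l²-1) * lam⁻¹` is a local generator for `W'` with branch values
`v c ^ (l²-1) * (λ_c)^(m-1) ≡ v 2 ^ (l²-1)`; `locSol_of_BV`. -/
theorem chart_main (𝓕 : TowerF l 𝓣 αF φ1 φ2) (hl : 2 ≤ l) (m : ℕ) (hm0 : m ≠ 0) (hm : IsUnit (m : M0))
    (W lam : F2) (hlam : lam ≠ 0) (hW : OneMod 𝓣.m2 W) (hh : HorPow (p1 (α π)) m W)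
    (h1 h2 : F1) (hN1 : normHom φ1 W = h1 ^ m) (hN2 : normHom φ2 W = h2 ^ m) (ua ub uc ud : M0)
    (hpow : ua ^ m = 1 ∧ ub ^ m = 1 ∧ uc ^ m = 1 ∧ ud ^ m = 1)
    (hβ : β ua = α ua ∧ β ub = α ub ∧ β uc = α uc ∧ β ud = α ud)
    (ha : CongAt 𝓣.m1 0 h1 (α ua)) (hb : CongAt 𝓣.m1 1 h1 (α ub))
    (hc : CongAt 𝓣.m1 0 h2 (α uc)) (hd : CongAt 𝓣.m1 1 h2 (α ud))
    (hl0 : CongAt 𝓣.m2 0 lam (p1 (α ((ub * ud * ua ^ (m - 1) * uc ^ (m - 1)) ^ (l - 1)))))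
    (hl1 : CongAt 𝓣.m2 1 lam (p1 (α ((ub * ua ^ (m - 1)) ^ l * (uc * ud ^ (m - 1))))))
    (hl2 : CongAt 𝓣.m2 2 lam 1)
    (n : Ideal M2) (hn : n.IsMaximal) (hπ : p1 (α π) ∈ n) :
    LocSol 𝓣.m2 m (W ^ (l ^ 2 - 1) * lam ^ m) n := by
  classical
  obtain ⟨hua, hub, huc, hud⟩ := hpow
  -- the three constants
  obtain ⟨L0, hL0⟩ : ∃ L0 : M0, L0 = (ub * ud * ua ^ (m - 1) * uc ^ (m - 1)) ^ (l - 1) := ⟨_, rfl⟩
  obtain ⟨L1, hL1⟩ : ∃ L1 : M0, L1 = (ub * ua ^ (m - 1)) ^ l * (uc * ud ^ (m - 1)) := ⟨_, rfl⟩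
  rw [← hL0] at hl0
  rw [← hL1] at hl1
  have key : ∀ (u : M0) (j : ℕ), u ^ m = 1 → (u ^ j) ^ m = 1 := by
    intro u j h
    rw [← pow_mul, mul_comm, pow_mul, h, one_pow]
  have hL0m : L0 ^ m = 1 := by
    rw [hL0]
    refine key _ _ ?_
    rw [mul_pow, mul_pow, mul_pow, hub, hud, key ua _ hua, key uc _ huc]
    simp
  have hL1m : L1 ^ m = 1 := by
    rw [hL1, mul_pow, mul_pow uc, huc, key ud _ hud]
    rw [key (ub * ua ^ (m - 1)) l (by rw [mul_pow, hub, key ua _ hua, one_mul])]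
    simp
  set Λ : Fin 3 → M2 := ![p1 (α L0), p1 (α L1), 1] with hΛ
  have hΛm : ∀ c, Λ c ^ m = 1 := by
    intro c
    fin_cases c
    · show p1 (α L0) ^ m = 1
      rw [← map_pow, ← map_pow, hL0m, map_one, map_one]
    · show p1 (α L1) ^ m = 1
      rw [← map_pow, ← map_pow, hL1m, map_one, map_one]
    · show (1 : M2) ^ m = 1
      exact one_pow m
  have hlamc : ∀ c, CongAt 𝓣.m2 c lam (Λ c) := by
    intro c
    fin_cases c
    · exact hl0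
    · exact hl1
    · exact hl2
  have hΛinv : ∀ c, Λ c * Λ c ^ (m - 1) = 1 := by
    intro c
    rw [← pow_succ', Nat.sub_add_cancel (Nat.pos_of_ne_zero hm0), hΛm]
  -- `W'`
  have hW' : OneMod 𝓣.m2 (W ^ (l ^ 2 - 1) * lam ^ m) := by
    refine oneMod_of_congAt 𝓣.m2 fun c => ?_
    have := CongAt.mul 𝓣.m2 (CongAt.pow 𝓣.m2 (OneMod.congAt 𝓣.m2 hW c) (l ^ 2 - 1))
      (CongAt.pow 𝓣.m2 (hlamc c) m)
    rwa [one_pow, one_mul, hΛm] at this
  have hh' : HorPow (p1 (α π)) m (W ^ (l ^ 2 - 1) * lam ^ m) := hh.pow_mul (l ^ 2 - 1) hlam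
  obtain ⟨a, b, hreg⟩ := 𝓣.reg_all hl 𝓕 n hn hπ
  have hπ0 : p1 (α π) ≠ 0 := 𝓣.m2.pi_ne_zero 0 1 (by decide)
  have hm' : IsUnit (m : M2) := by
    have := hm.map (p1.comp α)
    rwa [map_natCast] at this
  by_cases hmult : ∃ c c' : Fin 3, c ≠ c' ∧ 𝓣.m2.Thru n c ∧ 𝓣.m2.Thru n c'
  · -- a triple point
    obtain ⟨c, c', hcc, hcn, hcn'⟩ := hmult
    have ht := 𝓣.trichotomy 𝓕 n hn c c' hcc hcn hcn'
    obtain ⟨y, hy⟩ := 𝓣.m2.exists_locGen 𝓣.notField hπ0 n hn hπ a b hreg m hm0 W hW hh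
    have hex := fun c => 𝓣.m2.exists_BV 𝓣.notField hπ0 n hn a b hreg m hm0 W hW y hy c (ht c)
    choose v hvn hv using hex
    obtain ⟨r1, r2⟩ := 𝓣.toric_relations 𝓕 hl m hm0 n hn ht W y hy v hv h1 h2 hN1 hN2 ua ub uc ud
      hβ ha hb hc hd
    let _ := Ideal.Quotient.field n
    have hq : ∀ z : M2, Ideal.Quotient.mk n z = 0 ↔ z ∈ n := fun z =>
      Ideal.Quotient.eq_zero_iff_mem
    have hu : ∀ u : M0, u ^ m = 1 → Ideal.Quotient.mk n (p1 (α u)) ^ m = 1 := by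
      intro u hu
      rw [← map_pow, ← map_pow, ← map_pow, hu, map_one, map_one, map_one]
    have ar := toric_arith l m hl hm0 (Ideal.Quotient.mk n (v 0)) (Ideal.Quotient.mk n (v 1))
      (Ideal.Quotient.mk n (v 2)) (Ideal.Quotient.mk n (p1 (α ua)))
      (Ideal.Quotient.mk n (p1 (α ub))) (Ideal.Quotient.mk n (p1 (α uc)))
      (Ideal.Quotient.mk n (p1 (α ud)))
      (fun h => hvn 0 ((hq _).1 h)) (fun h => hvn 1 ((hq _).1 h)) (fun h => hvn 2 ((hq _).1 h))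
      (hu ua hua) (hu ub hub) (hu uc huc) (hu ud hud)
      (by
        have := (hq _).2 r1
        rw [map_sub, sub_eq_zero] at this
        simpa only [map_mul, map_pow] using this)
      (by
        have := (hq _).2 r2
        rw [map_sub, sub_eq_zero] at this
        simpa only [map_mul, map_pow] using this)
    have hy' := hy.pow_mul hn.isPrime (l ^ 2 - 1) hlam
    have hBV : ∀ c, BV 𝓣.m2 n c (y ^ (l ^ 2 - 1) * lam⁻¹) (v c ^ (l ^ 2 - 1) * Λ c ^ (m - 1)) :=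
      fun c => BV.mul 𝓣.m2 hn.isPrime (BV.pow 𝓣.m2 hn.isPrime (hv c) _)
        (BV.inv_of_congAt 𝓣.m2 hn.isPrime (ht c) (hlamc c) (hΛinv c))
    have hval : ∀ c, v c ^ (l ^ 2 - 1) * Λ c ^ (m - 1) - v 2 ^ (l ^ 2 - 1) ∈ n := by
      intro c
      rw [← hq, map_sub, sub_eq_zero, map_mul, map_pow, map_pow, map_pow]
      have hΛq : ∀ c, Ideal.Quotient.mk n (Λ c) * Ideal.Quotient.mk n (Λ c) ^ (m - 1) = 1 := by
        intro c
        rw [← map_pow, ← map_mul, hΛinv, map_one]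
      fin_cases c
      · have e0 : Ideal.Quotient.mk n (Λ 0) = (Ideal.Quotient.mk n (p1 (α ub)) *
            Ideal.Quotient.mk n (p1 (α ud)) * Ideal.Quotient.mk n (p1 (α ua)) ^ (m - 1) *
            Ideal.Quotient.mk n (p1 (α uc)) ^ (m - 1)) ^ (l - 1) := by
          show Ideal.Quotient.mk n (p1 (α L0)) = _
          rw [hL0]
          simp only [map_mul, map_pow]
        show Ideal.Quotient.mk n (v 0) ^ (l ^ 2 - 1) * Ideal.Quotient.mk n (Λ 0) ^ (m - 1) = _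
        rw [ar.1, ← e0]
        calc Ideal.Quotient.mk n (Λ 0) * Ideal.Quotient.mk n (v 2) ^ (l ^ 2 - 1) *
              Ideal.Quotient.mk n (Λ 0) ^ (m - 1)
            = (Ideal.Quotient.mk n (Λ 0) * Ideal.Quotient.mk n (Λ 0) ^ (m - 1)) *
              Ideal.Quotient.mk n (v 2) ^ (l ^ 2 - 1) := by ring
          _ = _ := by rw [hΛq 0, one_mul]
      · have e1 : Ideal.Quotient.mk n (Λ 1) = (Ideal.Quotient.mk n (p1 (α ub)) *
            Ideal.Quotient.mk n (p1 (α ua)) ^ (m - 1)) ^ l * (Ideal.Quotient.mk n (p1 (α uc)) *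
            Ideal.Quotient.mk n (p1 (α ud)) ^ (m - 1)) := by
          show Ideal.Quotient.mk n (p1 (α L1)) = _
          rw [hL1]
          simp only [map_mul, map_pow]
        show Ideal.Quotient.mk n (v 1) ^ (l ^ 2 - 1) * Ideal.Quotient.mk n (Λ 1) ^ (m - 1) = _
        rw [ar.2, ← e1]
        calc Ideal.Quotient.mk n (Λ 1) * Ideal.Quotient.mk n (v 2) ^ (l ^ 2 - 1) *
              Ideal.Quotient.mk n (Λ 1) ^ (m - 1)
            = (Ideal.Quotient.mk n (Λ 1) * Ideal.Quotient.mk n (Λ 1) ^ (m - 1)) *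
              Ideal.Quotient.mk n (v 2) ^ (l ^ 2 - 1) := by ring
          _ = _ := by rw [hΛq 1, one_mul]
      · show Ideal.Quotient.mk n (v 2) ^ (l ^ 2 - 1) * Ideal.Quotient.mk n (1 : M2) ^ (m - 1) = _
        rw [map_one, one_pow, mul_one]
    exact 𝓣.m2.locSol_of_BV 𝓣.notField hπ0 n hn hπ a b hreg m hm' _ hW' _ hy' (v 2 ^ (l ^ 2 - 1))
      (fun c _ => BV.congr 𝓣.m2 (hBV c) (hval c))
  · -- only one component
    push Not at hmult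
    obtain ⟨c₀, hc₀⟩ := 𝓣.m2.exists_thru n hn.isPrime hπ
    obtain ⟨y, hy⟩ := 𝓣.m2.exists_locGen 𝓣.notField hπ0 n hn hπ a b hreg m hm0 _ hW' hh'
    obtain ⟨v, -, hv⟩ := 𝓣.m2.exists_BV 𝓣.notField hπ0 n hn a b hreg m hm0 _ hW' y hy c₀ hc₀
    refine 𝓣.m2.locSol_of_BV 𝓣.notField hπ0 n hn hπ a b hreg m hm' _ hW' y hy v fun c hc => ?_
    have : c = c₀ := by
      by_contra hne
      exact hmult c c₀ hne hc hc₀
    rw [this]
    exact hv

end Fermat.Agent.S36.R
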