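import Fermat.Agent.S36.R.Defs

/-!
# S36 / R / Glue : partition of unity in `Model` language            (task `S36/R-Glue`)

If `V` has a local solution (`LocSol`) at every closed point of the fibre `π = 0` of the chart `M`, then there is a GLOBAL solution
on the chart: `Y ∈ F` with `Y ^ m * V ∈ M`, `Y ≡ 1 mod π O_F`.

Proof (= `Crux.G.exists_lift_of_local`, in `Model` language).
`J := {s : M | ∃ y : F, (∃ r : M, y ^ m * V = r) ∧ ∃ b r : M, VUnit b ∧ (y - s) * b = π * r}` is an ideal of `M`: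
* `add`: the `w`-trick: in `L = AlgebraicClosure F` choose `w` with `w ^ m = V`; `y ^ m * V ∈ M` ⟹ `y * w` is integral over `M`
  (`IsIntegral.of_pow`); so `(y₁ + y₂) * w` is integral, so is its `m`-th power `(y₁ + y₂) ^ m * V ∈ F`, which lies in `M` because `M` is
  integrally closed (`IsIntegrallyClosed.isIntegral_iff`, `isIntegral_algebraMap_iff`).  Denominator `b₁ * b₂` (`R` is a domain).
* `smul`: `c * y`, same `b`.
* `π ∈ J`: `y = 0` (`m ≠ 0`), `b = 1`, `r = -1`.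
If `J ≠ ⊤`, `J ≤ n` maximal, `π ∈ n`, and `LocSol` at `n` gives `s ∈ J \ n`.  So `1 ∈ J`.
-/

set_option autoImplicit false

namespace Fermat.Agent.S36.R

private theorem Glue_add_mem {M F : Type*} [CommRing M] [IsDomain M] [IsIntegrallyClosed M]
    [Field F] [Algebra M F] [IsFractionRing M F] (m : ℕ) (hm : m ≠ 0) (V y₁ y₂ : F)
    (h₁ : ∃ r : M, y₁ ^ m * V = algebraMap M F r) (h₂ : ∃ r : M, y₂ ^ m * V = algebraMap M F r) :
    ∃ r : M, (y₁ + y₂) ^ m * V = algebraMap M F r := by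
  obtain ⟨w, hw⟩ := IsAlgClosed.exists_pow_nat_eq (algebraMap F (AlgebraicClosure F) V)
    (Nat.pos_of_ne_zero hm)
  have key : ∀ y : F, (∃ r : M, y ^ m * V = algebraMap M F r) →
      IsIntegral M (algebraMap F (AlgebraicClosure F) y * w) := by
    rintro y ⟨r, hr⟩
    apply IsIntegral.of_pow (Nat.pos_of_ne_zero hm)
    rw [mul_pow, hw, ← map_pow, ← map_mul, hr, ← IsScalarTower.algebraMap_apply]
    exact isIntegral_algebraMap
  have h3 : IsIntegral M (algebraMap F (AlgebraicClosure F) ((y₁ + y₂) ^ m * V)) := by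
    have h4 := ((key y₁ h₁).add (key y₂ h₂)).pow m
    have h5 : (algebraMap F (AlgebraicClosure F) y₁ * w + algebraMap F (AlgebraicClosure F) y₂ * w) ^ m
        = algebraMap F (AlgebraicClosure F) ((y₁ + y₂) ^ m * V) := by
      rw [← add_mul, mul_pow, hw, ← map_add, ← map_pow, ← map_mul]
    rwa [h5] at h4
  rw [isIntegral_algebraMap_iff (algebraMap F (AlgebraicClosure F)).injective] at h3
  obtain ⟨r, hr⟩ := IsIntegrallyClosed.isIntegral_iff.mp h3
  exact ⟨r, hr.symm⟩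

theorem exists_lift_of_locSol {M R F : Type*} [CommRing M] [IsDomain M] [IsIntegrallyClosed M]
    [CommRing R] [IsDomain R] [Field F] [Algebra M F] [IsFractionRing M F] {π : M} {ι : Type*}
    (𝓜 : Model M R π ι) (m : ℕ) (hm : m ≠ 0) (V : F)
    (h : ∀ n : Ideal M, n.IsMaximal → π ∈ n → LocSol 𝓜 m V n) :
    ∃ Y : F, (∃ r : M, Y ^ m * V = algebraMap M F r) ∧
      ∃ b r : M, 𝓜.VUnit b ∧ (Y - 1) * algebraMap M F b = algebraMap M F (π * r) := by
  have hV1 : 𝓜.VUnit 1 := fun c => by rw [map_one]; exact one_ne_zero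
  let J : Ideal M :=
    { carrier := {s | ∃ y : F, (∃ r : M, y ^ m * V = algebraMap M F r) ∧
        ∃ b r : M, 𝓜.VUnit b ∧ (y - algebraMap M F s) * algebraMap M F b = algebraMap M F (π * r)}
      zero_mem' := ⟨0, ⟨0, by rw [zero_pow hm, zero_mul, map_zero]⟩, 1, 0, hV1, by simp⟩
      add_mem' := by
        rintro s₁ s₂ ⟨y₁, hy₁, b₁, t₁, hb₁, e₁⟩ ⟨y₂, hy₂, b₂, t₂, hb₂, e₂⟩
        refine ⟨y₁ + y₂, Glue_add_mem m hm V y₁ y₂ hy₁ hy₂, b₁ * b₂, t₁ * b₂ + t₂ * b₁,
          fun c => by rw [map_mul]; exact mul_ne_zero (hb₁ c) (hb₂ c), ?_⟩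
        simp only [map_mul, map_add] at e₁ e₂ ⊢
        linear_combination algebraMap M F b₂ * e₁ + algebraMap M F b₁ * e₂
      smul_mem' := by
        rintro c s ⟨y, ⟨r, hr⟩, b, t, hb, e⟩
        refine ⟨algebraMap M F c * y, ⟨c ^ m * r, ?_⟩, b, c * t, hb, ?_⟩
        · rw [mul_pow, mul_assoc, hr, map_mul, map_pow]
        · simp only [map_mul, smul_eq_mul] at e ⊢
          linear_combination algebraMap M F c * e }
  have hπJ : π ∈ J := ⟨0, ⟨0, by rw [zero_pow hm, zero_mul, map_zero]⟩, 1, -1, hV1, by simp⟩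
  have hJ : J = ⊤ := by
    by_contra hne
    obtain ⟨n, hn, hJn⟩ := Ideal.exists_le_maximal J hne
    obtain ⟨s, y, hs, hy, hb⟩ := h n hn (hJn hπJ)
    exact hs (hJn ⟨y, hy, hb⟩)
  have h1 : (1 : M) ∈ J := by rw [hJ]; exact Submodule.mem_top
  obtain ⟨Y, hY, b, r, hb, e⟩ := h1
  rw [map_one] at e
  exact ⟨Y, hY, b, r, hb, e⟩

end Fermat.Agent.S36.R
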