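import Fermat.Agent.SS.G2.End
import Fermat.Agent.Crux.GM.Root
import Fermat.Agent.Crux.GM.AlgClosed

/-!
# S36 / R / Global : from the two chart lifts to a global `m`-th root        (tasks `S36/R-Global-a,b,c,d`)

Language of `Crux/G` (`IntX`, `IsOLx`, `IsPiOLx`).  `V ≡ 1 mod π O_F`; `Y0 ≡ 1`, `Y0 ^ m * V ∈ M(x)`; `Yinf ≡ 1`,
`Yinf ^ m * V ∈ M(x⁻¹)`.  Then `V` is an `m`-th power in `F`.

* `pow_of_lifts` (a): given an `m`-th root `v` of `V` in a big field `𝕃` satisfying (H0).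
  `SS.G2.g2_end` with `Wz = Y0 ^ m * V`, `t = Yinf / Y0`, `z = Y0 * v`:
  `Y0 ≠ 0` (else `-1 ∈ π O_F`), `Y0⁻¹ ∈ O_F` (`IsOL.inv_of_sub_one`-type lemma used in `SS/G2/EndPrime.lean`), `t - 1 = (Yinf - Y0) * Y0⁻¹`,
  `Wz - 1 = (Y0 ^ m - 1) * V + (V - 1)` (`SS.G2.EndAux.isPiOLx_pow_sub_one`), `t ^ m * Wz = Yinf ^ m * V`.  `g = h / Y0`.
* `order_nonneg_of_intX` (b): elements of `M(x⁻¹)` are power series in `q` whose constant term lies in `A`.
  `y` is a root of a monic `P ∈ A[X][T]` (chart `X ↦ x⁻¹`), `Φ x⁻¹` has positive order.  If `ord (Φ y) = -n < 0` the term `y ^ d` has order `-n d`, all the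
  others have order `> -n d` (cf. `Crux.G.Emb.coeff_order_nonneg`).  So `Φ y`, `Φ x⁻¹` come from `K⟦X⟧` (`HahnSeries.ofPowerSeries`),
  apply the ring hom `PowerSeries.constantCoeff`: the constant term is a root of the monic polynomial `P(X = 0) ∈ A[T]`, so it is integral over `A`,
  so it lies in `A` (`IsIntegrallyClosed.isIntegral_iff`).
* `exists_root` (c): `r = Yinf ^ m * V ∈ M(x⁻¹)`, `r - 1 ∈ π O_F` ⟹ `r = 1 + π r'`, `r' ∈ M(x⁻¹)` (`Crux.G.intX_of_smul` in the chart `x⁻¹`,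
  `isPiOLx_inv_iff`); by (b) `Φ r` has order `0` and leading coefficient `1 + π a`, an `m`-th power by `htame`;
  `Crux.GM.exists_pow_eq_laurent`: `Φ r = w ^ m`; `v = w / Φ Yinf`.
* `global` (d): assembly; `𝕃 = LaurentSeries K` with the algebra structures induced by `Φ` (`letI := Φ.toAlgebra`, ...); (H0) is
  `Crux.GM.eq_C_of_isIntegralElem`.
-/

set_option autoImplicit false

open Polynomial

namespace Fermat.Agent.S36.R.Global

open Fermat.Agent.Crux.G

/-- (a) -/
theorem pow_of_lifts {A E F 𝕃 : Type*} [CommRing A] [IsDomain A] [IsDiscreteValuationRing A]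
    [Field E] [Field F] [Field 𝕃] [CharZero E] [Algebra A E] [Algebra E F] [Algebra A F]
    [IsScalarTower A E F] [FiniteDimensional E F]
    [Algebra F 𝕃] [Algebra E 𝕃] [IsScalarTower E F 𝕃] [Algebra A 𝕃] [IsScalarTower A E 𝕃]
    (π : A) (hπ : Irreducible π) (x : E) (hx : Transcendental A x)
    (hgen : ∀ c : E, ∃ p q : A[X], q ≠ 0 ∧ c * aeval x q = aeval x p)
    (H0 : ∀ z : 𝕃, IsIntegral A z → z ∈ Set.range (algebraMap A 𝕃))
    (m : ℕ) (hm0 : 0 < m) (hmπ : ¬ π ∣ (m : A)) (ζ : A) (hζ : IsPrimitiveRoot ζ m)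
    (V : F) (hV1 : IsPiOLx π x (V - 1))
    (Y0 Yinf : F) (h0 : IntX A x (Y0 ^ m * V)) (hinf : IntX A x⁻¹ (Yinf ^ m * V))
    (h01 : IsPiOLx π x (Y0 - 1)) (hinf1 : IsPiOLx π x (Yinf - 1))
    (v : 𝕃) (hv : v ^ m = algebraMap F 𝕃 V) : ∃ g : F, g ^ m = V := by

  let _ := algL (A := A) F x
  have hp := hπ.prime
  have hV1' : IsPiOL π (V - 1) := hV1
  have h01' : IsPiOL π (Y0 - 1) := h01
  have hinf1' : IsPiOL π (Yinf - 1) := hinf1
  have hY0 : Y0 ≠ 0 := by
    rintro rfl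
    have h1 : IsPiOLx π x (algebraMap A F (-1)) := by
      have e : algebraMap A F (-1) = (0 : F) - 1 := by rw [map_neg, map_one, zero_sub]
      rw [e]; exact h01
    have h2 : π ∣ -1 := dvd_of_isPiOLx_algebraMap hπ hx hgen h1
    exact hπ.not_isUnit (isUnit_of_dvd_unit h2 isUnit_one.neg)
  have hVO : IsOL π V := by
    have := (IsPiOL.isOL hV1').add hp (isOL_one (L := F) hp)
    simpa using this
  have hY0inv : IsOL π Y0⁻¹ := SS.G2.IsOL.inv_of_sub_one hp h01'
  have ht : IsPiOLx π x (Yinf / Y0 - 1) := by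
    show IsPiOL π (Yinf / Y0 - 1)
    have e : Yinf / Y0 - 1 = ((Yinf - 1) - (Y0 - 1)) * Y0⁻¹ := by
      field_simp
      ring
    rw [e]
    exact IsPiOL.mul_right hp (hinf1'.sub hp h01') hY0inv
  have hW1 : IsPiOLx π x (Y0 ^ m * V - 1) := by
    show IsPiOL π (Y0 ^ m * V - 1)
    have e : Y0 ^ m * V - 1 = (Y0 ^ m - 1) * V + (V - 1) := by ring
    rw [e]
    have h3 : IsPiOL π (Y0 ^ m - 1) := SS.G2.EndAux.isPiOLx_pow_sub_one π hπ x Y0 h01 m
    exact (IsPiOL.mul_right hp h3 hVO).add hp hV1'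
  have htW : IntX A x⁻¹ ((Yinf / Y0) ^ m * (Y0 ^ m * V)) := by
    have e : (Yinf / Y0) ^ m * (Y0 ^ m * V) = Yinf ^ m * V := by
      rw [div_pow, ← mul_assoc, div_mul_cancel₀ _ (pow_ne_zero _ hY0)]
    rw [e]; exact hinf
  have hz : (algebraMap F 𝕃 Y0 * v) ^ m = algebraMap F 𝕃 (Y0 ^ m * V) := by
    rw [mul_pow, hv, map_mul, map_pow]
  obtain ⟨h, hh⟩ := SS.G2.g2_end π hπ x hx hgen H0 (Yinf / Y0) ht m hm0 hmπ ζ hζ
    (algebraMap F 𝕃 Y0 * v) (Y0 ^ m * V) hz h0 hW1 htW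
  refine ⟨h / Y0, ?_⟩
  apply (algebraMap F 𝕃).injective
  have hY0' : algebraMap F 𝕃 Y0 ≠ 0 := (_root_.map_ne_zero _).2 hY0
  rw [map_pow, map_div₀, hh, mul_div_cancel_left₀ _ hY0', hv]

/-- (b, helper) a Laurent series of nonnegative order is a power series. -/
theorem Globalb_exists_powerSeries {K : Type*} [Field K] (s : LaurentSeries K) (hs : 0 ≤ s.order) :
    ∃ p : PowerSeries K, HahnSeries.ofPowerSeries ℤ K p = s := by
  obtain ⟨n, hn⟩ := Int.eq_ofNat_of_zero_le hs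
  refine ⟨PowerSeries.X ^ n * s.powerSeriesPart, ?_⟩
  rw [map_mul, HahnSeries.ofPowerSeries_X_pow, ← hn]
  exact s.single_order_mul_powerSeriesPart

/-- (b, helper) a power series has nonnegative order. -/
theorem Globalb_order_nonneg {K : Type*} [Field K] (p : PowerSeries K) :
    0 ≤ (HahnSeries.ofPowerSeries ℤ K p).order := by
  by_cases h0 : HahnSeries.ofPowerSeries ℤ K p = 0
  · rw [h0, HahnSeries.order_zero]
  by_contra hlt
  rw [not_le] at hlt
  apply h0
  rw [← HahnSeries.coeff_order_eq_zero]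
  have := PowerSeries.coeff_coe (f := p) (HahnSeries.ofPowerSeries ℤ K p).order
  rw [if_pos hlt] at this
  exact this

/-- (b, helper) the constant coefficient. -/
theorem Globalb_coeff_zero {K : Type*} [Field K] (p : PowerSeries K) :
    (HahnSeries.ofPowerSeries ℤ K p).coeff 0 = PowerSeries.constantCoeff p := by
  have := PowerSeries.coeff_coe (f := p) 0
  rw [if_neg (lt_irrefl _)] at this
  rw [← PowerSeries.coeff_zero_eq_constantCoeff_apply]
  exact this

/-- (b) -/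
theorem order_nonneg_of_intX {A K E F : Type*} [CommRing A] [IsDomain A] [IsIntegrallyClosed A]
    [Field K] [Algebra A K] [IsFractionRing A K]
    [Field E] [Field F] [Algebra A E] [Algebra E F] [Algebra A F] [IsScalarTower A E F]
    (t : E) (Φ : F →+* LaurentSeries K)
    (hΦA : ∀ a : A, Φ (algebraMap A F a) = HahnSeries.C (algebraMap A K a))
    (hΦt : 0 < (Φ (algebraMap E F t)).order) (y : F) (hy : IntX A t y) :
    0 ≤ (Φ y).order ∧ ∃ a : A, (Φ y).coeff 0 = algebraMap A K a := by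
  obtain ⟨P, hP, hPy⟩ := hy
  obtain ⟨τ, hτ⟩ := Globalb_exists_powerSeries _ hΦt.le
  have hτ0 : PowerSeries.constantCoeff τ = 0 := by
    rw [← Globalb_coeff_zero, hτ]
    exact HahnSeries.coeff_eq_zero_of_lt_order hΦt
  let f0 : A[X] →+* F := (algebraMap E F).comp ((aeval t : A[X] →ₐ[A] E) : A[X] →+* E)
  let g : A[X] →+* PowerSeries K := eval₂RingHom ((PowerSeries.C).comp (algebraMap A K)) τ
  have hfg : Φ.comp f0 = (HahnSeries.ofPowerSeries ℤ K).comp g := by
    apply Polynomial.ringHom_ext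
    · intro a
      show Φ (algebraMap E F (aeval t (C a))) = HahnSeries.ofPowerSeries ℤ K (eval₂ _ τ (C a))
      rw [aeval_C, ← IsScalarTower.algebraMap_apply, hΦA, eval₂_C]
      exact (PowerSeries.coe_C _).symm
    · show Φ (algebraMap E F (aeval t X)) = HahnSeries.ofPowerSeries ℤ K (eval₂ _ τ X)
      rw [aeval_X, eval₂_X, hτ]
  have hPy' : eval₂ (Φ.comp f0) (Φ y) P = 0 := by
    rw [← Polynomial.hom_eval₂]
    have : eval₂ f0 y P = 0 := hPy
    rw [this, map_zero]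
  have hint1 : IsIntegral (PowerSeries K) (Φ y) := by
    refine ⟨P.map g, hP.map _, ?_⟩
    rw [eval₂_map]
    have : (algebraMap (PowerSeries K) (LaurentSeries K)).comp g = Φ.comp f0 := by
      rw [hfg]
      rfl
    rw [this]
    exact hPy'
  obtain ⟨η, hη⟩ := IsIntegrallyClosed.isIntegral_iff.mp hint1
  replace hη : HahnSeries.ofPowerSeries ℤ K η = Φ y := hη
  refine ⟨hη ▸ Globalb_order_nonneg η, ?_⟩
  have h1 : eval₂ g η P = 0 := by
    apply HahnSeries.ofPowerSeries_injective (Γ := ℤ) (R := K)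
    rw [Polynomial.hom_eval₂, map_zero, hη, ← hfg]
    exact hPy'
  have h2 : eval₂ ((PowerSeries.constantCoeff (R := K)).comp g) (PowerSeries.constantCoeff η) P = 0 := by
    rw [← Polynomial.hom_eval₂, h1, map_zero]
  have hcg : (PowerSeries.constantCoeff (R := K)).comp g
      = (algebraMap A K).comp (evalRingHom (0 : A)) := by
    apply Polynomial.ringHom_ext
    · intro a
      show PowerSeries.constantCoeff (eval₂ _ τ (C a)) = algebraMap A K (eval 0 (C a))
      rw [eval₂_C, eval_C]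
      simp
    · show PowerSeries.constantCoeff (eval₂ _ τ X) = algebraMap A K (eval 0 X)
      rw [eval₂_X, eval_X, hτ0, map_zero]
  have hint : IsIntegral A (PowerSeries.constantCoeff η) := by
    refine ⟨P.map (evalRingHom (0 : A)), hP.map _, ?_⟩
    rw [eval₂_map, ← hcg]
    exact h2
  obtain ⟨a, ha⟩ := IsIntegrallyClosed.isIntegral_iff.mp hint
  exact ⟨a, by rw [← hη, Globalb_coeff_zero, ha]⟩

/-- (c) -/
theorem exists_root {A K E F : Type*} [CommRing A] [IsDomain A] [IsDiscreteValuationRing A]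
    [Field K] [CharZero K] [Algebra A K] [IsFractionRing A K]
    [Field E] [Field F] [CharZero E] [Algebra A E] [Algebra E F] [Algebra A F]
    [IsScalarTower A E F] [FiniteDimensional E F]
    (π : A) (hπ : Irreducible π) (x : E) (hx : Transcendental A x)
    (hgen : ∀ c : E, ∃ p q : A[X], q ≠ 0 ∧ c * aeval x q = aeval x p)
    (Φ : F →+* LaurentSeries K)
    (hΦA : ∀ a : A, Φ (algebraMap A F a) = HahnSeries.C (algebraMap A K a))
    (hΦx : (Φ (algebraMap E F x)).order < 0)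
    (m : ℕ) (hm0 : 0 < m) (htame : ∀ u : A, π ∣ u - 1 → ∃ c : A, c ^ m = u)
    (V Yinf : F) (hV1 : IsPiOLx π x (V - 1)) (hinf : IntX A x⁻¹ (Yinf ^ m * V))
    (hinf1 : IsPiOLx π x (Yinf - 1)) : ∃ v : LaurentSeries K, v ^ m = Φ V := by
  have hp := hπ.prime
  have hx0 : x ≠ 0 := fun h => hx (h ▸ isAlgebraic_zero)
  set r : F := Yinf ^ m * V with hr
  -- `r - 1 ∈ π O_F`
  have hr1 : IsPiOLx π x (r - 1) := by
    have h1 := SS.G2.EndAux.isPiOLx_pow_sub_one π hπ x Yinf hinf1 m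
    letI := algL (A := A) F x
    have h1' : IsPiOL π (Yinf ^ m - 1) := h1
    have hV1' : IsPiOL π (V - 1) := hV1
    have hVO : IsOL π V := by
      have := (IsPiOL.isOL hV1').add hp (isOL_one (L := F) hp)
      simpa using this
    show IsPiOL π (r - 1)
    have e : r - 1 = (Yinf ^ m - 1) * V + (V - 1) := by rw [hr]; ring
    rw [e]
    exact (IsPiOL.mul_right hp h1' hVO).add hp hV1'
  have hr1' : IsPiOLx π x⁻¹ (r - 1) := (isPiOLx_inv_iff hp hx0 _).2 hr1
  have hrint : IntX A x⁻¹ (r - 1) := by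
    letI := algL (A := A) F x⁻¹
    have h2 : IsIntegral A[X] r := hinf
    exact h2.sub isIntegral_one
  obtain ⟨z, hz, hrz⟩ := intX_of_smul hπ (transcendental_inv hx) (hgen_inv hx hgen) hrint hr1'
  -- the order of `Φ x⁻¹`
  have hΦx0 : Φ (algebraMap E F x) ≠ 0 := by
    intro h0
    rw [h0, HahnSeries.order_zero] at hΦx
    exact lt_irrefl _ hΦx
  have hΦt : 0 < (Φ (algebraMap E F x⁻¹)).order := by
    have hinv0 : Φ (algebraMap E F x⁻¹) ≠ 0 := by
      rw [map_inv₀, map_inv₀]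
      exact inv_ne_zero hΦx0
    have h3 : Φ (algebraMap E F x) * Φ (algebraMap E F x⁻¹) = 1 := by
      rw [← map_mul, ← map_mul, mul_inv_cancel₀ hx0, map_one, map_one]
    have h4 := HahnSeries.order_mul hΦx0 hinv0
    rw [h3, HahnSeries.order_one] at h4
    omega
  obtain ⟨-, a, ha⟩ := order_nonneg_of_intX x⁻¹ Φ hΦA hΦt z hz
  obtain ⟨hrord, -⟩ := order_nonneg_of_intX x⁻¹ Φ hΦA hΦt r hinf
  have hΦr : Φ r = 1 + HahnSeries.C (algebraMap A K π) * Φ z := by
    have e : r = 1 + algebraMap E F (algebraMap A E π) * z := by rw [← hrz]; ring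
    rw [e, map_add, map_one, map_mul, ← IsScalarTower.algebraMap_apply, hΦA]
  have hc0 : (Φ r).coeff 0 = algebraMap A K (1 + π * a) := by
    rw [hΦr, HahnSeries.coeff_add, HahnSeries.coeff_one, if_pos rfl, HahnSeries.C_mul_eq_smul,
      HahnSeries.coeff_smul, ha, smul_eq_mul, map_add, map_one, map_mul]
  obtain ⟨c, hc⟩ := htame (1 + π * a) ⟨a, by ring⟩
  have hne : (1 + π * a) ≠ 0 := by
    intro h0
    apply hπ.not_isUnit
    exact IsUnit.of_mul_eq_one (-a) (by linear_combination -h0)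
  have hc0ne : (Φ r).coeff 0 ≠ 0 := by
    rw [hc0]
    intro h0
    exact hne ((IsFractionRing.injective A K) (by rw [h0, map_zero]))
  have hΦr0 : Φ r ≠ 0 := by
    intro h0
    rw [h0] at hc0ne
    exact hc0ne rfl
  have hord : (Φ r).order = 0 := le_antisymm (HahnSeries.order_le_of_coeff_ne_zero hc0ne) hrord
  obtain ⟨w, hw⟩ := Crux.GM.exists_pow_eq_laurent m hm0 (Φ r) hΦr0 (by rw [hord]; exact dvd_zero _)
    ⟨algebraMap A K c, by
      rw [HahnSeries.leadingCoeff_eq, hord, hc0, ← map_pow, hc]⟩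
  have hY0 : Φ Yinf ≠ 0 := by
    intro h0
    apply hΦr0
    rw [hr, map_mul, map_pow, h0, zero_pow hm0.ne', zero_mul]
  refine ⟨w / Φ Yinf, ?_⟩
  rw [div_pow, hw, hr, map_mul, map_pow, mul_div_cancel_left₀ _ (pow_ne_zero _ hY0)]

/-- (d) **Global step.** -/
theorem global {A K E F : Type*} [CommRing A] [IsDomain A] [IsDiscreteValuationRing A]
    [Field K] [CharZero K] [Algebra A K] [IsFractionRing A K]
    [Field E] [Field F] [CharZero E] [Algebra A E] [Algebra E F] [Algebra A F]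
    [IsScalarTower A E F] [FiniteDimensional E F]
    (π : A) (hπ : Irreducible π) (x : E) (hx : Transcendental A x)
    (hgen : ∀ c : E, ∃ p q : A[X], q ≠ 0 ∧ c * aeval x q = aeval x p)
    (Φ : F →+* LaurentSeries K)
    (hΦA : ∀ a : A, Φ (algebraMap A F a) = HahnSeries.C (algebraMap A K a))
    (hΦx : (Φ (algebraMap E F x)).order < 0)
    (m : ℕ) (hm0 : 0 < m) (hmπ : ¬ π ∣ (m : A)) (ζ : A) (hζ : IsPrimitiveRoot ζ m)
    (htame : ∀ u : A, π ∣ u - 1 → ∃ c : A, c ^ m = u)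
    (V : F) (hV1 : IsPiOLx π x (V - 1))
    (Y0 Yinf : F) (h0 : IntX A x (Y0 ^ m * V)) (hinf : IntX A x⁻¹ (Yinf ^ m * V))
    (h01 : IsPiOLx π x (Y0 - 1)) (hinf1 : IsPiOLx π x (Yinf - 1)) : ∃ g : F, g ^ m = V := by
  obtain ⟨v, hv⟩ := exists_root π hπ x hx hgen Φ hΦA hΦx m hm0 htame V Yinf hV1 hinf hinf1
  let iF : Algebra F (LaurentSeries K) := Φ.toAlgebra
  let iE : Algebra E (LaurentSeries K) := (Φ.comp (algebraMap E F)).toAlgebra
  let iA : Algebra A (LaurentSeries K) := (Φ.comp (algebraMap A F)).toAlgebra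
  have tEF : @IsScalarTower E F (LaurentSeries K) _ iF.toSMul iE.toSMul :=
    @IsScalarTower.of_algebraMap_eq E F (LaurentSeries K) _ _ _ _ iF iE fun _ => rfl
  have tAE : @IsScalarTower A E (LaurentSeries K) _ iE.toSMul iA.toSMul :=
    @IsScalarTower.of_algebraMap_eq A E (LaurentSeries K) _ _ _ _ iE iA fun a => by
      change Φ (algebraMap A F a) = Φ (algebraMap E F (algebraMap A E a))
      rw [← IsScalarTower.algebraMap_apply]
  refine @pow_of_lifts A E F (LaurentSeries K) _ _ _ _ _ _ _ _ _ _ _ _ iF iE tEF iA tAE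
    π hπ x hx hgen ?_ m hm0 hmπ ζ hζ V hV1 Y0 Yinf h0 hinf h01 hinf1 v hv
  intro z hz
  obtain ⟨P, hP, hPz⟩ := hz
  have hcomp : @algebraMap A (LaurentSeries K) _ _ iA
      = (HahnSeries.C : K →+* LaurentSeries K).comp (algebraMap A K) := RingHom.ext hΦA
  obtain ⟨a, ha⟩ := Fermat.Agent.Crux.GM.eq_C_of_isIntegralElem (A := A) z ⟨P, hP, by
    rw [← hcomp]; exact hPz⟩
  exact ⟨a, by rw [ha, hcomp]; rfl⟩

end Fermat.Agent.S36.R.Global
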