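import Fermat.Agent.S36.R.Defs
import Fermat.Prelude.Def_AlgebraicCurve_DivisorClassGroup

/-!
# S36 / R / Hor : `HorPow` from the divisibility of the orders at all places      (tasks `S36/R-Hor-a,b,c,d`)

One chart: `A` a DVR, `E = Frac A[X]`, `F / E` finite, char. 0, `M = integralClosure A[X] F`, `K = Frac A ⊆ F`.

* (a) `isDVR_localization`: for a prime `𝔮 ≠ ⊥` of `M` with `π ∉ 𝔮`, `M_𝔮` is a DVR.
  `M` is noetherian (`IsIntegralClosure.isNoetherianRing A[X] E F M`), integrally closed (`integralClosure.isIntegrallyClosedOfFiniteExtension E`),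
  so `M_𝔮` is a noetherian integrally closed local domain, not a field (`𝔮 ≠ ⊥`).  By `IsDiscreteValuationRing.TFAE` (or
  `tfae_of_isNoetherianRing_of_isLocalRing_of_isDomain`) it remains to see that `𝔮` has height one: let `⊥ ≠ 𝔮' ≤ 𝔮` be prime,
  `𝔭' ≤ 𝔭` the contractions to `A[X]`; `𝔭' ≠ ⊥` (`Ideal.comap_ne_bot_of_integral_mem` / `IsIntegralClosure.comap_ne_bot`), so `𝔭'` contains a prime
  element `g` (UFD), `C π ∤ g`... ; CLAIM `𝔭 = (g)`: for `f ∈ 𝔭`, either `g ∣ f`, or `f`, `g` are coprime in `K[X]` and then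
  `u f + v g = C c`, `c ≠ 0` in `A` (clear denominators), `c = unit * π ^ k`, so `C π ∈ 𝔭`: contradiction.
  [`g` is primitive and irreducible, so irreducible in `K[X]` (`Polynomial.IsPrimitive.irreducible_iff_irreducible_map_fraction_map`) and
  `g ∣ f` in `K[X]` ⟹ `g ∣ f` in `A[X]` (`Polynomial.IsPrimitive.dvd_of_fraction_map_dvd_fraction_map` after taking the primitive part of `f`).]
  So `𝔭' = 𝔭`, and `𝔮' = 𝔮` by incomparability (`Ideal.comap_lt_comap_of_integral_mem_sdiff` / `Ideal.IsIntegralClosure.comap_lt_comap`).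
* (b) `exists_place_of_dvr`: a DVR `M_𝔮` containing `K` gives a `Place K F` with valuation ring `{a / b : b ∉ 𝔮}`.
  (`ValuationRing.valuation (Localization.AtPrime 𝔮) F`, `.valuationSubring`, `ValuationRing.mem_integer_iff`; the valuation subring is ring-isomorphic
  to `M_𝔮`, hence a PID; `≠ ⊤` because `M_𝔮` is not a field.  `F` is the fraction field of `M_𝔮`: `IsLocalization.AtPrime`,
  `IsFractionRing.isFractionRing_of_isDomain_of_isLocalization`; the algebra `Localization.AtPrime 𝔮 → F` is `IsLocalization.lift`.)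
  Alternatively: `S26/Alg/TwoDim.lean`, second half (`valuationSubring ι hι hfrac h hh hmax`, for a prime element `h`).
* (c) `exists_unit_of_dvd_ord`: `Place.exists_unit_mul_zpow`.
* (d) `horPow_of_places`: assembly (`𝔮 = ⊥`: `y = 1`, `W = a / b`).
-/

set_option autoImplicit false

open Polynomial AlgebraicCurve

namespace Fermat.Agent.S36.R.Hor

/-- primes of `A[X]` not containing `π` have no nonzero prime strictly below them. -/
theorem HorA_eq_of_le {A : Type*} [CommRing A] [IsDomain A] [IsDiscreteValuationRing A]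
    (π : A) (hπ : Irreducible π) (𝔭' 𝔭 : Ideal A[X]) [h𝔭' : 𝔭'.IsPrime] [h𝔭 : 𝔭.IsPrime]
    (hle : 𝔭' ≤ 𝔭) (h0 : 𝔭' ≠ ⊥) (hπ𝔭 : C π ∉ 𝔭) : 𝔭' = 𝔭 := by
  letI : Algebra A[X] (FractionRing A)[X] := Polynomial.algebra A (FractionRing A)
  haveI : IsLocalization ((nonZeroDivisors A).map (C : A →+* A[X])) (FractionRing A)[X] :=
    Polynomial.isLocalization (nonZeroDivisors A) (FractionRing A)
  have hdisj : Disjoint (((nonZeroDivisors A).map (C : A →+* A[X]) : Submonoid A[X]) : Set A[X])
      (𝔭 : Set A[X]) := by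
    rw [Set.disjoint_left]
    rintro _ ⟨a, ha, rfl⟩ hmem
    have ha0 : a ≠ 0 := nonZeroDivisors.ne_zero ha
    obtain ⟨n, u, rfl⟩ := IsDiscreteValuationRing.eq_unit_mul_pow_irreducible ha0 hπ
    have h1 : (C (u : A) : A[X]) * C π ^ n ∈ 𝔭 := by
      have : (C ((u : A) * π ^ n) : A[X]) = C (u : A) * C π ^ n := by rw [C_mul, C_pow]
      rw [← this]
      exact hmem
    rcases h𝔭.mem_or_mem h1 with h2 | h2
    · exact h𝔭.ne_top (Ideal.eq_top_of_isUnit_mem _ h2 (u.isUnit.map C))
    · exact hπ𝔭 (h𝔭.mem_of_pow_mem n h2)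
  have hdisj' : Disjoint (((nonZeroDivisors A).map (C : A →+* A[X]) : Submonoid A[X]) : Set A[X])
      (𝔭' : Set A[X]) := Set.disjoint_of_subset_right hle hdisj
  have hP : (𝔭.map (algebraMap A[X] (FractionRing A)[X])).IsPrime :=
    IsLocalization.isPrime_of_isPrime_disjoint _ _ _ h𝔭 hdisj
  have hP' : (𝔭'.map (algebraMap A[X] (FractionRing A)[X])).IsPrime :=
    IsLocalization.isPrime_of_isPrime_disjoint _ _ _ h𝔭' hdisj'
  have hc : (𝔭.map (algebraMap A[X] (FractionRing A)[X])).comap
      (algebraMap A[X] (FractionRing A)[X]) = 𝔭 :=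
    IsLocalization.under_map_of_isPrime_disjoint _ _ h𝔭 hdisj
  have hc' : (𝔭'.map (algebraMap A[X] (FractionRing A)[X])).comap
      (algebraMap A[X] (FractionRing A)[X]) = 𝔭' :=
    IsLocalization.under_map_of_isPrime_disjoint _ _ h𝔭' hdisj'
  have hne : 𝔭'.map (algebraMap A[X] (FractionRing A)[X]) ≠ ⊥ := by
    intro h
    apply h0
    rw [← hc', h, eq_bot_iff]
    intro x hx
    rw [Ideal.mem_comap, Ideal.mem_bot] at hx
    rw [Ideal.mem_bot]
    have hinj : Function.Injective (algebraMap A[X] (FractionRing A)[X]) :=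
      Polynomial.map_injective _ (IsFractionRing.injective A (FractionRing A))
    exact hinj (by rw [hx, map_zero])
  have hmax : (𝔭'.map (algebraMap A[X] (FractionRing A)[X])).IsMaximal :=
    IsPrime.to_maximal_ideal hne
  have heq := hmax.eq_of_le hP.ne_top (Ideal.map_mono hle)
  rw [← hc', heq, hc]

/-- (a) -/
theorem isDVR_localization {A E F : Type*} [CommRing A] [IsDomain A] [IsDiscreteValuationRing A]
    [Field E] [Algebra A[X] E] [IsFractionRing A[X] E] [CharZero E] [Field F] [Algebra A[X] F]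
    [Algebra E F] [IsScalarTower A[X] E F] [FiniteDimensional E F] (π : A) (hπ : Irreducible π)
    (𝔮 : Ideal (integralClosure A[X] F)) [𝔮.IsPrime] (h0 : 𝔮 ≠ ⊥)
    (hπ𝔮 : algebraMap A[X] (integralClosure A[X] F) (C π) ∉ 𝔮) :
    IsDiscreteValuationRing (Localization.AtPrime 𝔮) := by
  have hN : IsNoetherianRing (integralClosure A[X] F) :=
    IsIntegralClosure.isNoetherianRing A[X] E F (integralClosure A[X] F)
  have hIC : IsIntegrallyClosed (integralClosure A[X] F) :=
    integralClosure.isIntegrallyClosedOfFiniteExtension E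
  have hle : 𝔮.primeCompl ≤ nonZeroDivisors (integralClosure A[X] F) :=
    Ideal.primeCompl_le_nonZeroDivisors 𝔮
  have hN' : IsNoetherianRing (Localization.AtPrime 𝔮) :=
    IsLocalization.isNoetherianRing 𝔮.primeCompl _ hN
  have hIC' : IsIntegrallyClosed (Localization.AtPrime 𝔮) :=
    isIntegrallyClosed_of_isLocalization _ 𝔮.primeCompl hle
  have hinj : Function.Injective (algebraMap (integralClosure A[X] F) (Localization.AtPrime 𝔮)) :=
    IsLocalization.injective (Localization.AtPrime 𝔮) hle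
  -- height one
  have hht : ∀ 𝔮' : Ideal (integralClosure A[X] F), 𝔮'.IsPrime → 𝔮' ≠ ⊥ → 𝔮' ≤ 𝔮 → 𝔮' = 𝔮 := by
    intro 𝔮' h𝔮' hne hle'
    by_contra hcon
    have hlt : 𝔮' < 𝔮 := lt_of_le_of_ne hle' hcon
    have h1 : 𝔮'.comap (algebraMap A[X] (integralClosure A[X] F))
        < 𝔮.comap (algebraMap A[X] (integralClosure A[X] F)) := Ideal.IsIntegral.comap_lt_comap hlt
    have h2 : 𝔮'.comap (algebraMap A[X] (integralClosure A[X] F)) ≠ ⊥ :=
      Ideal.IsIntegral.comap_ne_bot A[X] hne
    have h3 := HorA_eq_of_le π hπ (𝔮'.comap (algebraMap A[X] (integralClosure A[X] F)))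
      (𝔮.comap (algebraMap A[X] (integralClosure A[X] F))) h1.le h2 hπ𝔮
    exact h1.ne h3
  have hmap : 𝔮.map (algebraMap (integralClosure A[X] F) (Localization.AtPrime 𝔮))
      = IsLocalRing.maximalIdeal (Localization.AtPrime 𝔮) :=
    Localization.AtPrime.map_eq_maximalIdeal
  have hmne : IsLocalRing.maximalIdeal (Localization.AtPrime 𝔮) ≠ ⊥ := by
    rw [← hmap]
    intro h
    apply h0
    rw [eq_bot_iff]
    intro x hx
    have h1 : algebraMap (integralClosure A[X] F) (Localization.AtPrime 𝔮) x ∈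
        𝔮.map (algebraMap (integralClosure A[X] F) (Localization.AtPrime 𝔮)) :=
      Ideal.mem_map_of_mem _ hx
    rw [h, Ideal.mem_bot] at h1
    rw [Ideal.mem_bot]
    exact hinj (by rw [h1, map_zero])
  have hnf : ¬ IsField (Localization.AtPrime 𝔮) := by
    rw [IsLocalRing.isField_iff_maximalIdeal_eq]
    exact hmne
  have htfae := (IsDiscreteValuationRing.TFAE (Localization.AtPrime 𝔮) hnf).out 0 3
  rw [htfae]
  refine ⟨hIC', IsLocalRing.maximalIdeal _, ⟨hmne, inferInstance⟩, ?_⟩
  rintro P ⟨hP0, hP⟩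
  have h1 : (P.comap (algebraMap (integralClosure A[X] F) (Localization.AtPrime 𝔮))).IsPrime :=
    Ideal.comap_isPrime _ P
  have h2 : (P.comap (algebraMap (integralClosure A[X] F) (Localization.AtPrime 𝔮))).map
      (algebraMap (integralClosure A[X] F) (Localization.AtPrime 𝔮)) = P :=
    IsLocalization.map_comap 𝔮.primeCompl _ P
  have h3 : P.comap (algebraMap (integralClosure A[X] F) (Localization.AtPrime 𝔮)) ≠ ⊥ := by
    intro h
    rw [h, Ideal.map_bot] at h2
    exact hP0 h2.symm
  have h4 : P.comap (algebraMap (integralClosure A[X] F) (Localization.AtPrime 𝔮)) ≤ 𝔮 := by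
    have h5 : P ≤ IsLocalRing.maximalIdeal (Localization.AtPrime 𝔮) :=
      IsLocalRing.le_maximalIdeal hP.ne_top
    calc P.comap (algebraMap (integralClosure A[X] F) (Localization.AtPrime 𝔮))
        ≤ (IsLocalRing.maximalIdeal (Localization.AtPrime 𝔮)).comap
          (algebraMap (integralClosure A[X] F) (Localization.AtPrime 𝔮)) := Ideal.comap_mono h5
      _ = 𝔮 := Localization.AtPrime.comap_maximalIdeal
  rw [← h2, hht _ h1 h3 h4, hmap]

/-- (b) -/
theorem exists_place_of_dvr {K M F : Type*} [Field K] [CommRing M] [IsDomain M] [Field F]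
    [Algebra K F] [Algebra M F] [IsFractionRing M F] (𝔮 : Ideal M) [𝔮.IsPrime]
    (hdvr : IsDiscreteValuationRing (Localization.AtPrime 𝔮))
    (hK : ∀ c : K, ∃ a b : M, b ∉ 𝔮 ∧ algebraMap K F c * algebraMap M F b = algebraMap M F a) :
    ∃ P : Place K F, ∀ f : F, f ∈ P.toValuationSubring ↔
      ∃ a b : M, b ∉ 𝔮 ∧ f * algebraMap M F b = algebraMap M F a := by
  set L := Localization.AtPrime 𝔮 with hL
  have hinjM : Function.Injective (algebraMap M F) := IsFractionRing.injective M F
  have hne : ∀ b : M, b ∉ 𝔮 → algebraMap M F b ≠ 0 := fun b hb h0 =>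
    hb (by rw [(map_eq_zero_iff _ hinjM).1 h0]; exact 𝔮.zero_mem)
  let ι : L →+* F := IsLocalization.lift (M := 𝔮.primeCompl) (g := algebraMap M F)
    (fun y => (hne y y.2).isUnit)
  have hι : ∀ m : M, ι (algebraMap M L m) = algebraMap M F m := fun m => IsLocalization.lift_eq _ m
  have hmk : ∀ (a : M) (b : 𝔮.primeCompl),
      ι (IsLocalization.mk' L a b) * algebraMap M F b = algebraMap M F a := fun a b => by
    rw [← hι, ← map_mul, IsLocalization.mk'_spec, hι]
  have hιinj : Function.Injective ι := by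
    rw [injective_iff_map_eq_zero]
    intro x hx
    obtain ⟨a, b, rfl⟩ := IsLocalization.exists_mk'_eq 𝔮.primeCompl x
    have h1 := hmk a b
    rw [hx, zero_mul] at h1
    have ha : a = 0 := (map_eq_zero_iff _ hinjM).1 h1.symm
    rw [ha, IsLocalization.mk'_zero]
  have hrange : ∀ f : F, (∃ x : L, ι x = f) ↔
      ∃ a b : M, b ∉ 𝔮 ∧ f * algebraMap M F b = algebraMap M F a := by
    intro f
    constructor
    · rintro ⟨x, rfl⟩
      obtain ⟨a, b, rfl⟩ := IsLocalization.exists_mk'_eq 𝔮.primeCompl x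
      exact ⟨a, b, b.2, hmk a b⟩
    · rintro ⟨a, b, hb, h⟩
      refine ⟨IsLocalization.mk' L a (⟨b, hb⟩ : 𝔮.primeCompl), ?_⟩
      have h1 := hmk a ⟨b, hb⟩
      exact mul_right_cancel₀ (hne b hb) (h1.trans h.symm)
  let V : ValuationSubring F :=
    { ι.range with
      mem_or_inv_mem' := by
        intro f
        obtain ⟨a, b, hb, rfl⟩ := IsFractionRing.div_surjective (A := M) f
        have hb0 : algebraMap M F b ≠ 0 := by
          intro h0
          exact (nonZeroDivisors.ne_zero hb) ((map_eq_zero_iff _ hinjM).1 h0)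
        rcases ValuationRing.dvd_total (algebraMap M L a) (algebraMap M L b) with ⟨c, hc⟩ | ⟨c, hc⟩
        · right
          by_cases ha : algebraMap M F a = 0
          · refine ⟨0, ?_⟩
            rw [ha, zero_div, inv_zero, map_zero]
          · refine ⟨c, ?_⟩
            have h1 := congrArg ι hc
            rw [map_mul, hι, hι] at h1
            rw [inv_div, h1, mul_div_cancel_left₀ _ ha]
        · left
          refine ⟨c, ?_⟩
          have h1 := congrArg ι hc
          rw [map_mul, hι, hι] at h1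
          rw [h1, mul_div_cancel_left₀ _ hb0] }
  have hV : ∀ f : F, f ∈ V ↔ ∃ x : L, ι x = f := fun f => Iff.rfl
  let ρ : L →+* V := ι.codRestrict V (fun x => ⟨x, rfl⟩)
  have hρ : Function.Surjective ρ := by
    rintro ⟨f, x, rfl⟩
    exact ⟨x, rfl⟩
  refine ⟨⟨V, fun c => ?_, ?_, IsPrincipalIdealRing.of_surjective ρ hρ⟩, fun f => (hV f).trans (hrange f)⟩
  · exact (hV _).2 ((hrange _).2 (hK c))
  · intro htop
    obtain ⟨ϖ, hϖ⟩ := IsDiscreteValuationRing.exists_irreducible L
    have h1 : (ι ϖ)⁻¹ ∈ V := by rw [htop]; exact ValuationSubring.mem_top _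
    obtain ⟨c, hc⟩ := (hV _).1 h1
    have hϖ0 : ι ϖ ≠ 0 := fun h0 => hϖ.ne_zero ((map_eq_zero_iff _ hιinj).1 h0)
    have h2 : ι (ϖ * c) = ι 1 := by rw [map_mul, hc, map_one, mul_inv_cancel₀ hϖ0]
    exact hϖ.not_isUnit (IsUnit.of_mul_eq_one _ (hιinj h2))

/-- (c) -/
theorem exists_unit_of_dvd_ord {K F : Type*} [Field K] [Field F] [Algebra K F] (P : Place K F)
    (m : ℕ) (W : F) (hW : W ≠ 0) (h : (m : ℤ) ∣ P.ord W) :
    ∃ y : F, y ≠ 0 ∧ y ^ m * W ∈ P.toValuationSubring ∧ (y ^ m * W)⁻¹ ∈ P.toValuationSubring := by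
  obtain ⟨k, hk⟩ := h
  obtain ⟨ϖ, hϖ⟩ := IsDiscreteValuationRing.exists_irreducible P.toValuationSubring
  obtain ⟨u, hu⟩ := P.exists_unit_mul_zpow hW hϖ
  have hϖ0 : (ϖ : F) ≠ 0 := by
    intro h0
    exact hϖ.ne_zero (Subtype.ext h0)
  have key : ((ϖ : F) ^ (-k)) ^ m * W = ((u : P.toValuationSubring) : F) := by
    conv_lhs => rw [hu]
    rw [hk, ← zpow_natCast, ← zpow_mul, mul_left_comm, ← zpow_add₀ hϖ0]
    have : -k * (m : ℤ) + (m : ℤ) * k = 0 := by ring
    rw [this, zpow_zero, mul_one]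
  refine ⟨(ϖ : F) ^ (-k), zpow_ne_zero _ hϖ0, ?_, ?_⟩
  · rw [key]
    exact (u : P.toValuationSubring).2
  · rw [key]
    have h1 : ((u : P.toValuationSubring) : F) * (((u⁻¹ : P.toValuationSubringˣ) :
        P.toValuationSubring) : F) = 1 := by
      have h2 := congrArg (fun x : P.toValuationSubring => (x : F)) u.mul_inv
      exact h2
    rw [inv_eq_of_mul_eq_one_right h1]
    exact ((u⁻¹ : P.toValuationSubringˣ) : P.toValuationSubring).2

/-- (d) **`HorPow` from the places.** -/
theorem horPow_of_places {A K E F : Type*} [CommRing A] [IsDomain A] [IsDiscreteValuationRing A]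
    [Field K] [Algebra A K] [IsFractionRing A K]
    [Field E] [Algebra A[X] E] [IsFractionRing A[X] E] [CharZero E] [Field F] [Algebra A[X] F]
    [Algebra E F] [IsScalarTower A[X] E F] [FiniteDimensional E F] [Algebra K F]
    (hAK : ∀ a : A, algebraMap A[X] F (C a) = algebraMap K F (algebraMap A K a))
    (π : A) (hπ : Irreducible π) (m : ℕ) (W : F) (hW : W ≠ 0)
    (h : ∀ P : Place K F, (m : ℤ) ∣ P.ord W) :
    HorPow (M := integralClosure A[X] F) (algebraMap A[X] (integralClosure A[X] F) (C π)) m W := by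
  have hfr : IsFractionRing (integralClosure A[X] F) F :=
    integralClosure.isFractionRing_of_finite_extension E F
  have hinj : Function.Injective (algebraMap (integralClosure A[X] F) F) :=
    IsFractionRing.injective _ _
  intro 𝔮 h𝔮 hπ𝔮
  by_cases h0 : 𝔮 = ⊥
  · obtain ⟨a, b, hb, hab⟩ := IsFractionRing.div_surjective (A := integralClosure A[X] F) W
    have hb0 : b ≠ 0 := nonZeroDivisors.ne_zero hb
    have hb0' : algebraMap (integralClosure A[X] F) F b ≠ 0 := by
      rw [Ne, ← map_zero (algebraMap (integralClosure A[X] F) F)]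
      exact fun h => hb0 (hinj h)
    refine ⟨1, a, b, one_ne_zero, ?_, ?_, ?_⟩
    · rw [h0, Ideal.mem_bot]
      rintro rfl
      rw [map_zero, zero_div] at hab
      exact hW hab.symm
    · rw [h0, Ideal.mem_bot]
      exact hb0
    · rw [one_pow, one_mul, ← hab, div_mul_cancel₀ _ hb0']
  · have hdvr := isDVR_localization (E := E) (F := F) π hπ 𝔮 h0 hπ𝔮
    have hC : ∀ y : A, y ≠ 0 → algebraMap A[X] (integralClosure A[X] F) (C y) ∉ 𝔮 := by
      intro y hy
      obtain ⟨n, u, rfl⟩ := IsDiscreteValuationRing.eq_unit_mul_pow_irreducible hy hπ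
      rw [C_mul, C_pow, map_mul, map_pow]
      intro hmem
      rcases h𝔮.mem_or_mem hmem with h1 | h1
      · have hu : IsUnit (algebraMap A[X] (integralClosure A[X] F) (C (u : A))) :=
          (u.isUnit.map C).map _
        exact h𝔮.ne_top (Ideal.eq_top_of_isUnit_mem _ h1 hu)
      · exact hπ𝔮 (h𝔮.mem_of_pow_mem n h1)
    have hK : ∀ c : K, ∃ a b : integralClosure A[X] F, b ∉ 𝔮 ∧
        algebraMap K F c * algebraMap (integralClosure A[X] F) F b =
          algebraMap (integralClosure A[X] F) F a := by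
      intro c
      obtain ⟨x, y, hy, hxy⟩ := IsFractionRing.div_surjective (A := A) c
      have hy0 : y ≠ 0 := nonZeroDivisors.ne_zero hy
      have hy0' : algebraMap A K y ≠ 0 := by
        rw [Ne, ← map_zero (algebraMap A K)]
        exact fun h => hy0 (IsFractionRing.injective A K h)
      refine ⟨algebraMap A[X] (integralClosure A[X] F) (C x),
        algebraMap A[X] (integralClosure A[X] F) (C y), hC y hy0, ?_⟩
      rw [← IsScalarTower.algebraMap_apply A[X] (integralClosure A[X] F) F,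
        ← IsScalarTower.algebraMap_apply A[X] (integralClosure A[X] F) F, hAK, hAK, ← map_mul,
        ← hxy, div_mul_cancel₀ _ hy0']
    obtain ⟨P, hP⟩ := exists_place_of_dvr (K := K) (F := F) 𝔮 hdvr hK
    obtain ⟨y, hy0, h1, h2⟩ := exists_unit_of_dvd_ord P m W hW (h P)
    obtain ⟨a, b, hb, hab⟩ := (hP _).1 h1
    obtain ⟨a', b', hb', hab'⟩ := (hP _).1 h2
    refine ⟨y, a, b, hy0, ?_, hb, hab⟩
    intro ha
    have hne : y ^ m * W ≠ 0 := mul_ne_zero (pow_ne_zero _ hy0) hW
    have hmul : b * b' = a * a' := by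
      apply hinj
      rw [map_mul, map_mul, ← hab, ← hab']
      field_simp
    have : b * b' ∈ 𝔮 := by
      rw [hmul]
      exact 𝔮.mul_mem_right _ ha
    rcases h𝔮.mem_or_mem this with h3 | h3
    · exact hb h3
    · exact hb' h3

end Fermat.Agent.S36.R.Hor
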