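import Fermat.Agent.S36.R.DC.Key
import Fermat.Agent.S36.R.DC.Socle
import Fermat.Agent.S36.R.DC.Dvr

/-!
# S36 / R / DC : the DISCRIMINANT COUNT   (Mathlib only)

`D` a DVR with uniformiser `ϖ` and ALGEBRAICALLY CLOSED residue field `k`, `B` a finite free `D`-algebra with basis
`b : Basis ι D B`, `n = card ι`, `μ` = number of maximal ideals of `B`.

* (A) `pow_dvd_discr`      : `ϖ ^ (n - μ) ∣ discr D b`;
* (B) `exists_generator`   : if `¬ ϖ ^ (n - μ + 1) ∣ discr D b`, every maximal ideal `𝔐` of `B` is locally principal: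
                             `∃ θ ∈ 𝔐, ∀ f ∈ 𝔐, ∃ s ∉ 𝔐, θ ∣ s * f`;
* (C) `isDiscreteValuationRing_localization` : then `B_𝔐` is a DVR.

## Proof (notation: `Bb = B / ϖ B`, `J` = Jacobson radical of `B` = preimage of the nilradical `Jb` of `Bb`)
(0) every maximal ideal of `B` contains `ϖ` (`B` integral over the local ring `D`); `Bb` is a finite dimensional
    `k`-algebra of dimension `n`, `Bb / Jb = k ^ μ` (artinian reduced, residue fields finite over `k = k̄`), so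
    `r := dim_k Jb = n - μ`.
(1) `f ∈ J`, `g ∈ B`  ⟹  `ϖ ∣ trace D B (f * g)`  (the reduction of `f * g` is nilpotent:
    `Algebra.trace_quotient_mk`-type base change + `LinearMap.isNilpotent_trace_of_isNilpotent`).
(2) choose a `D`-basis `v` of `B` indexed by `Fin r ⊕ Fin μ` whose first `r` members lie in `J` (lift a `k`-basis of `Bb`
    extending a basis of `Jb`; Nakayama / `Module.Basis` from a basis mod `ϖ`).  Gram matrix `G = traceMatrix D v`.
    The rows in `Fin r` are divisible by `ϖ`: `det G = ϖ ^ r * det H`.  `discr D b = (unit) ^ 2 * discr D v`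
    (`Algebra.discr_of_matrix_vecMul`, base change matrix invertible).  This is (A).
(3) `H mod ϖ` is block triangular `[[H11, *], [0, H22]]` (entries `trace (v i * v j)`, `i ∈ Fin μ`, `j ∈ Fin r` vanish mod `ϖ`),
    `H11 = (trace (v i * v j) / ϖ mod ϖ)`.  Hence: (KEY) if there is `c ∈ J`, `c ∉ ϖ B`, with `ϖ ^ 2 ∣ trace (c * g)` for all
    `g ∈ J`, then (choose `v` with `v 0 = c`) `H11` has a zero row and `ϖ ^ (r + 1) ∣ discr`.
(4) (B): let `𝔐` be maximal.  Let `t ∈ B` reduce to the idempotent of `Bb` cutting out the local factor at `𝔐`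
    (`t ∉ 𝔐`, `t ∈ 𝔐'` for the others, `t * 𝔐 ⊆ J`).  If `t * 𝔐 ⊆ ϖ B`: `θ = ϖ`.  Otherwise the local factor has a
    nonzero socle element in its maximal ideal: `c ∈ J`, `c ∉ ϖ B`, `c * J ⊆ ϖ B`, `(1 - t) * c ∈ ϖ B`.
    For `f ∈ J` write `c * f = ϖ * g_f`.  If all `g_f ∈ J` then `ϖ ^ 2 ∣ trace (c * f)` by (1): contradiction with (KEY).
    So some `u := g_{f₀} ∉ J`; `(1 - t) * u ∈ J` (as `(1-t) c = ϖ c'`, `c' f₀ = (1-t) u`), so `u ∈ 𝔐'` for `𝔐' ≠ 𝔐`, so `u ∉ 𝔐`.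
    From `(c f) f₀ = (c f₀) f`: `g_f * f₀ = u * f` (`ϖ` is a non-zero-divisor).  So `θ = f₀`, `s = u * t`.
(5) (C): `B_𝔐` is a noetherian local ring with principal maximal ideal `(θ)`, and `ϖ ∈ (θ)` is a non-zero-divisor, so `θ` is
    not nilpotent; Krull intersection: every nonzero element is `unit * θ ^ n`; so `B_𝔐` is a domain and a DVR.
-/

set_option autoImplicit false

namespace Fermat.Agent.S36.R.DC

variable {D B : Type*} [CommRing D] [IsDomain D] [IsDiscreteValuationRing D]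
  [IsAlgClosed (IsLocalRing.ResidueField D)] [CommRing B] [Algebra D B]
  {ι : Type*} [Fintype ι] [DecidableEq ι] (b : Module.Basis ι D B) {ϖ : D} (hϖ : Irreducible ϖ)

include b in
/-- the maximal spectrum of `B` is finite. -/
theorem finite_maximalSpectrum : Finite (MaximalSpectrum B) :=
  finite_maximalSpectrum' b

include hϖ in
/-- **(A)** -/
theorem pow_dvd_discr :
    ϖ ^ (Fintype.card ι - Nat.card (MaximalSpectrum B)) ∣ Algebra.discr D b :=
  pow_dvd_discr' b hϖ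

include b hϖ in
omit [IsAlgClosed (IsLocalRing.ResidueField D)] [DecidableEq ι] [Fintype ι] in
theorem algebraMap_mul_cancel {x y : B} (h : algebraMap D B ϖ * x = algebraMap D B ϖ * y) : x = y := by
  have : Module.Free D B := Module.Free.of_basis b
  rw [← Algebra.smul_def, ← Algebra.smul_def] at h
  exact smul_right_injective B hϖ.ne_zero h

include hϖ in
/-- **(B)** -/
theorem exists_generator
    (h : ¬ ϖ ^ (Fintype.card ι - Nat.card (MaximalSpectrum B) + 1) ∣ Algebra.discr D b)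
    (𝔐 : Ideal B) (h𝔐 : 𝔐.IsMaximal) :
    ∃ θ ∈ 𝔐, ∀ f ∈ 𝔐, ∃ s, s ∉ 𝔐 ∧ θ ∣ s * f := by
  by_cases h0 : ∀ f ∈ 𝔐, ∃ s, s ∉ 𝔐 ∧ algebraMap D B ϖ ∣ s * f
  · exact ⟨_, algebraMap_mem_of_isMaximal b hϖ 𝔐 h𝔐, h0⟩
  obtain ⟨c, hc𝔐, hcϖ, hc⟩ := exists_socle b hϖ 𝔐 h𝔐 h0
  have hcrad : c ∈ rad B ϖ := mem_rad_iff_pow.2 ⟨2, by rw [pow_two]; exact hc c hc𝔐⟩
  -- KEY
  have hex : ∃ f₀ ∈ rad B ϖ, ¬ ϖ ^ 2 ∣ Algebra.trace D B (c * f₀) := by
    by_contra hcon
    push Not at hcon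
    exact h (key b hϖ c hcrad hcϖ hcon)
  obtain ⟨f₀, hf₀, hf₀'⟩ := hex
  have hf₀𝔐 : ∀ 𝔑 : Ideal B, 𝔑.IsMaximal → f₀ ∈ 𝔑 := (mem_rad_iff b hϖ).1 hf₀
  obtain ⟨u, hu⟩ := hc f₀ (hf₀𝔐 𝔐 h𝔐)
  have hurad : u ∉ rad B ϖ := by
    intro hur
    apply hf₀'
    obtain ⟨d, hd⟩ := dvd_trace_of_mem_rad b hϖ.prime hur
    refine ⟨d, ?_⟩
    rw [hu, ← Algebra.smul_def, map_smul, hd, smul_eq_mul]
    ring
  -- the basic identity
  have hid : ∀ f ∈ 𝔐, ∃ g, u * f = f₀ * g := by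
    intro f hf
    obtain ⟨g, hg⟩ := hc f hf
    refine ⟨g, algebraMap_mul_cancel b hϖ ?_⟩
    calc algebraMap D B ϖ * (u * f) = (c * f₀) * f := by rw [hu]; ring
      _ = (c * f) * f₀ := by ring
      _ = algebraMap D B ϖ * (f₀ * g) := by rw [hg]; ring
  have hu𝔐 : u ∉ 𝔐 := by
    intro hu𝔐
    apply hurad
    rw [mem_rad_iff b hϖ]
    intro 𝔑 h𝔑
    by_cases hEq : 𝔑 = 𝔐
    · rw [hEq]; exact hu𝔐
    · have hnle : ¬ 𝔐 ≤ 𝔑 := fun hle => hEq (h𝔐.eq_of_le h𝔑.ne_top hle).symm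
      obtain ⟨y, hy, hy'⟩ := SetLike.not_le_iff_exists.1 hnle
      obtain ⟨g, hg⟩ := hid y hy
      have : u * y ∈ 𝔑 := by rw [hg]; exact Ideal.mul_mem_right _ _ (hf₀𝔐 𝔑 h𝔑)
      exact (h𝔑.isPrime.mem_or_mem this).resolve_right hy'
  exact ⟨f₀, hf₀𝔐 𝔐 h𝔐, fun f hf => ⟨u, hu𝔐, hid f hf⟩⟩

include hϖ in
/-- **(C)** -/
theorem isDiscreteValuationRing_localization
    (h : ¬ ϖ ^ (Fintype.card ι - Nat.card (MaximalSpectrum B) + 1) ∣ Algebra.discr D b)
    (𝔐 : Ideal B) [h𝔐 : 𝔐.IsMaximal] :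
    ∃ _ : IsDomain (Localization.AtPrime 𝔐), IsDiscreteValuationRing (Localization.AtPrime 𝔐) := by
  obtain ⟨θ, hθ, hgen⟩ := exists_generator b hϖ h 𝔐 h𝔐
  have : Module.Finite D B := Module.Finite.of_basis b
  have : IsNoetherianRing B := IsNoetherianRing.of_finite D B
  refine isDVR_of_generator 𝔐 θ hθ hgen (algebraMap D B ϖ)
    (algebraMap_mem_of_isMaximal b hϖ 𝔐 h𝔐) ?_
  rw [mem_nonZeroDivisors_iff_right]
  intro x hx
  refine algebraMap_mul_cancel b hϖ (x := x) (y := 0) ?_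
  rw [mul_zero, mul_comm]; exact hx

end Fermat.Agent.S36.R.DC
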