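import Fermat.Agent.S36.R.Defs
import Fermat.Agent.S26.Alg.TwoDim
import Fermat.Agent.S36.Alg.Reg2Gen
import Fermat.Agent.S36.Alg.RegPar

/-!
# S36 / R / Reg2Loc : dictionary `Reg2At z a b` ⟷ the local ring `M_z`      (helper77)

`M` a domain, `z` a prime ideal, `B = Localization.AtPrime z`, `ι = algebraMap M B`.

* `Reg2Loc.dvd_iff`, `Reg2Loc.mem_span_pair_iff` : elementwise forms of divisibility / membership in `B`;
* `reg2At_iff_loc` : `Reg2At z a b ↔ 𝔪_B = (ι a, ι b) ∧ ∀ k, ¬ ι a ∣ ι b ^ k`;
* `Reg2At.isDVR_quot`, `Reg2At.prime_loc` : (`M` noetherian) `B/(ι a)` is a DVR with uniformiser `ι b`; `ι a` is prime if `a ≠ 0`;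
* `Reg2At.swap'`, `Reg2At.ufd'`, `Reg2At.exists_locPrin'` : the three stubs of `RegStep.lean`;
* `Reg2At.of_span_pair` : `𝔪_B = (ι a, ι b)` and a prime strictly between `⊥` and `z` ⟹ `Reg2At z a b`.
-/

set_option autoImplicit false
set_option linter.unusedSectionVars false

namespace Fermat.Agent.S36.R

open IsLocalRing

namespace Reg2Loc

variable {M : Type*} [CommRing M] [IsDomain M] (z : Ideal M) [hz : z.IsPrime]

theorem inj : Function.Injective (algebraMap M (Localization.AtPrime z)) :=
  IsLocalization.injective _ z.primeCompl_le_nonZeroDivisors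

theorem isUnit_iff (s : M) : IsUnit (algebraMap M (Localization.AtPrime z) s) ↔ s ∉ z :=
  IsLocalization.AtPrime.isUnit_to_map_iff _ z s

theorem exists_eq (x : Localization.AtPrime z) :
    ∃ c t : M, t ∉ z ∧ x * algebraMap M (Localization.AtPrime z) t
      = algebraMap M (Localization.AtPrime z) c := by
  obtain ⟨⟨c, t⟩, h⟩ := IsLocalization.surj z.primeCompl x
  exact ⟨c, t, t.2, h⟩

theorem dvd_iff (a f : M) :
    algebraMap M (Localization.AtPrime z) a ∣ algebraMap M (Localization.AtPrime z) f ↔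
      ∃ s, s ∉ z ∧ a ∣ s * f := by
  constructor
  · rintro ⟨x, hx⟩
    obtain ⟨c, t, ht, hc⟩ := exists_eq z x
    refine ⟨t, ht, c, inj z ?_⟩
    rw [map_mul, map_mul, hx, ← hc]
    ring
  · rintro ⟨s, hs, c, hc⟩
    have h1 : algebraMap M (Localization.AtPrime z) a ∣
        algebraMap M (Localization.AtPrime z) s * algebraMap M (Localization.AtPrime z) f := by
      rw [← map_mul, hc, map_mul]
      exact dvd_mul_right _ _
    exact (((isUnit_iff z s).mpr hs).dvd_mul_left).mp h1

theorem mem_span_pair_iff (a b f : M) :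
    algebraMap M (Localization.AtPrime z) f ∈
      Ideal.span {algebraMap M (Localization.AtPrime z) a, algebraMap M (Localization.AtPrime z) b} ↔
      ∃ s u v : M, s ∉ z ∧ s * f = u * a + v * b := by
  rw [Ideal.mem_span_pair]
  constructor
  · rintro ⟨x, y, hxy⟩
    obtain ⟨c, t, ht, hc⟩ := exists_eq z x
    obtain ⟨c', t', ht', hc'⟩ := exists_eq z y
    refine ⟨t * t', c * t', c' * t, hz.mul_notMem ht ht', inj z ?_⟩
    simp only [map_mul, map_add]
    rw [← hxy, ← hc, ← hc']
    ring
  · rintro ⟨s, u, v, hs, h⟩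
    obtain ⟨w, hw⟩ := ((isUnit_iff z s).mpr hs).exists_left_inv
    refine ⟨w * algebraMap M _ u, w * algebraMap M _ v, ?_⟩
    have h' := congrArg (algebraMap M (Localization.AtPrime z)) h
    simp only [map_mul, map_add] at h'
    linear_combination (-w) * h' + (algebraMap M (Localization.AtPrime z) f) * hw

theorem mem_maximalIdeal_iff (f : M) :
    algebraMap M (Localization.AtPrime z) f ∈ maximalIdeal (Localization.AtPrime z) ↔ f ∈ z := by
  rw [IsLocalRing.mem_maximalIdeal, mem_nonunits_iff, isUnit_iff, not_not]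

/-- an ideal of `B` is determined by the elements of `M` it contains. -/
theorem le_of_forall {I J : Ideal (Localization.AtPrime z)}
    (h : ∀ f : M, algebraMap M (Localization.AtPrime z) f ∈ I →
      algebraMap M (Localization.AtPrime z) f ∈ J) : I ≤ J := by
  intro x hx
  obtain ⟨c, t, ht, hc⟩ := exists_eq z x
  have h1 : algebraMap M (Localization.AtPrime z) c ∈ J := h c (hc ▸ Ideal.mul_mem_right _ _ hx)
  obtain ⟨w, hw⟩ := ((isUnit_iff z t).mpr ht).exists_right_inv
  have h2 : x = algebraMap M (Localization.AtPrime z) c * w := by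
    rw [← hc, mul_assoc, hw, mul_one]
  rw [h2]
  exact Ideal.mul_mem_right _ _ h1

end Reg2Loc

section Dict

variable {M : Type*} [CommRing M] [IsDomain M] {z : Ideal M} [hz : z.IsPrime] {a b : M}

theorem Reg2At.maximalIdeal_loc (h : Reg2At z a b) :
    maximalIdeal (Localization.AtPrime z) =
      Ideal.span {algebraMap M (Localization.AtPrime z) a, algebraMap M (Localization.AtPrime z) b} := by
  apply le_antisymm
  · apply Reg2Loc.le_of_forall z
    intro f hf
    rw [Reg2Loc.mem_maximalIdeal_iff] at hf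
    exact (Reg2Loc.mem_span_pair_iff z a b f).mpr (h.gen f hf)
  · rw [Ideal.span_le]
    rintro x (rfl | rfl)
    · exact (Reg2Loc.mem_maximalIdeal_iff z a).mpr h.mem_a
    · exact (Reg2Loc.mem_maximalIdeal_iff z b).mpr h.mem_b

theorem Reg2At.not_dvd_pow_loc (h : Reg2At z a b) (k : ℕ) :
    ¬ algebraMap M (Localization.AtPrime z) a ∣ algebraMap M (Localization.AtPrime z) b ^ k := by
  rw [← map_pow, Reg2Loc.dvd_iff]
  rintro ⟨s, hs, hd⟩
  exact h.nonnil k s hs hd

theorem Reg2At.of_loc
    (hm : maximalIdeal (Localization.AtPrime z) =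
      Ideal.span {algebraMap M (Localization.AtPrime z) a, algebraMap M (Localization.AtPrime z) b})
    (hn : ∀ k : ℕ,
      ¬ algebraMap M (Localization.AtPrime z) a ∣ algebraMap M (Localization.AtPrime z) b ^ k) :
    Reg2At z a b where
  mem_a := (Reg2Loc.mem_maximalIdeal_iff z a).mp (hm ▸ Ideal.subset_span (by simp))
  mem_b := (Reg2Loc.mem_maximalIdeal_iff z b).mp (hm ▸ Ideal.subset_span (by simp))
  gen := fun f hf => (Reg2Loc.mem_span_pair_iff z a b f).mp
    (hm ▸ (Reg2Loc.mem_maximalIdeal_iff z f).mpr hf)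
  nonnil := fun k s hs hd => hn k (by
    rw [← map_pow, Reg2Loc.dvd_iff]
    exact ⟨s, hs, hd⟩)

theorem reg2At_iff_loc : Reg2At z a b ↔
    maximalIdeal (Localization.AtPrime z) =
      Ideal.span {algebraMap M (Localization.AtPrime z) a, algebraMap M (Localization.AtPrime z) b} ∧
    ∀ k : ℕ,
      ¬ algebraMap M (Localization.AtPrime z) a ∣ algebraMap M (Localization.AtPrime z) b ^ k :=
  ⟨fun h => ⟨h.maximalIdeal_loc, h.not_dvd_pow_loc⟩, fun h => Reg2At.of_loc h.1 h.2⟩

end Dict

section Noeth

variable {M : Type*} [CommRing M] [IsDomain M] [IsNoetherianRing M] {z : Ideal M} [hz : z.IsPrime]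
  {a b : M}

/-- `B/(ι a)` is a local ring. -/
theorem Reg2At.isLocalRing_quot (h : Reg2At z a b) :
    IsLocalRing (Localization.AtPrime z ⧸
      Ideal.span {algebraMap M (Localization.AtPrime z) a}) :=
  Alg.Reg2Gen.isLocalRing_quot h.maximalIdeal_loc

/-- `B/(ι a)` is a domain. -/
theorem Reg2At.isDomain_quot (h : Reg2At z a b) :
    IsDomain (Localization.AtPrime z ⧸
      Ideal.span {algebraMap M (Localization.AtPrime z) a}) := by
  have := h.isLocalRing_quot
  refine Alg.isDomain_of_principal (Alg.Reg2Gen.maximalIdeal_quot h.maximalIdeal_loc) fun n hn => ?_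
  rw [← map_pow, Ideal.Quotient.eq_zero_iff_mem, Ideal.mem_span_singleton] at hn
  exact h.not_dvd_pow_loc n hn

/-- `B/(ι a)` is a DVR. -/
theorem Reg2At.isDVR_quot (h : Reg2At z a b)
    [IsDomain (Localization.AtPrime z ⧸ Ideal.span {algebraMap M (Localization.AtPrime z) a})] :
    IsDiscreteValuationRing (Localization.AtPrime z ⧸
      Ideal.span {algebraMap M (Localization.AtPrime z) a}) := by
  have := h.isLocalRing_quot
  refine Alg.isDiscreteValuationRing_of_principal
    (Alg.Reg2Gen.maximalIdeal_quot h.maximalIdeal_loc) fun hn => ?_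
  rw [Ideal.Quotient.eq_zero_iff_mem, Ideal.mem_span_singleton] at hn
  exact h.not_dvd_pow_loc 1 (by simpa using hn)

/-- `ι b` is a uniformiser of `B/(ι a)`. -/
theorem Reg2At.irreducible_mk (h : Reg2At z a b)
    [IsDomain (Localization.AtPrime z ⧸ Ideal.span {algebraMap M (Localization.AtPrime z) a})] :
    Irreducible (Ideal.Quotient.mk (Ideal.span {algebraMap M (Localization.AtPrime z) a})
      (algebraMap M (Localization.AtPrime z) b)) := by
  have := h.isDVR_quot
  rw [IsDiscreteValuationRing.irreducible_iff_uniformizer]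
  exact Alg.Reg2Gen.maximalIdeal_quot h.maximalIdeal_loc

/-- `ι a` is a prime element of `B`. -/
theorem Reg2At.prime_loc (h : Reg2At z a b) (ha : a ≠ 0) :
    Prime (algebraMap M (Localization.AtPrime z) a) := by
  have hd := h.isDomain_quot
  have hp : (Ideal.span {algebraMap M (Localization.AtPrime z) a}).IsPrime :=
    (Ideal.Quotient.isDomain_iff_prime _).mp hd
  have ha0 : algebraMap M (Localization.AtPrime z) a ≠ 0 := fun h0 =>
    ha (Reg2Loc.inj z (by rw [h0, map_zero]))
  exact (Ideal.span_singleton_prime ha0).mp hp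

/-- (h3) of #1395: the two parameters can be exchanged (`a ≠ 0` is needed: `M = ℤ`, `z = (p)`, `a = 0`, `b = p`). -/
theorem Reg2At.swap' (h : Reg2At z a b) (ha : a ≠ 0) : Reg2At z b a where
  mem_a := h.mem_b
  mem_b := h.mem_a
  gen := fun f hf => by
    obtain ⟨s, u, v, hs, e⟩ := h.gen f hf
    exact ⟨s, v, u, hs, by rw [e]; ring⟩
  nonnil := fun k s hs hd => by
    obtain ⟨c, hc⟩ := hd
    obtain ⟨w, hw⟩ := ((Reg2Loc.isUnit_iff z s).mpr hs).exists_left_inv
    have hnd : ¬ algebraMap M (Localization.AtPrime z) a ∣ algebraMap M (Localization.AtPrime z) b := by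
      simpa using h.not_dvd_pow_loc 1
    have hc' := congrArg (algebraMap M (Localization.AtPrime z)) hc
    simp only [map_mul, map_pow] at hc'
    have hu : IsUnit (algebraMap M (Localization.AtPrime z) b) :=
      Fermat.Agent.S26.TwoDim.isUnit_of_mul_eq_pow _ (h.prime_loc ha) hnd k
        (w * algebraMap M (Localization.AtPrime z) c) (by
          linear_combination (-w) * hc' + (algebraMap M (Localization.AtPrime z) a) ^ k * hw)
    exact (Reg2Loc.isUnit_iff z b).mp hu h.mem_b

/-- the case `a = 0`: `B` is a DVR. -/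
theorem Reg2At.isDVR_of_eq_zero (h : Reg2At z (0 : M) b) :
    IsDiscreteValuationRing (Localization.AtPrime z) := by
  have hm := h.maximalIdeal_loc
  have hm' : maximalIdeal (Localization.AtPrime z) =
      Ideal.span {algebraMap M (Localization.AtPrime z) b} := by
    rw [hm, map_zero]
    apply le_antisymm
    · rw [Ideal.span_le]
      rintro x (rfl | rfl)
      · exact Ideal.zero_mem _
      · exact Ideal.subset_span rfl
    · exact Ideal.span_mono (by simp)
  refine Alg.isDiscreteValuationRing_of_principal hm' fun hb => ?_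
  have := h.not_dvd_pow_loc 1
  rw [pow_one, hb, map_zero] at this
  exact this (dvd_refl _)

/-- `M_z` is a UFD. -/
theorem Reg2At.ufd' (h : Reg2At z a b) :
    UniqueFactorizationMonoid (Localization.AtPrime z) := by
  by_cases ha : a = 0
  · subst ha
    have := h.isDVR_of_eq_zero
    infer_instance
  · have := h.isDomain_quot
    have := h.isDVR_quot
    exact Fermat.Agent.S26.TwoDim.uniqueFactorizationMonoid
      (Ideal.Quotient.mk (Ideal.span {algebraMap M (Localization.AtPrime z) a}))
      Ideal.Quotient.mk_surjective _ Ideal.mk_ker (h.prime_loc ha)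

/-- a principal prime of `B` descends. -/
theorem Reg2Loc.locPrin_of_map_eq_span (𝔮 : Ideal M) (h𝔮 : 𝔮.IsPrime) (hle : 𝔮 ≤ z)
    (x : Localization.AtPrime z)
    (hx : 𝔮.map (algebraMap M (Localization.AtPrime z)) = Ideal.span {x}) : ∃ g, LocPrin z 𝔮 g := by
  have hdisj : Disjoint (z.primeCompl : Set M) (𝔮 : Set M) := by
    rw [Set.disjoint_left]
    intro s hs hs'
    exact hs (hle hs')
  have hcomap : (𝔮.map (algebraMap M (Localization.AtPrime z))).comap
      (algebraMap M (Localization.AtPrime z)) = 𝔮 :=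
    IsLocalization.comap_map_of_isPrime_disjoint z.primeCompl _ h𝔮 hdisj
  obtain ⟨g, t, ht, hg⟩ := Reg2Loc.exists_eq z x
  have htu := (Reg2Loc.isUnit_iff z t).mpr ht
  have hspan : Ideal.span {x} = Ideal.span {algebraMap M (Localization.AtPrime z) g} := by
    rw [← hg]
    exact (Ideal.span_singleton_mul_right_unit htu x).symm
  rw [hspan] at hx
  refine ⟨g, ?_, fun f hf => ?_⟩
  · rw [← hcomap, Ideal.mem_comap, hx]
    exact Ideal.mem_span_singleton_self _
  · have h1 : algebraMap M (Localization.AtPrime z) f ∈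
        𝔮.map (algebraMap M (Localization.AtPrime z)) := Ideal.mem_map_of_mem _ hf
    rw [hx, Ideal.mem_span_singleton] at h1
    exact (Reg2Loc.dvd_iff z g f).mp h1

/-- Every prime `𝔮 ≤ z`, `𝔮 ≠ z`, is locally principal at `z`. -/
theorem Reg2At.exists_locPrin' (h : Reg2At z a b)
    (𝔮 : Ideal M) (h𝔮 : 𝔮.IsPrime) (hle : 𝔮 ≤ z) (h1 : 𝔮 ≠ z) : ∃ g, LocPrin z 𝔮 g := by
  have hdisj : Disjoint (z.primeCompl : Set M) (𝔮 : Set M) := by
    rw [Set.disjoint_left]
    intro s hs hs'
    exact hs (hle hs')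
  have hcomap : (𝔮.map (algebraMap M (Localization.AtPrime z))).comap
      (algebraMap M (Localization.AtPrime z)) = 𝔮 :=
    IsLocalization.comap_map_of_isPrime_disjoint z.primeCompl _ h𝔮 hdisj
  have hQ : (𝔮.map (algebraMap M (Localization.AtPrime z))).IsPrime :=
    IsLocalization.isPrime_of_isPrime_disjoint z.primeCompl _ 𝔮 h𝔮 hdisj
  have hQm : 𝔮.map (algebraMap M (Localization.AtPrime z)) ≠ maximalIdeal (Localization.AtPrime z) := by
    intro hQm
    apply h1
    rw [← hcomap, hQm]
    exact Localization.AtPrime.comap_maximalIdeal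
  by_cases hQ0 : 𝔮.map (algebraMap M (Localization.AtPrime z)) = ⊥
  · exact Reg2Loc.locPrin_of_map_eq_span 𝔮 h𝔮 hle 0 (by rw [hQ0]; simp)
  by_cases ha : a = 0
  · subst ha
    have := h.isDVR_of_eq_zero
    exact absurd (IsLocalRing.eq_maximalIdeal (hQ.isMaximal hQ0)) hQm
  have hdom := h.isDomain_quot
  have hdvr := h.isDVR_quot
  have hloc := h.isLocalRing_quot
  by_cases haQ : algebraMap M (Localization.AtPrime z) a ∈ 𝔮.map (algebraMap M (Localization.AtPrime z))
  · -- then `Q = (ι a)`
    refine Reg2Loc.locPrin_of_map_eq_span 𝔮 h𝔮 hle (algebraMap M (Localization.AtPrime z) a) ?_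
    apply le_antisymm
    · intro x hx
      by_contra hxa
      have hx0 : Ideal.Quotient.mk (Ideal.span {algebraMap M (Localization.AtPrime z) a}) x ≠ 0 := by
        rwa [Ne, Ideal.Quotient.eq_zero_iff_mem]
      obtain ⟨u, n, hu, hxu⟩ := Alg.exists_unit_mul_pow_of_principal
        (Alg.Reg2Gen.maximalIdeal_quot h.maximalIdeal_loc) hx0
      obtain ⟨u, rfl⟩ := Ideal.Quotient.mk_surjective u
      have hu' : IsUnit u := Fermat.Agent.S26.TwoDim.isUnit_of_isUnit_red _
        Ideal.Quotient.mk_surjective hu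
      rw [← map_pow, ← map_mul, Ideal.Quotient.eq, Ideal.mem_span_singleton] at hxu
      obtain ⟨w, hw⟩ := hxu
      have h2 : u * algebraMap M (Localization.AtPrime z) b ^ n ∈
          𝔮.map (algebraMap M (Localization.AtPrime z)) := by
        have : u * algebraMap M (Localization.AtPrime z) b ^ n =
            x - algebraMap M (Localization.AtPrime z) a * w := by rw [← hw]; ring
        rw [this]
        exact Ideal.sub_mem _ hx (Ideal.mul_mem_right _ _ haQ)
      have h3 : algebraMap M (Localization.AtPrime z) b ^ n ∈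
          𝔮.map (algebraMap M (Localization.AtPrime z)) :=
        (hQ.mem_or_mem h2).resolve_left fun hmem =>
          hQ.ne_top (Ideal.eq_top_of_isUnit_mem _ hmem hu')
      have h4 := hQ.mem_of_pow_mem n h3
      apply hQm
      apply le_antisymm (IsLocalRing.le_maximalIdeal hQ.ne_top)
      rw [h.maximalIdeal_loc, Ideal.span_le]
      rintro y (rfl | rfl)
      · exact haQ
      · exact h4
    · rw [Ideal.span_le]
      rintro y rfl
      exact haQ
  · obtain ⟨x, hx⟩ := Fermat.Agent.S26.TwoDim.exists_eq_span_singleton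
      (Ideal.Quotient.mk (Ideal.span {algebraMap M (Localization.AtPrime z) a}))
      Ideal.Quotient.mk_surjective _ Ideal.mk_ker (h.prime_loc ha) _ haQ hQ0
    exact Reg2Loc.locPrin_of_map_eq_span 𝔮 h𝔮 hle x hx

/-- converse: a two-generated maximal ideal of `M_z`, in dimension `≥ 2`. -/
theorem Reg2At.of_span_pair
    (hm : maximalIdeal (Localization.AtPrime z) =
      Ideal.span {algebraMap M (Localization.AtPrime z) a, algebraMap M (Localization.AtPrime z) b})
    (𝔮 : Ideal M) (h𝔮 : 𝔮.IsPrime) (h0 : 𝔮 ≠ ⊥) (hle : 𝔮 ≤ z) (h1 : 𝔮 ≠ z) : Reg2At z a b := by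
  have hdisj : Disjoint (z.primeCompl : Set M) (𝔮 : Set M) := by
    rw [Set.disjoint_left]
    intro s hs hs'
    exact hs (hle hs')
  have hcomap : (𝔮.map (algebraMap M (Localization.AtPrime z))).comap
      (algebraMap M (Localization.AtPrime z)) = 𝔮 :=
    IsLocalization.comap_map_of_isPrime_disjoint z.primeCompl _ h𝔮 hdisj
  have hQ : (𝔮.map (algebraMap M (Localization.AtPrime z))).IsPrime :=
    IsLocalization.isPrime_of_isPrime_disjoint z.primeCompl _ 𝔮 h𝔮 hdisj
  refine Reg2At.of_loc hm fun k hk => ?_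
  refine Alg.Reg2Gen.pow_not_mem hm (𝔮.map (algebraMap M (Localization.AtPrime z))) ?_ ?_ k
    (Ideal.mem_span_singleton.mpr hk)
  · intro hQ0
    apply h0
    rw [← hcomap, hQ0, eq_bot_iff]
    intro f hf
    rw [Ideal.mem_comap, Ideal.mem_bot] at hf
    exact Reg2Loc.inj z (by rw [hf, map_zero])
  · intro hQm
    apply h1
    rw [← hcomap, hQm]
    exact Localization.AtPrime.comap_maximalIdeal

end Noeth

end Fermat.Agent.S36.R
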