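import Fermat.Agent.S36.R.Defs
import Fermat.Agent.S36.R.DC
import Fermat.Agent.S36.R.Reg2Loc
import Fermat.Agent.S26.Alg.TwoDim
import Fermat.Agent.S36.R.RegStep.Loc

/-!
# S36 / R / RegStep : regularity from the discriminant count          (OWNER: helper67)

Pure algebra.  See board #1622 (2) for the proof; `Reg2Loc.lean` (helper77) for the first three statements,
`RegStep/{Red, Local, Loc}.lean` for `regStep` (here: only the instantiation `A = M_z`, `B = M'_z`).
-/

set_option autoImplicit false

namespace Fermat.Agent.S36.R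

section Reg2

variable {M : Type*} [CommRing M] [IsDomain M] [IsNoetherianRing M]

/-- (h3) of #1395: the two parameters can be exchanged.
`π^n s = T c` ⟹ (mod `a`, domain) ... ; or: `M_z` is a UFD (TwoDim), `a` prime, `b` not divisible by `a`. -/
theorem Reg2At.swap {z : Ideal M} (hz : z.IsMaximal) {a b : M} (h : Reg2At z a b) (ha : a ≠ 0) :
    Reg2At z b a :=
  haveI := hz.isPrime
  h.swap' ha

/-- `M_z` is a UFD. -/
theorem Reg2At.ufd {z : Ideal M} [hz : z.IsMaximal] {a b : M} (h : Reg2At z a b) :
    UniqueFactorizationMonoid (Localization.AtPrime z) :=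
  h.ufd'

/-- Every prime `𝔮 ≤ z` is locally principal at `z` (height one primes of the UFD `M_z` are principal; `⊥` and `z` itself
are excluded by `h0`, `h1`). -/
theorem Reg2At.exists_locPrin {z : Ideal M} (hz : z.IsMaximal) {a b : M} (h : Reg2At z a b)
    (𝔮 : Ideal M) (h𝔮 : 𝔮.IsPrime) (hle : 𝔮 ≤ z) (h1 : 𝔮 ≠ z) : ∃ g, LocPrin z 𝔮 g :=
  haveI := hz.isPrime
  h.exists_locPrin' 𝔮 h𝔮 hle h1

end Reg2

/-- **RegStep.** -/
theorem regStep {M M' K K' : Type*} [CommRing M] [IsDomain M] [IsNoetherianRing M]
    [CommRing M'] [IsDomain M'] [Field K] [Field K'] [Algebra M K] [IsFractionRing M K]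
    [Algebra M' K'] [IsFractionRing M' K']
    (φ : M →+* M') (hφ : φ.Finite) (hinj : Function.Injective φ)
    (φK : K →+* K') (hφK : ∀ f, φK (algebraMap M K f) = algebraMap M' K' (φ f))
    (z : Ideal M) [hz : z.IsMaximal] (hk : @IsAlgClosed (M ⧸ z) (Ideal.Quotient.field z))
    (π T : M) (hreg : Reg2At z π T)
    (hS2 : ∀ f h : M', φ π * f = φ T * h → ∃ s, s ∉ z ∧ φ T ∣ φ s * f)
    (n a : ℕ) (hn : Norm.degHom φK = n)
    (hchar : ∀ k : ℕ, k ≠ 0 → ∃ j, (k : M) ∣ π ^ j)
    (hunr : ∀ 𝔮 : Ideal M, 𝔮.IsPrime → 𝔮 ≤ z → π ∉ 𝔮 →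
      ∀ y : M', y ^ 2 ∈ 𝔮.map φ → ∃ s, s ∉ 𝔮 ∧ φ s * y ∈ 𝔮.map φ)
    (θ : M') (δ : M) (hδ : ∀ s, s ∉ z → ¬ π ∣ s * δ)
    (hdisc : discrHom φK n (algebraMap M' K' θ) = algebraMap M K (π ^ a * δ))
    (hcount : a + Set.ncard {𝔫 : Ideal M' | 𝔫.IsMaximal ∧ 𝔫.comap φ = z} ≤ n)
    (𝔫 : Ideal M') (h𝔫 : 𝔫.IsMaximal) (hover : 𝔫.comap φ = z) :
    ∃ θ' : M', Reg2At 𝔫 (φ T) θ' := by
  let _ : Algebra M M' := φ.toAlgebra
  have hfin : Module.Finite M M' := hφ
  have hfaith : FaithfulSMul M M' := (faithfulSMul_iff_algebraMap_injective M M').mpr hinj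
  have hle : z.primeCompl ≤ nonZeroDivisors M := z.primeCompl_le_nonZeroDivisors
  have hle' : Algebra.algebraMapSubmonoid M' z.primeCompl ≤ nonZeroDivisors M' :=
    algebraMapSubmonoid_le_nonZeroDivisors_of_faithfulSMul _ hle
  let _ : Algebra (Localization.AtPrime z) (Localization (Algebra.algebraMapSubmonoid M' z.primeCompl)) :=
    localizationAlgebra z.primeCompl M'
  have hT1 : IsScalarTower M (Localization.AtPrime z)
      (Localization (Algebra.algebraMapSubmonoid M' z.primeCompl)) :=
    IsScalarTower.of_algebraMap_eq'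
      (by rw [RingHom.algebraMap_toAlgebra, IsLocalization.map_comp, ← IsScalarTower.algebraMap_eq])
  let _ : Algebra (Localization.AtPrime z) K :=
    (IsLocalization.map K (T := nonZeroDivisors M) (RingHom.id M) hle).toAlgebra
  have hT2 : IsScalarTower M (Localization.AtPrime z) K :=
    IsLocalization.localization_isScalarTower_of_submonoid_le _ _ _ _ hle
  have hF1 : IsFractionRing (Localization.AtPrime z) K :=
    IsFractionRing.isFractionRing_of_isDomain_of_isLocalization z.primeCompl _ _
  let _ : Algebra (Localization (Algebra.algebraMapSubmonoid M' z.primeCompl)) K' :=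
    (IsLocalization.map K' (T := nonZeroDivisors M') (RingHom.id M') hle').toAlgebra
  have hT3 : IsScalarTower M' (Localization (Algebra.algebraMapSubmonoid M' z.primeCompl)) K' :=
    IsLocalization.localization_isScalarTower_of_submonoid_le _ _ _ _ hle'
  have hF2 : IsFractionRing (Localization (Algebra.algebraMapSubmonoid M' z.primeCompl)) K' :=
    IsFractionRing.isFractionRing_of_isDomain_of_isLocalization
      (Algebra.algebraMapSubmonoid M' z.primeCompl) _ _
  let _ : Algebra K K' := φK.toAlgebra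
  let _ : Algebra (Localization.AtPrime z) K' :=
    ((algebraMap K K').comp (algebraMap (Localization.AtPrime z) K)).toAlgebra
  have hT4 : IsScalarTower (Localization.AtPrime z) K K' := IsScalarTower.of_algebraMap_eq' rfl
  have hT5 : IsScalarTower (Localization.AtPrime z)
      (Localization (Algebra.algebraMapSubmonoid M' z.primeCompl)) K' := by
    apply IsScalarTower.of_algebraMap_eq'
    apply IsLocalization.ringHom_ext z.primeCompl
    ext x
    simp only [RingHom.comp_apply]
    rw [← IsScalarTower.algebraMap_apply M (Localization.AtPrime z)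
        (Localization (Algebra.algebraMapSubmonoid M' z.primeCompl)),
      IsScalarTower.algebraMap_apply M M' (Localization (Algebra.algebraMapSubmonoid M' z.primeCompl)),
      ← IsScalarTower.algebraMap_apply M' (Localization (Algebra.algebraMapSubmonoid M' z.primeCompl)) K',
      IsScalarTower.algebraMap_apply (Localization.AtPrime z) K K',
      ← IsScalarTower.algebraMap_apply M (Localization.AtPrime z) K]
    exact hφK x
  refine RegStep.regStep_abs (A := Localization.AtPrime z)
    (B := Localization (Algebra.algebraMapSubmonoid M' z.primeCompl)) (K := K) (K' := K') z hk π T hreg hS2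
    n a hn hchar hunr θ δ hδ ?_ hcount 𝔫 h𝔫 hover
  rw [← IsScalarTower.algebraMap_apply M (Localization.AtPrime z) K, ← hdisc]
  simp only [map_pow, ← IsScalarTower.algebraMap_apply M'
    (Localization (Algebra.algebraMapSubmonoid M' z.primeCompl)) K']
  rfl

end Fermat.Agent.S36.R
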