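import Fermat.Agent.S36.R.Model
import Fermat.Agent.S36.R.RegStep
import Fermat.Agent.S36.R.Local.Main
import Fermat.Agent.S36.R.Local.Ufd
import Fermat.Agent.S36.R.Local.Conv

/-!
# S36 / R / Engine : the local engine at a regular point           (OWNER: helper36)     (= (4) of #1240)

`𝓜 : Model M R π ι`, `n` a maximal ideal, `π ∈ n`, `Reg2At n a b` (so `Λ = M_n` is a UFD, `Reg2At.ufd`).

(A) `exists_locGen` : `W` a vertical unit, `HorPow` ⟹ there is a local generator `y` of `I_m(W)` at `n`.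
(B) `exists_BV` : every local generator has a branch value `v ∉ n` on each component through `n`.
(C) `locSol_of_BV` : if all the branch values are equal, there is a local solution.
-/

set_option autoImplicit false

namespace Fermat.Agent.S36.R.Model

variable {M R F : Type*} [CommRing M] [IsDomain M] [IsNoetherianRing M] [CommRing R] [IsDomain R]
  [IsDedekindDomain R] [Field F] [Algebra M F] [IsFractionRing M F] {π : M} {ι : Type*} [Finite ι]
  (𝓜 : Model M R π ι)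

omit [IsNoetherianRing M] in
/-- the equation in `M` behind `LocGen` + `OneMod`. -/
theorem locGen_eq {m : ℕ} {W y : F} (a₀ b₀ u₁ u₂ α β : M)
    (hW : W * algebraMap M F b₀ = algebraMap M F a₀)
    (hy : y ^ m * W * algebraMap M F u₂ = algebraMap M F u₁)
    (hαβ : y * algebraMap M F β = algebraMap M F α) : α ^ m * a₀ * u₂ = u₁ * b₀ * β ^ m := by
  apply IsFractionRing.injective M F
  simp only [map_mul, map_pow, ← hW, ← hy, ← hαβ]
  ring

/-- (A) -/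
theorem exists_locGen (hR : ¬ IsField R) (hπ0 : π ≠ 0) (n : Ideal M) (hn : n.IsMaximal) (hπ : π ∈ n)
    (a b : M) (hreg : Reg2At n a b) (m : ℕ) (hm : m ≠ 0) (W : F) (hW : OneMod 𝓜 W)
    (hh : HorPow π m W) : ∃ y : F, LocGen m W n y := by
  haveI := hn
  haveI : UniqueFactorizationMonoid (Localization.AtPrime n) := hreg.ufd
  obtain ⟨a₀, b₀, hb₀, ⟨r₀, hr₀⟩, hW⟩ := hW
  have ha₀ : 𝓜.VUnit a₀ := by
    intro c
    have : a₀ = b₀ + π * r₀ := by linear_combination hr₀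
    rw [this, map_add, map_mul, 𝓜.map_pi, zero_mul, add_zero]
    exact hb₀ c
  obtain ⟨c₀, hc₀⟩ := 𝓜.exists_thru n hn.isPrime hπ
  have ha₀0 : a₀ ≠ 0 := fun h => ha₀ c₀ (by rw [h, map_zero])
  have hb₀0 : b₀ ≠ 0 := fun h => hb₀ c₀ (by rw [h, map_zero])
  have hinj := loc_injective n
  have hinjF := IsFractionRing.injective M F
  set φ := algebraMap M (Localization.AtPrime n) with hφ
  have key := Local.ufd_pow m hm (φ a₀) (φ b₀) (fun h => ha₀0 (hinj (by rw [h, map_zero])))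
    (fun h => hb₀0 (hinj (by rw [h, map_zero]))) ?_
  · obtain ⟨c, d, ε, hc, hd, hε, heq⟩ := key
    obtain ⟨c₁, sc, hsc, hc₁⟩ := loc_exists_rep n c
    obtain ⟨d₁, sd, hsd, hd₁⟩ := loc_exists_rep n d
    obtain ⟨e₁, se, hse, he₁⟩ := loc_exists_rep n ε
    have hne : ∀ s : M, s ∉ n → s ≠ 0 := fun s hs h => hs (h ▸ n.zero_mem)
    have he₁n : e₁ ∉ n := by
      rw [← loc_isUnit_iff n, ← he₁]
      exact ((loc_isUnit_iff n se).2 hse).mul hε
    have hc₁0 : c₁ ≠ 0 := by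
      rintro rfl
      rw [map_zero] at hc₁
      rcases mul_eq_zero.1 hc₁ with h | h
      · exact hne sc hsc (hinj (by rw [h, map_zero]))
      · exact hc h
    have hd₁0 : d₁ ≠ 0 := by
      rintro rfl
      rw [map_zero] at hd₁
      rcases mul_eq_zero.1 hd₁ with h | h
      · exact hne sd hsd (hinj (by rw [h, map_zero]))
      · exact hd h
    have hM : (c₁ * sd) ^ m * a₀ * se = e₁ * b₀ * (d₁ * sc) ^ m := by
      apply hinj
      simp only [map_mul, map_pow]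
      rw [← hc₁, ← hd₁, ← he₁]
      linear_combination (φ sc ^ m * φ sd ^ m * φ se) * heq
    have hden : algebraMap M F (d₁ * sc) ≠ 0 := fun h =>
      mul_ne_zero hd₁0 (hne sc hsc) (hinjF (by rw [h, map_zero]))
    have hnum : algebraMap M F (c₁ * sd) ≠ 0 := fun h =>
      mul_ne_zero hc₁0 (hne sd hsd) (hinjF (by rw [h, map_zero]))
    have hb₀F : algebraMap M F b₀ ≠ 0 := fun h => hb₀0 (hinjF (by rw [h, map_zero]))
    refine ⟨algebraMap M F (c₁ * sd) / algebraMap M F (d₁ * sc), div_ne_zero hnum hden, e₁, se,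
      he₁n, hse, ?_⟩
    have hMF := congrArg (algebraMap M F) hM
    simp only [map_mul (algebraMap M F) _ a₀, map_mul (algebraMap M F) _ se,
      map_mul (algebraMap M F) e₁, map_mul (algebraMap M F) (e₁ * b₀), map_pow] at hMF
    have hyd : algebraMap M F (c₁ * sd) / algebraMap M F (d₁ * sc) * algebraMap M F (d₁ * sc) =
        algebraMap M F (c₁ * sd) := div_mul_cancel₀ _ hden
    apply mul_right_cancel₀ (mul_ne_zero (pow_ne_zero m hden) hb₀F)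
    rw [← hyd, ← hW] at hMF
    linear_combination hMF
  · intro p hp
    have hpI : (Ideal.span {p}).IsPrime := (Ideal.span_singleton_prime hp.ne_zero).2 hp
    set 𝔮 : Ideal M := (Ideal.span {p}).comap φ with h𝔮
    have h𝔮p : 𝔮.IsPrime := Ideal.comap_isPrime φ _
    have hmem : ∀ x, x ∈ 𝔮 ↔ p ∣ φ x := fun x => by
      rw [h𝔮, Ideal.mem_comap, Ideal.mem_span_singleton]
    have hle : 𝔮 ≤ n := by
      intro x hx
      by_contra hxn
      exact hp.not_isUnit (isUnit_of_dvd_unit ((hmem x).1 hx) ((loc_isUnit_iff n x).2 hxn))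
    by_cases hπq : π ∈ 𝔮
    · obtain ⟨c, hc⟩ := 𝓜.exists_thru 𝔮 h𝔮p hπq
      have hcn : 𝓜.Thru n c := le_trans hc hle
      obtain ⟨g, hg⟩ := 𝓜.exists_gen hR n hn a b hreg c hcn
      have hgp := 𝓜.gen_prime hπ0 n c hcn g hg
      have h1 : p ∣ φ g := (hmem g).1 (hc hg.1)
      have h2 : φ g ∣ p := ((hp.dvd_prime_iff_associated hgp).1 h1).symm.dvd
      refine ⟨1, 1, φ a₀, φ b₀, one_ne_zero, one_ne_zero, ?_, ?_, by ring⟩
      · intro h
        exact ha₀ c ((𝓜.gen_dvd_iff n c hcn g hg a₀).1 (h2.trans h))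
      · intro h
        exact hb₀ c ((𝓜.gen_dvd_iff n c hcn g hg b₀).1 (h2.trans h))
    · obtain ⟨y', a', b', hy', ha', hb', heq⟩ := hh 𝔮 h𝔮p hπq
      obtain ⟨c, d, hd, hcd⟩ := IsFractionRing.div_surjective (A := M) y'
      have hd0 : d ≠ 0 := nonZeroDivisors.ne_zero hd
      have hdF : algebraMap M F d ≠ 0 := fun h => hd0 (hinjF (by rw [h, map_zero]))
      have hc0 : c ≠ 0 := by
        rintro rfl
        rw [map_zero, zero_div] at hcd
        exact hy' hcd.symm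
      refine ⟨φ c, φ d, φ a', φ b', fun h => hc0 (hinj (by rw [h, map_zero])),
        fun h => hd0 (hinj (by rw [h, map_zero])), fun h => ha' ((hmem a').2 h),
        fun h => hb' ((hmem b').2 h), ?_⟩
      have hy'd : y' * algebraMap M F d = algebraMap M F c := by
        rw [← hcd]; field_simp
      have : c ^ m * a₀ * b' = a' * d ^ m * b₀ := by
        apply hinjF
        simp only [map_mul, map_pow, ← hW, ← heq, ← hy'd]
        ring
      simp only [← map_mul, ← map_pow, this]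

/-- a representation `y = α / β` by elements which are units at all the components through `n`. -/
theorem exists_rep (hR : ¬ IsField R) (hπ0 : π ≠ 0) (n : Ideal M) (hn : n.IsMaximal)
    (a b : M) (hreg : Reg2At n a b) (m : ℕ) (hm : m ≠ 0) (W : F) (a₀ b₀ : M) (ha₀ : 𝓜.VUnit a₀)
    (hb₀ : 𝓜.VUnit b₀) (hW : W * algebraMap M F b₀ = algebraMap M F a₀) (y : F)
    (hy : LocGen m W n y) :
    ∃ α β : M, y * algebraMap M F β = algebraMap M F α ∧
      ∀ c, 𝓜.Thru n c → 𝓜.ρ c α ≠ 0 ∧ 𝓜.ρ c β ≠ 0 := by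
  haveI := hn
  haveI : UniqueFactorizationMonoid (Localization.AtPrime n) := hreg.ufd
  obtain ⟨hy0, u₁, u₂, hu₁, hu₂, hyW⟩ := hy
  have hinj := loc_injective n
  have hinjF := IsFractionRing.injective M F
  set φ := algebraMap M (Localization.AtPrime n) with hφ
  obtain ⟨α₀, β₀, hβ₀, hαβ₀⟩ := IsFractionRing.div_surjective (A := M) y
  have hβ₀0 : β₀ ≠ 0 := nonZeroDivisors.ne_zero hβ₀
  have hβ₀F : algebraMap M F β₀ ≠ 0 := fun h => hβ₀0 (hinjF (by rw [h, map_zero]))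
  have hα₀0 : α₀ ≠ 0 := by
    rintro rfl
    rw [map_zero, zero_div] at hαβ₀
    exact hy0 hαβ₀.symm
  obtain ⟨a', b', c', hrel, ha', hb'⟩ := UniqueFactorizationMonoid.exists_reduced_factors (φ α₀)
    (fun h => hα₀0 (hinj (by rw [h, map_zero]))) (φ β₀)
  obtain ⟨α₁, s₁, hs₁, hα₁⟩ := loc_exists_rep n a'
  obtain ⟨β₁, s₂, hs₂, hβ₁⟩ := loc_exists_rep n b'
  have hus₁ := (loc_isUnit_iff n s₁).2 hs₁
  have hus₂ := (loc_isUnit_iff n s₂).2 hs₂
  have hcross : α₀ * (β₁ * s₁) = (α₁ * s₂) * β₀ := by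
    apply hinj
    simp only [map_mul]
    rw [← hα₁, ← hβ₁, ← ha', ← hb']
    ring
  have hyβ : y * algebraMap M F (β₁ * s₁) = algebraMap M F (α₁ * s₂) := by
    have h1 := congrArg (algebraMap M F) hcross
    rw [map_mul, map_mul _ _ β₀] at h1
    rw [← hαβ₀]
    field_simp
    linear_combination h1
  refine ⟨α₁ * s₂, β₁ * s₁, hyβ, fun c hc => ?_⟩
  have heq := locGen_eq a₀ b₀ u₁ u₂ (α₁ * s₂) (β₁ * s₁) hW hyW hyβ
  have heq' := congrArg (𝓜.ρ c) heq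
  simp only [map_mul _ _ a₀, map_mul _ _ u₂, map_mul _ u₁, map_mul _ (u₁ * b₀), map_pow] at heq'
  have hρu : ∀ u, u ∉ n → 𝓜.ρ c u ≠ 0 := fun u hu h => hu (hc (RingHom.mem_ker.2 h))
  obtain ⟨g, hg⟩ := 𝓜.exists_gen hR n hn a b hreg c hc
  have hgp := 𝓜.gen_prime hπ0 n c hc g hg
  have hboth : ¬ (𝓜.ρ c (α₁ * s₂) = 0 ∧ 𝓜.ρ c (β₁ * s₁) = 0) := by
    rintro ⟨h1, h2⟩
    have d1 := (𝓜.gen_dvd_iff n c hc g hg _).2 h1
    have d2 := (𝓜.gen_dvd_iff n c hc g hg _).2 h2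
    rw [map_mul, ← hφ, ← hα₁, mul_right_comm, mul_comm] at d1
    rw [map_mul, ← hφ, ← hβ₁, mul_right_comm, mul_comm] at d2
    exact hgp.not_isUnit (hrel (((hus₁.mul hus₂).dvd_mul_right).1 d1)
      (((hus₂.mul hus₁).dvd_mul_right).1 d2))
  constructor
  · intro h
    apply hboth ⟨h, ?_⟩
    rw [h, zero_pow hm, zero_mul, zero_mul] at heq'
    have := (mul_eq_zero.1 heq'.symm).resolve_left (mul_ne_zero (hρu u₁ hu₁) (hb₀ c))
    exact pow_eq_zero_iff hm |>.1 this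
  · intro h
    apply hboth ⟨?_, h⟩
    rw [h, zero_pow hm, mul_zero] at heq'
    have := (mul_eq_zero.1 ((mul_eq_zero.1 heq').resolve_right (hρu u₂ hu₂))).resolve_right (ha₀ c)
    exact pow_eq_zero_iff hm |>.1 this

omit [IsNoetherianRing M] [IsDedekindDomain R] [Finite ι] [IsDomain M] [IsDomain R] in
theorem OneMod.vunit {W : F} (hW : OneMod 𝓜 W) : ∃ a₀ b₀ r₀ : M, 𝓜.VUnit a₀ ∧ 𝓜.VUnit b₀ ∧
    a₀ - b₀ = π * r₀ ∧ (∀ c, 𝓜.ρ c a₀ = 𝓜.ρ c b₀) ∧
    W * algebraMap M F b₀ = algebraMap M F a₀ := by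
  obtain ⟨a₀, b₀, hb₀, ⟨r₀, hr₀⟩, hW⟩ := hW
  have h : ∀ c, 𝓜.ρ c a₀ = 𝓜.ρ c b₀ := by
    intro c
    have : a₀ = b₀ + π * r₀ := by linear_combination hr₀
    rw [this, map_add, map_mul, 𝓜.map_pi, zero_mul, add_zero]
  exact ⟨a₀, b₀, r₀, fun c => by rw [h c]; exact hb₀ c, hb₀, hr₀, h, hW⟩

/-- (B) -/
theorem exists_BV (hR : ¬ IsField R) (hπ0 : π ≠ 0) (n : Ideal M) (hn : n.IsMaximal)
    (a b : M) (hreg : Reg2At n a b) (m : ℕ) (hm : m ≠ 0) (W : F) (hW : OneMod 𝓜 W) (y : F)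
    (hy : LocGen m W n y) (c : ι) (hc : 𝓜.Thru n c) : ∃ v : M, v ∉ n ∧ BV 𝓜 n c y v := by
  obtain ⟨a₀, b₀, r₀, ha₀, hb₀, hr₀, hab, hW⟩ := OneMod.vunit 𝓜 hW
  obtain ⟨α, β, hyβ, hαβ⟩ := 𝓜.exists_rep hR hπ0 n hn a b hreg m hm W a₀ b₀ ha₀ hb₀ hW y hy
  obtain ⟨hy0, u₁, u₂, hu₁, hu₂, hyW⟩ := hy
  obtain ⟨hα, hβ⟩ := hαβ c hc
  have heq := congrArg (𝓜.ρ c) (locGen_eq a₀ b₀ u₁ u₂ α β hW hyW hyβ)
  simp only [map_mul, map_pow] at heq
  rw [hab c] at heq
  have heq2 : 𝓜.ρ c α ^ m * 𝓜.ρ c u₂ = 𝓜.ρ c u₁ * 𝓜.ρ c β ^ m := by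
    apply mul_right_cancel₀ (hb₀ c)
    linear_combination heq
  obtain ⟨hmax, -⟩ := 𝓜.map_isMaximal n hn c hc
  have hmem := 𝓜.mem_iff_of_thru n c hc
  obtain ⟨s', g', hs', hg', hsg⟩ := Local.ic_dedekind _ hmax.isPrime m hm _ _ _ _ hβ
    (fun h => hu₁ ((hmem u₁).2 h)) (fun h => hu₂ ((hmem u₂).2 h)) heq2
  obtain ⟨s, rfl⟩ := 𝓜.surj c s'
  obtain ⟨g, rfl⟩ := 𝓜.surj c g'
  have hs : s ∉ n := fun h => hs' ((hmem s).1 h)
  have hg : g ∉ n := fun h => hg' ((hmem g).1 h)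
  obtain ⟨w, i, hi, hw⟩ := hn.exists_inv hs
  have hwn : w ∉ n := by
    intro h
    apply hn.ne_top
    rw [Ideal.eq_top_iff_one, ← hw]
    exact n.add_mem (n.mul_mem_right _ h) hi
  refine ⟨g * w, fun h => (hn.isPrime.mem_or_mem h).elim hg hwn, α, β, g, s, hyβ, hβ, hs, ?_, ?_⟩
  · rw [map_sub, map_mul, map_mul, hsg, sub_self]
  · have : g - g * w * s = g * i := by linear_combination (-g) * hw
    rw [this]
    exact n.mul_mem_left _ hi

/-- (C), local part: `y ≡ g₁ / s₁ mod π` at `n`. -/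
theorem exists_cong (hR : ¬ IsField R) (hπ0 : π ≠ 0) (n : Ideal M) (hn : n.IsMaximal) (hπ : π ∈ n)
    (a b : M) (hreg : Reg2At n a b) (m : ℕ) (hm : IsUnit (m : M)) (W : F) (a₀ b₀ r₀ : M)
    (hb₀ : 𝓜.VUnit b₀) (hr₀ : a₀ - b₀ = π * r₀)
    (hW : W * algebraMap M F b₀ = algebraMap M F a₀) (y : F) (u₁ u₂ : M) (hu₁ : u₁ ∉ n)
    (hu₂ : u₂ ∉ n) (hyW : y ^ m * W * algebraMap M F u₂ = algebraMap M F u₁) (α β : M)
    (hyβ : y * algebraMap M F β = algebraMap M F α) (hβ : ∀ c, 𝓜.Thru n c → 𝓜.ρ c β ≠ 0) (v : M)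
    (hv : ∀ c, 𝓜.Thru n c → BV 𝓜 n c y v) :
    ∃ s₁ g₁ t r : M, s₁ ∉ n ∧ g₁ ∉ n ∧ t ∉ n ∧ t * (s₁ * α - g₁ * β) = π * r := by
  classical
  haveI := hn
  haveI : UniqueFactorizationMonoid (Localization.AtPrime n) := hreg.ufd
  have hinj := loc_injective n
  have hinjF := IsFractionRing.injective M F
  set φ := algebraMap M (Localization.AtPrime n) with hφ
  have hex : ∀ c, ∃ g, 𝓜.Thru n c → LocPrin n (𝓜.P c) g := by
    intro c
    by_cases hc : 𝓜.Thru n c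
    · obtain ⟨g, hg⟩ := 𝓜.exists_gen hR n hn a b hreg c hc
      exact ⟨g, fun _ => hg⟩
    · exact ⟨0, fun h => absurd h hc⟩
  choose g hg using hex
  have hρu : ∀ c, 𝓜.Thru n c → ∀ u, u ∉ n → 𝓜.ρ c u ≠ 0 :=
    fun c hc u hu h => hu (hc (RingHom.mem_ker.2 h))
  have hsat := 𝓜.loc_sat n g hg
  obtain ⟨c₀, hc₀⟩ := 𝓜.exists_thru n hn.isPrime hπ
  haveI : Nonempty {c // 𝓜.Thru n c} := ⟨⟨c₀, hc₀⟩⟩
  have heq := locGen_eq a₀ b₀ u₁ u₂ α β hW hyW hyβ
  -- the unit `ε = u₁ / u₂`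
  have hε : φ u₂ * IsLocalization.mk' (Localization.AtPrime n) u₁ (⟨u₂, hu₂⟩ : n.primeCompl) = φ u₁ :=
    IsLocalization.mk'_spec' (Localization.AtPrime n) u₁ (⟨u₂, hu₂⟩ : n.primeCompl)
  set ε := IsLocalization.mk' (Localization.AtPrime n) u₁ (⟨u₂, hu₂⟩ : n.primeCompl) with hεdef
  have hεu : IsUnit ε := by
    have h1 : IsUnit (φ u₂ * ε) := by rw [hε]; exact (loc_isUnit_iff n u₁).2 hu₁
    exact isUnit_of_mul_isUnit_right h1
  -- the branch values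
  have hBV : ∀ c : {c // 𝓜.Thru n c}, ∃ γ : Localization.AtPrime n,
      φ (g c.1) ∣ φ α - γ * φ β ∧ γ - φ v ∈ IsLocalRing.maximalIdeal (Localization.AtPrime n) := by
    rintro ⟨c, hc⟩
    obtain ⟨a', b', g', s', hyb', hb', hs', hρ, hgv⟩ := hv c hc
    have hγ : φ s' * IsLocalization.mk' (Localization.AtPrime n) g' (⟨s', hs'⟩ : n.primeCompl) = φ g' :=
      IsLocalization.mk'_spec' (Localization.AtPrime n) g' (⟨s', hs'⟩ : n.primeCompl)
    set γ := IsLocalization.mk' (Localization.AtPrime n) g' (⟨s', hs'⟩ : n.primeCompl) with hγdef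
    have hus' := (loc_isUnit_iff n s').2 hs'
    refine ⟨γ, ?_, ?_⟩
    · have hcross : α * b' = a' * β := by
        apply hinjF
        simp only [map_mul, ← hyβ, ← hyb']
        ring
      have h1 : 𝓜.ρ c (β * (s' * a' - g' * b')) = 0 := by rw [map_mul, hρ, mul_zero]
      have h2 := (𝓜.gen_dvd_iff n c hc (g c) (hg c hc) _).2 h1
      have h3 : φ (β * (s' * a' - g' * b')) = φ (s' * b') * (φ α - γ * φ β) := by
        have h4 := congrArg φ hcross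
        simp only [map_mul, map_sub] at h4 ⊢
        rw [← hγ]
        linear_combination (-φ s') * h4
      rw [← hφ, h3] at h2
      refine ((𝓜.gen_prime hπ0 n c hc (g c) (hg c hc)).dvd_or_dvd h2).resolve_left ?_
      intro h5
      have := (𝓜.gen_dvd_iff n c hc (g c) (hg c hc) _).1 h5
      rw [map_mul] at this
      exact mul_ne_zero (hρu c hc s' hs') hb' this
    · rw [← Ideal.unit_mul_mem_iff_mem _ hus']
      have : φ s' * (γ - φ v) = φ (g' - v * s') := by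
        rw [map_sub, map_mul, ← hγ]; ring
      rw [this]
      exact (IsLocalization.AtPrime.to_map_mem_maximal_iff _ n _).2 hgv
  choose γ hγ1 hγ2 using hBV
  obtain ⟨G, hGu, hG⟩ := Local.local_main (ι := {c // 𝓜.Thru n c}) (φ π)
    (fun h => hπ0 (hinj (by rw [h, map_zero]))) (fun c => φ (g c.1))
    (fun c => 𝓜.gen_prime hπ0 n c.1 c.2 _ (hg c.1 c.2))
    (fun c => (𝓜.gen_dvd_iff n c.1 c.2 _ (hg c.1 c.2) π).2 (𝓜.map_pi c.1))
    (fun x hx => hsat x fun c hc => hx ⟨c, hc⟩) m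
    (by have := hm.map φ; rwa [map_natCast] at this) ε hεu (φ α) (φ β)
    (fun c h => hβ c.1 c.2 ((𝓜.gen_dvd_iff n c.1 c.2 _ (hg c.1 c.2) β).1 h))
    (by
      apply hsat
      intro c hc
      refine ⟨φ (u₂ * b₀), fun h => ?_, ⟨φ (-(u₂ * α ^ m * r₀)), ?_⟩⟩
      · have := (𝓜.gen_dvd_iff n c hc _ (hg c hc) _).1 h
        rw [map_mul] at this
        exact mul_ne_zero (hρu c hc u₂ hu₂) (hb₀ c) this
      · have h1 : φ (u₂ * b₀) * (φ α ^ m - ε * φ β ^ m) = φ (u₂ * b₀ * α ^ m - u₁ * b₀ * β ^ m) := by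
          simp only [map_mul, map_sub, map_pow]
          rw [← hε]; ring
        rw [h1, ← map_mul]
        congr 1
        linear_combination (1 : M) * heq - u₂ * α ^ m * hr₀)
    γ hγ1
    (fun c c' => by
      have := Ideal.sub_mem _ (hγ2 c) (hγ2 c')
      rwa [sub_sub_sub_cancel_right] at this)
  obtain ⟨g₁, s₁, hs₁, hg₁⟩ := loc_exists_rep n G
  have hg₁n : g₁ ∉ n := by
    rw [← loc_isUnit_iff n, ← hg₁]
    exact ((loc_isUnit_iff n s₁).2 hs₁).mul hGu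
  have h1 : φ π ∣ φ (s₁ * α - g₁ * β) := by
    have : φ (s₁ * α - g₁ * β) = φ s₁ * (φ α - G * φ β) := by
      have hg₁' : φ s₁ * G = φ g₁ := hg₁
      rw [map_sub, map_mul, map_mul, ← hg₁']; ring
    rw [this]
    exact Dvd.dvd.mul_left hG _
  obtain ⟨t, ht, r, hr⟩ := (loc_dvd_iff n _ _).1 h1
  exact ⟨s₁, g₁, t, r, hs₁, hg₁n, ht, hr⟩

/-- (C) -/
theorem locSol_of_BV (hR : ¬ IsField R) (hπ0 : π ≠ 0) (n : Ideal M) (hn : n.IsMaximal) (hπ : π ∈ n)
    (a b : M) (hreg : Reg2At n a b) (m : ℕ) (hm : IsUnit (m : M)) (W : F) (hW : OneMod 𝓜 W) (y : F)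
    (hy : LocGen m W n y) (v : M) (hv : ∀ c, 𝓜.Thru n c → BV 𝓜 n c y v) : LocSol 𝓜 m W n := by
  have hm0 : m ≠ 0 := by
    rintro rfl
    rw [Nat.cast_zero] at hm
    exact not_isUnit_zero hm
  have hinjF := IsFractionRing.injective M F
  obtain ⟨a₀, b₀, r₀, ha₀, hb₀, hr₀, hab, hW⟩ := OneMod.vunit 𝓜 hW
  obtain ⟨α, β, hyβ, hαβ⟩ := 𝓜.exists_rep hR hπ0 n hn a b hreg m hm0 W a₀ b₀ ha₀ hb₀ hW y hy
  obtain ⟨hy0, u₁, u₂, hu₁, hu₂, hyW⟩ := hy
  obtain ⟨s₁, g₁, t, r, hs₁, hg₁, ht, hr⟩ := 𝓜.exists_cong hR hπ0 n hn hπ a b hreg m hm W a₀ b₀ r₀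
    hb₀ hr₀ hW y u₁ u₂ hu₁ hu₂ hyW α β hyβ (fun c hc => (hαβ c hc).2) v hv
  obtain ⟨c₀, hc₀⟩ := 𝓜.exists_thru n hn.isPrime hπ
  have hρu : ∀ c, 𝓜.Thru n c → ∀ u, u ∉ n → 𝓜.ρ c u ≠ 0 :=
    fun c hc u hu h => hu (hc (RingHom.mem_ker.2 h))
  have hd : ∀ c, 𝓜.Thru n c → 𝓜.ρ c (t * β) ≠ 0 := fun c hc => by
    rw [map_mul]; exact mul_ne_zero (hρu c hc t ht) (hαβ c hc).2
  have hd0 : t * β ≠ 0 := fun h => hd c₀ hc₀ (by rw [h, map_zero])
  obtain ⟨σ, b', hσ, hb', d', hd'⟩ := 𝓜.exists_vunit_dvd n hn.isPrime (t * β) hd0 hd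
  obtain ⟨k, rfl⟩ : ∃ k, m = k + 1 := ⟨m - 1, by omega⟩
  refine ⟨σ * u₂ * g₁, algebraMap M F (σ * u₂ * s₁) * y, ?_, ⟨σ ^ (k + 1) * s₁ ^ (k + 1) * u₂ ^ k * u₁, ?_⟩,
    b', u₂ * r * d', hb', ?_⟩
  · intro h
    rcases hn.isPrime.mem_or_mem h with h | h
    · rcases hn.isPrime.mem_or_mem h with h | h
      · exact hσ h
      · exact hu₂ h
    · exact hg₁ h
  · simp only [map_mul, map_pow, ← hyW]
    ring
  · have hdF : algebraMap M F (t * β) ≠ 0 := fun h => hd0 (hinjF (by rw [h, map_zero]))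
    apply mul_right_cancel₀ hdF
    have h1 := congrArg (algebraMap M F) hr
    have h2 := congrArg (algebraMap M F) hd'
    simp only [map_mul, map_sub, ← hyβ] at h1 h2 ⊢
    linear_combination (algebraMap M F σ * algebraMap M F u₂ * algebraMap M F b') * h1 +
      (algebraMap M F π * algebraMap M F u₂ * algebraMap M F r) * h2

end Fermat.Agent.S36.R.Model
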