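import Fermat.Agent.S36.R.Model
import Fermat.Agent.S36.R.RegStep

/-!
# S36 / R / Level1 : the nodes of level `l N'` are regular, `π = unit * g * g'`       (= (R2) of #1240)

A NODE is a maximal ideal `z` of `M1` through both components.
-/

set_option autoImplicit false

namespace Fermat.Agent.S36.R.Tower

variable {l : ℕ} {M0 M1 M2 R : Type*} [CommRing M0] [CommRing M1] [CommRing M2] [CommRing R]
  [IsDomain M0] [IsDomain M1] [IsDomain M2] [IsNoetherianRing M0] [IsNoetherianRing M1]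
  [IsNoetherianRing M2] [IsDomain R] [IsDedekindDomain R]
  {π : M0} {α β : M0 →+* M1} {p1 p2 : M1 →+* M2} (𝓣 : Tower (R := R) l π α β p1 p2)

include 𝓣 in
/-- the multiplicity `l - 1` of the middle component cannot be `0`. -/
theorem L1a_two_le : 2 ≤ l := by
  by_contra hl
  have he : 𝓣.m2.e 1 = 0 := by
    rw [𝓣.e2_1]
    omega
  obtain ⟨t, ht, s, hs⟩ := 𝓣.m2.pow 1 0 (map_zero _)
  rw [he, pow_zero, mul_one] at hs
  apply ht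
  rw [hs, map_mul, 𝓣.m2.map_pi, zero_mul]

/-- (N1a) at most one maximal ideal of `M1` through the component `∞` over a given maximal ideal of `M0` (via `α`).
`ρ¹₀ ∘ α = ρ`: `ρ¹₀(z) ⊇ ρ(y)`, both maximal (`Model.map_isMaximal`), so `z = (ρ¹₀)⁻¹(ρ(y))`. -/
theorem unique_over_α_0 (z z' : Ideal M1) (hz : z.IsMaximal) (hz' : z'.IsMaximal)
    (h : 𝓣.m1.Thru z 0) (h' : 𝓣.m1.Thru z' 0) (hc : z.comap α = z'.comap α) : z = z' := by
  refine hz.eq_of_le hz'.ne_top fun f hf => ?_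
  obtain ⟨f₀, hf₀⟩ := 𝓣.m0.surj () (𝓣.m1.ρ 0 f)
  have hker : f - α f₀ ∈ 𝓣.m1.P 0 := by
    rw [Model.mem_P, map_sub, 𝓣.r1_0_α, hf₀, sub_self]
  have h1 : α f₀ ∈ z := by
    have := z.sub_mem hf (h hker)
    rwa [sub_sub_cancel] at this
  have h2 : f₀ ∈ z'.comap α := by
    rw [← hc]
    exact h1
  have h3 := z'.add_mem (h' hker) (Ideal.mem_comap.1 h2)
  rwa [sub_add_cancel] at h3

/-- (N1b) the same for the component `0`: `ρ¹₁ ∘ α = Fr ∘ ρ` and `Fr` is purely inseparable: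
`f ∈ z`, `r = ρ¹₁ f`, `r ^ l = Fr r'`, `r' = ρ f₀`: `ρ¹₁ (f ^ l - α f₀) = 0`, so `α f₀ ∈ z`, `f₀ ∈ z.comap α = z'.comap α`,
`f ^ l ∈ z'`. -/
theorem unique_over_α_1 (z z' : Ideal M1) (hz : z.IsMaximal) (hz' : z'.IsMaximal)
    (h : 𝓣.m1.Thru z 1) (h' : 𝓣.m1.Thru z' 1) (hc : z.comap α = z'.comap α) : z = z' := by
  refine hz.eq_of_le hz'.ne_top fun f hf => ?_
  obtain ⟨r', hr'⟩ := 𝓣.Fr_insep (𝓣.m1.ρ 1 f)
  obtain ⟨f₀, hf₀⟩ := 𝓣.m0.surj () r'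
  have hker : f ^ l - α f₀ ∈ 𝓣.m1.P 1 := by
    rw [Model.mem_P, map_sub, 𝓣.r1_1_α, hf₀, hr', map_pow, sub_self]
  have hl : l ≠ 0 := by
    have := 𝓣.L1a_two_le
    omega
  have h1 : α f₀ ∈ z := by
    have := z.sub_mem (z.pow_mem_of_mem hf l (Nat.pos_of_ne_zero hl)) (h hker)
    rwa [sub_sub_cancel] at this
  have h2 : f₀ ∈ z'.comap α := by
    rw [← hc]
    exact h1
  have h3 := z'.add_mem (h' hker) (Ideal.mem_comap.1 h2)
  rw [sub_add_cancel] at h3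
  exact hz'.isPrime.mem_of_pow_mem l h3

/-- (N2) a node is the only maximal ideal over its image (every maximal ideal over it contains `π`, `Model.exists_thru`). -/
theorem node_unique_over (z : Ideal M1) (hz : z.IsMaximal) (h0 : 𝓣.m1.Thru z 0) (h1 : 𝓣.m1.Thru z 1) :
    {𝔫 : Ideal M1 | 𝔫.IsMaximal ∧ 𝔫.comap α = z.comap α} = {z} := by
  ext 𝔫
  simp only [Set.mem_ofPred_eq, Set.mem_singleton_iff]
  constructor
  · rintro ⟨h𝔫, hc⟩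
    have hπ : α π ∈ 𝔫 := by
      have h2 : π ∈ z.comap α := Ideal.mem_comap.2 (h0 (𝓣.m1.pi_mem_P 0))
      rw [← hc] at h2
      exact h2
    obtain ⟨c, hcT⟩ := 𝓣.m1.exists_thru 𝔫 h𝔫.isPrime hπ
    fin_cases c
    · exact 𝓣.unique_over_α_0 𝔫 z h𝔫 hz hcT h0 hc
    · exact 𝓣.unique_over_α_1 𝔫 z h𝔫 hz hcT h1 hc
  · rintro rfl
    exact ⟨hz, rfl⟩

theorem L1b_thru_level0 (y : Ideal M0) (hy : y.IsPrime) (hπ : π ∈ y) : 𝓣.m0.Thru y () := by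
  obtain ⟨c, hc⟩ := 𝓣.m0.exists_thru y hy hπ
  exact hc

/-- `z.comap α` is maximal (`α` is integral) and regular with parameters `π, T`. -/
theorem exists_reg2At_level0 (y : Ideal M0) (hy : y.IsMaximal) (hπ : π ∈ y) :
    ∃ T, Reg2At y π T ∧ 𝓣.m0.ρ () T ≠ 0 := by
  exact 𝓣.m0.exists_reg2At_of_single 𝓣.notField y hy () (𝓣.L1b_thru_level0 y hy.isPrime hπ) 𝓣.e0
    (fun c' hc' => absurd (Subsingleton.elim c' ()) hc')

include 𝓣 in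

include 𝓣 in
theorem L1b_α_pi_ne_zero : α π ≠ 0 := by
  intro h0
  obtain ⟨u, hu1, hu0⟩ := 𝓣.m1.sep 0 1 (by decide)
  obtain ⟨t, ht, hdvd⟩ := 𝓣.m1.pow 1 u hu1
  have hdvd' : t * u ^ 𝓣.m1.e 1 = 0 := by
    obtain ⟨r, hr⟩ := hdvd
    rw [hr, h0, zero_mul]
  rcases mul_eq_zero.mp hdvd' with h | h
  · exact ht (by rw [h, map_zero])
  · exact hu0 (by rw [eq_zero_of_pow_eq_zero h, map_zero])

/-- (S2) for `α`: `π f = T h ⟹ T ∣ f` as soon as `ρ T ≠ 0`  (`sat` in `M1`: `t = α T` at both components, `Fr` injective). -/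
theorem s2_α (T : M0) (hT : 𝓣.m0.ρ () T ≠ 0) (f h : M1) (hfh : α π * f = α T * h) : α T ∣ f := by
  have hdvd : α π ∣ h := by
    apply 𝓣.m1.sat
    intro c
    refine ⟨α T, ?_, Dvd.intro _ hfh⟩
    fin_cases c
    · change 𝓣.m1.ρ 0 (α T) ≠ 0
      rw [𝓣.r1_0_α]; exact hT
    · change 𝓣.m1.ρ 1 (α T) ≠ 0
      rw [𝓣.r1_1_α]
      exact fun h0 => hT (𝓣.Fr_inj (by rw [h0, map_zero]))
  obtain ⟨h', rfl⟩ := hdvd
  refine ⟨h', ?_⟩
  apply mul_left_cancel₀ 𝓣.L1b_α_pi_ne_zero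
  rw [hfh]; ring

variable {F0 F1 F2 : Type*} [Field F0] [Field F1] [Field F2] [Algebra M0 F0] [Algebra M1 F1]
  [Algebra M2 F2] [IsFractionRing M0 F0] [IsFractionRing M1 F1] [IsFractionRing M2 F2]
  {αF : F0 →+* F1} {φ1 φ2 : F1 →+* F2}

/-- transport of `IsAlgClosed` along a ring isomorphism (universe polymorphic). -/
theorem L1b_isAlgClosed_of_ringEquiv {k k' : Type*} [Field k] [Field k'] (e : k ≃+* k')
    [IsAlgClosed k] : IsAlgClosed k' := by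
  apply IsAlgClosed.of_exists_root
  intro p hmp hp
  have hpe : Polynomial.degree (p.map e.symm.toRingHom) ≠ 0 := by
    rw [Polynomial.degree_map]
    exact ne_of_gt (Polynomial.degree_pos_of_irreducible hp)
  rcases IsAlgClosed.exists_root (k := k) (p.map e.symm.toRingHom) hpe with ⟨x, hx⟩
  use e x
  rw [Polynomial.IsRoot] at hx
  apply e.symm.injective
  rw [map_zero, ← hx]
  clear hx hpe hp hmp
  induction p using Polynomial.induction_on <;> simp_all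

include 𝓣 in
/-- the residue fields of `M0` at the closed points of the special fibre are algebraically closed. -/
theorem L1b_isAlgClosed (y : Ideal M0) (hy : y.IsMaximal) (hπ : π ∈ y) :
    @IsAlgClosed (M0 ⧸ y) (Ideal.Quotient.field y) := by
  obtain ⟨hmax, hcomap⟩ := 𝓣.m0.map_isMaximal y hy () (𝓣.L1b_thru_level0 y hy.isPrime hπ)
  have hcl := 𝓣.algClosed (y.map (𝓣.m0.ρ ()))
  let g : M0 →+* R ⧸ y.map (𝓣.m0.ρ ()) := (Ideal.Quotient.mk _).comp (𝓣.m0.ρ ())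
  have hg : Function.Surjective g := Ideal.Quotient.mk_surjective.comp (𝓣.m0.surj ())
  have hker : RingHom.ker g = y := by
    refine Eq.trans ?_ hcomap
    ext f
    rw [RingHom.mem_ker, Ideal.mem_comap]
    exact Ideal.Quotient.eq_zero_iff_mem
  let e : (R ⧸ y.map (𝓣.m0.ρ ())) ≃+* (M0 ⧸ y) :=
    ((Ideal.quotEquivOfEq hker.symm).trans (RingHom.quotientKerEquivOfSurjective hg)).symm
  exact @L1b_isAlgClosed_of_ringEquiv _ _ (Ideal.Quotient.field _) (Ideal.Quotient.field y) e hcl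

/-- (N3) **a node is a regular point** (`regStep` with `n = l + 1`, `a = l`, one point). -/
theorem node_reg (𝓕 : TowerF l 𝓣 αF φ1 φ2) (z : Ideal M1) (hz : z.IsMaximal) (h0 : 𝓣.m1.Thru z 0)
    (h1 : 𝓣.m1.Thru z 1) : ∃ a b, Reg2At z a b := by
  have hy : (z.comap α).IsMaximal :=
    Ideal.isMaximal_comap_of_isIntegral_of_isMaximal' α 𝓣.α_fin.to_isIntegral z
  have hπ : π ∈ z.comap α := Ideal.mem_comap.mpr (h0 (𝓣.m1.pi_mem_P 0))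
  obtain ⟨T, hreg, hT⟩ := 𝓣.exists_reg2At_level0 (z.comap α) hy hπ
  obtain ⟨θ, δ, hδ, hdisc⟩ := 𝓕.db1
  have hthru := 𝓣.L1b_thru_level0 (z.comap α) hy.isPrime hπ
  obtain ⟨θ', hθ'⟩ := regStep α 𝓣.α_fin 𝓣.α_inj αF 𝓕.αF_map (z.comap α)
    (𝓣.L1b_isAlgClosed (z.comap α) hy hπ) π T hreg
    (fun f h hfh => ⟨1, fun h1 => hy.ne_top ((Ideal.eq_top_iff_one _).mpr h1), by
      rw [map_one, one_mul]; exact 𝓣.s2_α T hT f h hfh⟩)
    (l + 1) l 𝓕.deg_α 𝓣.hchar (𝓣.unr1 z hz h0 h1) θ δ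
    (fun s hs hdvd => by
      obtain ⟨r, hr⟩ := hdvd
      have h2 := congrArg (𝓣.m0.ρ ()) hr
      rw [map_mul, map_mul, 𝓣.m0.map_pi, zero_mul] at h2
      rcases mul_eq_zero.mp h2 with h3 | h3
      · exact hs (hthru (RingHom.mem_ker.mpr h3))
      · exact hδ h3)
    hdisc
    (by rw [𝓣.node_unique_over z hz h0 h1, Set.ncard_singleton])
    z hz rfl
  exact ⟨α T, θ', hθ'⟩

/-- (N4) **thickness one**: `s π = u g g'`, `s ∉ z`, `g ∈ 𝔭_∞`, `g' ∈ 𝔭_0`.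
Proof: `Reg2At.exists_locPrin` for `𝔭_∞`, `𝔭_0` (`≠ z` by `sep`): generators `g`, `g'`.  `π ∈ 𝔭_∞`: `s₁ π = g r`;
`g ∉ 𝔭_0` (else `𝔭_∞ ≤ 𝔭_0`), so `r ∈ 𝔭_0`: `s₂ r = g' u`. -/
theorem node_factor (𝓕 : TowerF l 𝓣 αF φ1 φ2) (z : Ideal M1) (hz : z.IsMaximal) (h0 : 𝓣.m1.Thru z 0)
    (h1 : 𝓣.m1.Thru z 1) :
    ∃ g g' s u : M1, s ∉ z ∧ 𝓣.m1.ρ 0 g = 0 ∧ 𝓣.m1.ρ 1 g' = 0 ∧ s * α π = u * g * g' := by
  obtain ⟨a, b, hreg⟩ := node_reg 𝓣 𝓕 z hz h0 h1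
  obtain ⟨u01, hu01, hu01'⟩ := 𝓣.m1.sep 0 1 (by decide)
  obtain ⟨u10, hu10, hu10'⟩ := 𝓣.m1.sep 1 0 (by decide)
  have hP0 : 𝓣.m1.P 0 ≠ z := by
    intro h
    have : u01 ∈ 𝓣.m1.P 0 := h ▸ h1 ((𝓣.m1.mem_P).2 hu01)
    exact hu01' ((𝓣.m1.mem_P).1 this)
  have hP1 : 𝓣.m1.P 1 ≠ z := by
    intro h
    have : u10 ∈ 𝓣.m1.P 1 := h ▸ h0 ((𝓣.m1.mem_P).2 hu10)
    exact hu10' ((𝓣.m1.mem_P).1 this)
  have hpr1 : (𝓣.m1.P 1).IsPrime := 𝓣.m1.P_isPrime 1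
  obtain ⟨g, hg, hgen⟩ := hreg.exists_locPrin hz (𝓣.m1.P 0) (𝓣.m1.P_isPrime 0) h0 hP0
  obtain ⟨g', hg', hgen'⟩ := hreg.exists_locPrin hz (𝓣.m1.P 1) hpr1 h1 hP1
  obtain ⟨s₁, hs₁, r, hr⟩ := hgen (α π) (𝓣.m1.pi_mem_P 0)
  have hg1 : g ∉ 𝓣.m1.P 1 := by
    intro hmem
    obtain ⟨s, hs, hdvd⟩ := hgen u10 ((𝓣.m1.mem_P).2 hu10)
    have h2 : s * u10 ∈ 𝓣.m1.P 1 := Ideal.mem_of_dvd _ hdvd hmem
    rcases hpr1.mem_or_mem h2 with h3 | h3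
    · exact hs (h1 h3)
    · exact hu10' ((𝓣.m1.mem_P).1 h3)
  have hr1 : r ∈ 𝓣.m1.P 1 := by
    have h2 : g * r ∈ 𝓣.m1.P 1 := by
      rw [← hr]
      exact Ideal.mul_mem_left _ _ (𝓣.m1.pi_mem_P 1)
    exact (hpr1.mem_or_mem h2).resolve_left hg1
  obtain ⟨s₂, hs₂, u, hu⟩ := hgen' r hr1
  refine ⟨g, g', s₂ * s₁, u, ?_, (𝓣.m1.mem_P).1 hg, (𝓣.m1.mem_P).1 hg', ?_⟩
  · intro h
    rcases hz.isPrime.mem_or_mem h with h | h
    · exact hs₂ h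
    · exact hs₁ h
  · rw [mul_assoc, hr, mul_left_comm, hu]
    ring

end Fermat.Agent.S36.R.Tower
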