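import Fermat.Agent.S36.R.Level1

/-!
# S36 / R / Level2 : every closed point of the fibre of level `l² N'` is regular; trichotomy     (= (R1), (R3), (R4') of #1240/#1257)

Components of level 2: `0 = ∞`, `1 = mid`, `2 = 0`.   Over `∞¹` via `p1`: `∞, mid`; over `0¹` via `p1`: `0` (alone, `e = 1`).
Over `∞¹` via `p2`: `∞` (alone, `e = 1`); over `0¹` via `p2`: `mid, 0`.
-/

set_option autoImplicit false

namespace Fermat.Agent.S36.R

/-- **(U2)+(U3), general form.**  `φ : M1 → M2`, a point `z` of `M1` through the component `cb`, with `s π = u g g'`, `s ∉ z`,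
`g ∈ 𝔭_ca`, `g' ∈ 𝔭_cb`; the component `c'` of `M2` is the only one over `cb`, `e c' = 1`, all the others lie over `ca`, `e ca = 1`.
Then every prime `n` of `M2` over `z` passes through `c'`, and `φ g'` generates `𝔭_{c'}` at `n`.
Proof.  For `f ∈ 𝔭_{c'}`: `π ∣ φ g * f` by `sat` (at `c'`: `pow` for `f`; at `c'' ≠ c'`: `pow` for `g` in `M1`, `π ∣ t₁ g`,
`ρ_{c''} (φ t₁) ≠ 0`).  So `φ g * f = φ π * r`; multiply by `φ s`, cancel `φ g ≠ 0`: `φ s * f = φ u * φ g' * r`.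
If `f ∉ n`: `φ g' ∈ n` (`g' ∈ 𝔭_cb ≤ z`) gives `φ s * f ∈ n`, contradiction. -/
theorem alone {M1 M2 R : Type*} [CommRing M1] [CommRing M2] [CommRing R] [IsDomain M1] [IsDomain M2]
    [IsDomain R] {π : M1} {π' : M2} (φ : M1 →+* M2) (hφ : Function.Injective φ) (hππ : φ π = π')
    {ι ι' : Type*} (m1 : Model M1 R π ι) (m2 : Model M2 R π' ι') (ca cb : ι) (c' : ι')
    (hb : ∀ g, m1.ρ cb g = 0 → m2.ρ c' (φ g) = 0)
    (ha : ∀ c'', c'' ≠ c' → ∀ g, m1.ρ ca g ≠ 0 → m2.ρ c'' (φ g) ≠ 0)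
    (he : m1.e ca = 1) (he' : m2.e c' = 1) (hπ : π ≠ 0)
    (z : Ideal M1) (hz : m1.Thru z cb) (g g' s u : M1) (hs : s ∉ z) (hg : m1.ρ ca g = 0)
    (hg' : m1.ρ cb g' = 0) (hfac : s * π = u * g * g')
    (n : Ideal M2) (hn : n.IsPrime) (hover : n.comap φ = z) :
    m2.Thru n c' ∧ LocPrin n (m2.P c') (φ g') := by
  have hs0 : s ≠ 0 := by
    rintro rfl
    exact hs (Ideal.zero_mem _)
  have hg0 : g ≠ 0 := by
    rintro rfl
    rw [mul_zero, zero_mul] at hfac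
    exact mul_ne_zero hs0 hπ hfac
  have hφg : φ g ≠ 0 := (map_ne_zero_iff φ hφ).2 hg0
  have hφs : φ s ∉ n := by
    intro h
    apply hs
    rw [← hover]
    exact h
  have hφg' : φ g' ∈ n := by
    have : g' ∈ z := hz (RingHom.mem_ker.2 hg')
    rw [← hover] at this
    exact this
  have key : ∀ f, m2.ρ c' f = 0 → ∃ r, φ s * f = φ g' * (φ u * r) := by
    intro f hf
    have h1 : π' ∣ φ g * f := by
      apply m2.sat
      intro c''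
      by_cases hc : c'' = c'
      · subst hc
        obtain ⟨t, ht, hdvd⟩ := m2.pow c'' f hf
        rw [he', pow_one] at hdvd
        refine ⟨t, ht, ?_⟩
        obtain ⟨w, hw⟩ := hdvd
        exact ⟨φ g * w, by linear_combination φ g * hw⟩
      · obtain ⟨t₁, ht₁, hdvd⟩ := m1.pow ca g hg
        rw [he, pow_one] at hdvd
        refine ⟨φ t₁, ha c'' hc t₁ ht₁, ?_⟩
        obtain ⟨w, hw⟩ := hdvd
        have hw' := congrArg φ hw
        rw [map_mul, map_mul, hππ] at hw'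
        exact ⟨φ w * f, by linear_combination f * hw'⟩
    obtain ⟨r, hr⟩ := h1
    refine ⟨r, ?_⟩
    have hfac' := congrArg φ hfac
    rw [map_mul, map_mul, map_mul, hππ] at hfac'
    apply mul_left_cancel₀ hφg
    linear_combination φ s * hr + r * hfac'
  constructor
  · intro f hf
    obtain ⟨r, hr⟩ := key f (RingHom.mem_ker.1 hf)
    have h2 : φ s * f ∈ n := by
      rw [hr]
      exact n.mul_mem_right _ hφg'
    exact (hn.mem_or_mem h2).resolve_left hφs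
  · refine ⟨RingHom.mem_ker.2 (hb g' hg'), fun f hf => ?_⟩
    obtain ⟨r, hr⟩ := key f (RingHom.mem_ker.1 hf)
    exact ⟨φ s, hφs, ⟨_, hr⟩⟩

namespace Model

variable {M M' R : Type*} [CommRing M] [CommRing M'] [CommRing R] {π : M} {π' : M'}
  {ι ι' : Type*} (m : Model M R π ι) (m' : Model M' R π' ι') (φ : M →+* M')

/-- components through `n.comap φ`. -/
theorem thru_comap_of (χ : R →+* R) (c : ι) (c' : ι')
    (h : ∀ g, m'.ρ c' (φ g) = χ (m.ρ c g)) (n : Ideal M') (hn : m'.Thru n c') :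
    m.Thru (n.comap φ) c := by
  intro g hg
  rw [Ideal.mem_comap]
  apply hn
  rw [Model.P, RingHom.mem_ker, h, RingHom.mem_ker.1 hg, map_zero]

/-- one inclusion of the uniqueness of the point of a component over a point below (`ρ' ∘ φ = ρ`). -/
theorem le_of_comap_le (c : ι) (c' : ι') (h : ∀ g, m'.ρ c' (φ g) = m.ρ c g) (n n' : Ideal M')
    (hn : m'.Thru n c') (hn' : m'.Thru n' c') (hc : n.comap φ ≤ n'.comap φ) : n ≤ n' := by
  intro f hf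
  obtain ⟨g, hg⟩ := m.surj c (m'.ρ c' f)
  have h1 : f - φ g ∈ m'.P c' := by
    rw [Model.P, RingHom.mem_ker, map_sub, h, hg, sub_self]
  have h2 : φ g ∈ n := by
    have := n.sub_mem hf (hn h1)
    simpa using this
  have h3 : φ g ∈ n' := hc h2
  have := n'.add_mem (hn' h1) h3
  simpa using this

/-- the same when `ρ' ∘ φ = Fr ∘ ρ` with `Fr` purely inseparable. -/
theorem le_of_comap_le_insep (Fr : R →+* R) (l : ℕ) (hl : l ≠ 0)
    (hFr : ∀ r : R, ∃ r', Fr r' = r ^ l) (c : ι) (c' : ι')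
    (h : ∀ g, m'.ρ c' (φ g) = Fr (m.ρ c g)) (n n' : Ideal M') (hn'p : n'.IsPrime)
    (hn : m'.Thru n c') (hn' : m'.Thru n' c') (hc : n.comap φ ≤ n'.comap φ) : n ≤ n' := by
  intro f hf
  obtain ⟨r', hr'⟩ := hFr (m'.ρ c' f)
  obtain ⟨g, rfl⟩ := m.surj c r'
  have h1 : f ^ l - φ g ∈ m'.P c' := by
    rw [Model.P, RingHom.mem_ker, map_sub, h, hr', map_pow, sub_self]
  have h2 : φ g ∈ n := by
    have := n.sub_mem (n.pow_mem_of_mem hf l (Nat.pos_of_ne_zero hl)) (hn h1)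
    simpa using this
  have h3 : φ g ∈ n' := hc h2
  have h4 : f ^ l ∈ n' := by
    have := n'.add_mem (hn' h1) h3
    simpa using this
  exact hn'p.mem_of_pow_mem l h4

/-- lying over inside a component. -/
theorem exists_over_of (c : ι) (c' : ι') (h : ∀ g, m'.ρ c' (φ g) = m.ρ c g) (z : Ideal M)
    (hz : z.IsMaximal) (hzc : m.Thru z c) :
    ∃ n : Ideal M', n.IsMaximal ∧ m'.Thru n c' ∧ n.comap φ = z := by
  have hmax : (z.map (m.ρ c)).IsMaximal := by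
    rcases Ideal.map_eq_top_or_isMaximal_of_surjective _ (m.surj c) hz with h1 | h1
    · exfalso
      have h2 : (1 : M) ∈ z := by
        apply m.mem_of_map_mem z c hzc
        rw [h1]
        exact Submodule.mem_top
      exact hz.ne_top ((Ideal.eq_top_iff_one _).2 h2)
    · exact h1
  refine ⟨(z.map (m.ρ c)).comap (m'.ρ c'),
    Ideal.comap_isMaximal_of_surjective _ (m'.surj c'), ?_, ?_⟩
  · intro f hf
    rw [Ideal.mem_comap, RingHom.mem_ker.1 hf]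
    exact Ideal.zero_mem _
  · ext g
    rw [Ideal.mem_comap, Ideal.mem_comap, h]
    exact ⟨m.mem_of_map_mem z c hzc g, fun hg => Ideal.mem_map_of_mem _ hg⟩

end Model

namespace Tower

variable {l : ℕ} {M0 M1 M2 R : Type*} [CommRing M0] [CommRing M1] [CommRing M2] [CommRing R]
  [IsDomain M0] [IsDomain M1] [IsDomain M2] [IsNoetherianRing M0] [IsNoetherianRing M1]
  [IsNoetherianRing M2] [IsDomain R] [IsDedekindDomain R]
  {π : M0} {α β : M0 →+* M1} {p1 p2 : M1 →+* M2} (𝓣 : Tower (R := R) l π α β p1 p2)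

include 𝓣 in
/-- `p2 (α π) = p1 (α π)`. -/
theorem p2_pi : p2 (α π) = p1 (α π) := by rw [← 𝓣.comm, 𝓣.beta_pi]

include 𝓣 in
/-- the multiplicity `l - 1` of the middle component is not `0`. -/
theorem two_le_l : 2 ≤ l := by
  obtain ⟨t, ht, hdvd⟩ := 𝓣.m2.pow 1 0 (map_zero _)
  by_contra hl
  have he : 𝓣.m2.e 1 = 0 := by rw [𝓣.e2_1]; omega
  rw [he, pow_zero, mul_one] at hdvd
  obtain ⟨w, rfl⟩ := hdvd
  apply ht
  rw [map_mul, 𝓣.m2.map_pi, zero_mul]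

/-- components through `n.comap p1`. -/
theorem thru_comap_p1 (n : Ideal M2) :
    (𝓣.m2.Thru n 0 → 𝓣.m1.Thru (n.comap p1) 0) ∧ (𝓣.m2.Thru n 1 → 𝓣.m1.Thru (n.comap p1) 0) ∧
    (𝓣.m2.Thru n 2 → 𝓣.m1.Thru (n.comap p1) 1) := by
  exact ⟨Model.thru_comap_of 𝓣.m1 𝓣.m2 p1 (RingHom.id R) 0 0 𝓣.r2_0_p1 n,
    Model.thru_comap_of 𝓣.m1 𝓣.m2 p1 (RingHom.id R) 0 1 𝓣.r2_1_p1 n,
    Model.thru_comap_of 𝓣.m1 𝓣.m2 p1 𝓣.Fr 1 2 𝓣.r2_2_p1 n⟩

/-- components through `n.comap p2`. -/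
theorem thru_comap_p2 (n : Ideal M2) :
    (𝓣.m2.Thru n 0 → 𝓣.m1.Thru (n.comap p2) 0) ∧ (𝓣.m2.Thru n 1 → 𝓣.m1.Thru (n.comap p2) 1) ∧
    (𝓣.m2.Thru n 2 → 𝓣.m1.Thru (n.comap p2) 1) := by
  exact ⟨Model.thru_comap_of 𝓣.m1 𝓣.m2 p2 𝓣.Fr 0 0 𝓣.r2_0_p2 n,
    Model.thru_comap_of 𝓣.m1 𝓣.m2 p2 (RingHom.id R) 1 1 𝓣.r2_1_p2 n,
    Model.thru_comap_of 𝓣.m1 𝓣.m2 p2 (RingHom.id R) 1 2 𝓣.r2_2_p2 n⟩

/-- uniqueness of the point of a given component over a point of level 1, via `p1`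
(`c = 0, 1`: `ρ²_c ∘ p1 = ρ¹₀`; `c = 2`: `ρ²₂ ∘ p1 = Fr ∘ ρ¹₁`, purely inseparable, as in `unique_over_α_1`). -/
theorem unique_over_p1 (c : Fin 3) (n n' : Ideal M2) (hn : n.IsMaximal) (hn' : n'.IsMaximal)
    (h : 𝓣.m2.Thru n c) (h' : 𝓣.m2.Thru n' c) (hc : n.comap p1 = n'.comap p1) : n = n' := by
  have hl : l ≠ 0 := by have := 𝓣.two_le_l; omega
  fin_cases c
  · exact le_antisymm (Model.le_of_comap_le 𝓣.m1 𝓣.m2 p1 0 0 𝓣.r2_0_p1 n n' h h' hc.le)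
      (Model.le_of_comap_le 𝓣.m1 𝓣.m2 p1 0 0 𝓣.r2_0_p1 n' n h' h hc.ge)
  · exact le_antisymm (Model.le_of_comap_le 𝓣.m1 𝓣.m2 p1 0 1 𝓣.r2_1_p1 n n' h h' hc.le)
      (Model.le_of_comap_le 𝓣.m1 𝓣.m2 p1 0 1 𝓣.r2_1_p1 n' n h' h hc.ge)
  · exact le_antisymm
      (Model.le_of_comap_le_insep 𝓣.m1 𝓣.m2 p1 𝓣.Fr l hl 𝓣.Fr_insep 1 2 𝓣.r2_2_p1 n n'
        hn'.isPrime h h' hc.le)
      (Model.le_of_comap_le_insep 𝓣.m1 𝓣.m2 p1 𝓣.Fr l hl 𝓣.Fr_insep 1 2 𝓣.r2_2_p1 n' n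
        hn.isPrime h' h hc.ge)

/-- the same via `p2`. -/
theorem unique_over_p2 (c : Fin 3) (n n' : Ideal M2) (hn : n.IsMaximal) (hn' : n'.IsMaximal)
    (h : 𝓣.m2.Thru n c) (h' : 𝓣.m2.Thru n' c) (hc : n.comap p2 = n'.comap p2) : n = n' := by
  have hl : l ≠ 0 := by have := 𝓣.two_le_l; omega
  fin_cases c
  · exact le_antisymm
      (Model.le_of_comap_le_insep 𝓣.m1 𝓣.m2 p2 𝓣.Fr l hl 𝓣.Fr_insep 0 0 𝓣.r2_0_p2 n n'
        hn'.isPrime h h' hc.le)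
      (Model.le_of_comap_le_insep 𝓣.m1 𝓣.m2 p2 𝓣.Fr l hl 𝓣.Fr_insep 0 0 𝓣.r2_0_p2 n' n
        hn.isPrime h' h hc.ge)
  · exact le_antisymm (Model.le_of_comap_le 𝓣.m1 𝓣.m2 p2 1 1 𝓣.r2_1_p2 n n' h h' hc.le)
      (Model.le_of_comap_le 𝓣.m1 𝓣.m2 p2 1 1 𝓣.r2_1_p2 n' n h' h hc.ge)
  · exact le_antisymm (Model.le_of_comap_le 𝓣.m1 𝓣.m2 p2 1 2 𝓣.r2_2_p2 n n' h h' hc.le)
      (Model.le_of_comap_le 𝓣.m1 𝓣.m2 p2 1 2 𝓣.r2_2_p2 n' n h' h hc.ge)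

/-- existence (lying over inside a component): a maximal ideal `z` of `M1` through `∞¹` has a point of the component `c = 0, 1`
above it via `p1` (take `(ρ²_c)⁻¹ (ρ¹₀ z)`). -/
theorem exists_over_p1 (c : Fin 3) (hc : c ≠ 2) (z : Ideal M1) (hz : z.IsMaximal) (h : 𝓣.m1.Thru z 0) :
    ∃ n : Ideal M2, n.IsMaximal ∧ 𝓣.m2.Thru n c ∧ n.comap p1 = z := by
  fin_cases c
  · exact Model.exists_over_of 𝓣.m1 𝓣.m2 p1 0 0 𝓣.r2_0_p1 z hz h
  · exact Model.exists_over_of 𝓣.m1 𝓣.m2 p1 0 1 𝓣.r2_1_p1 z hz h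
  · exact absurd rfl hc

/-- a maximal ideal `z` of `M1` through `0¹` has a point of the component `c = 1, 2` above it via `p2`. -/
theorem exists_over_p2 (c : Fin 3) (hc : c ≠ 0) (z : Ideal M1) (hz : z.IsMaximal) (h : 𝓣.m1.Thru z 1) :
    ∃ n : Ideal M2, n.IsMaximal ∧ 𝓣.m2.Thru n c ∧ n.comap p2 = z := by
  fin_cases c
  · exact absurd rfl hc
  · exact Model.exists_over_of 𝓣.m1 𝓣.m2 p2 1 1 𝓣.r2_1_p2 z hz h
  · exact Model.exists_over_of 𝓣.m1 𝓣.m2 p2 1 2 𝓣.r2_2_p2 z hz h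

include 𝓣 in
/-- the preimage of a maximal ideal under a finite map is maximal. -/
theorem L2c_comap_isMaximal (p : M1 →+* M2) (hp : p.Finite) (n : Ideal M2) (hn : n.IsMaximal) :
    (n.comap p).IsMaximal :=
  Ideal.isMaximal_comap_of_isIntegral_of_isMaximal' p hp.to_isIntegral n

include 𝓣 in
/-- `π ≠ 0` (from `sep`, `pow` at level 1). -/
theorem L2c_α_pi_ne_zero : α π ≠ 0 := by
  intro h0
  obtain ⟨u, hu1, hu0⟩ := 𝓣.m1.sep 0 1 (by decide)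
  obtain ⟨t, ht, hd⟩ := 𝓣.m1.pow 1 u hu1
  rw [𝓣.e1, pow_one] at hd
  have hd' : t * u = 0 := zero_dvd_iff.1 (h0 ▸ hd)
  rcases mul_eq_zero.1 hd' with h | h
  · exact ht (by rw [h, map_zero])
  · exact hu0 (by rw [h, map_zero])

variable {F0 F1 F2 : Type*} [Field F0] [Field F1] [Field F2] [Algebra M0 F0] [Algebra M1 F1]
  [Algebra M2 F2] [IsFractionRing M0 F0] [IsFractionRing M1 F1] [IsFractionRing M2 F2]
  {αF : F0 →+* F1} {φ1 φ2 : F1 →+* F2}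

/-- (T1) over a node via `p1`: the point lies on the component `0` and `𝔭_0` is locally principal (`alone` + `node_factor`). -/
theorem over_node_p1 (𝓕 : TowerF l 𝓣 αF φ1 φ2) (n : Ideal M2) (hn : n.IsMaximal)
    (h0 : 𝓣.m1.Thru (n.comap p1) 0) (h1 : 𝓣.m1.Thru (n.comap p1) 1) :
    𝓣.m2.Thru n 2 ∧ ∃ g, LocPrin n (𝓣.m2.P 2) g := by
  have hz : (n.comap p1).IsMaximal := 𝓣.L2c_comap_isMaximal p1 𝓣.p1_fin n hn
  obtain ⟨g, g', s, u, hs, hg, hg', hfac⟩ := 𝓣.node_factor 𝓕 (n.comap p1) hz h0 h1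
  have := alone p1 𝓣.p1_inj rfl 𝓣.m1 𝓣.m2 0 1 2
    (fun g hg => by rw [𝓣.r2_2_p1, hg, map_zero])
    (fun c'' hc'' g hg => by
      fin_cases c''
      · simpa [𝓣.r2_0_p1] using hg
      · simpa [𝓣.r2_1_p1] using hg
      · exact absurd rfl hc'')
    (𝓣.e1 0) 𝓣.e2_2 𝓣.L2c_α_pi_ne_zero (n.comap p1) h1 g g' s u hs hg hg' hfac n hn.isPrime rfl
  exact ⟨this.1, _, this.2⟩

/-- (T2) over a node via `p2`: the point lies on the component `∞` and `𝔭_∞` is locally principal. -/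
theorem over_node_p2 (𝓕 : TowerF l 𝓣 αF φ1 φ2) (n : Ideal M2) (hn : n.IsMaximal)
    (h0 : 𝓣.m1.Thru (n.comap p2) 0) (h1 : 𝓣.m1.Thru (n.comap p2) 1) :
    𝓣.m2.Thru n 0 ∧ ∃ g, LocPrin n (𝓣.m2.P 0) g := by
  have hz : (n.comap p2).IsMaximal := 𝓣.L2c_comap_isMaximal p2 𝓣.p2_fin n hn
  obtain ⟨g, g', s, u, hs, hg, hg', hfac⟩ := 𝓣.node_factor 𝓕 (n.comap p2) hz h0 h1
  have := alone p2 𝓣.p2_inj 𝓣.p2_pi 𝓣.m1 𝓣.m2 1 0 0
    (fun g hg => by rw [𝓣.r2_0_p2, hg, map_zero])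
    (fun c'' hc'' g hg => by
      fin_cases c''
      · exact absurd rfl hc''
      · simpa [𝓣.r2_1_p2] using hg
      · simpa [𝓣.r2_2_p2] using hg)
    (𝓣.e1 1) 𝓣.e2_0 𝓣.L2c_α_pi_ne_zero (n.comap p2) h0 g' g s u hs hg' hg
    (by rw [hfac]; ring) n hn.isPrime rfl
  exact ⟨this.1, _, this.2⟩

/-- (T3) **TRICHOTOMY**: a point on two components lies on all three.
`0,1 ⊆ n`: `n.comap p2` is a node; the point `n''` of the component `2` over it (`exists_over_p2`) lies on `0` (T2), so `n'' = n`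
(`unique_over_p2 0`).  `1,2 ⊆ n`: `n.comap p1` is a node, the point of the component `0` over it lies on `2` (T1), `unique_over_p1 2`.
`0,2 ⊆ n`: `n.comap p1` is a node, the point of the component `1` over it lies on `2`, `unique_over_p1 2`. -/
theorem trichotomy (𝓕 : TowerF l 𝓣 αF φ1 φ2) (n : Ideal M2) (hn : n.IsMaximal) (c c' : Fin 3)
    (hcc : c ≠ c') (h : 𝓣.m2.Thru n c) (h' : 𝓣.m2.Thru n c') : ∀ c'', 𝓣.m2.Thru n c'' := by
  have hA : 𝓣.m2.Thru n 0 → 𝓣.m2.Thru n 1 → 𝓣.m2.Thru n 2 := by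
    intro a0 a1
    have hz : (n.comap p2).IsMaximal := 𝓣.L2c_comap_isMaximal p2 𝓣.p2_fin n hn
    have z0 := (𝓣.thru_comap_p2 n).1 a0
    have z1 := (𝓣.thru_comap_p2 n).2.1 a1
    obtain ⟨n'', hn'', t2, hc⟩ := 𝓣.exists_over_p2 2 (by decide) (n.comap p2) hz z1
    have t0 := (𝓣.over_node_p2 𝓕 n'' hn'' (hc ▸ z0) (hc ▸ z1)).1
    rw [𝓣.unique_over_p2 0 n n'' hn hn'' a0 t0 hc.symm]
    exact t2
  have hB : 𝓣.m2.Thru n 1 → 𝓣.m2.Thru n 2 → 𝓣.m2.Thru n 0 := by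
    intro a1 a2
    have hz : (n.comap p1).IsMaximal := 𝓣.L2c_comap_isMaximal p1 𝓣.p1_fin n hn
    have z0 := (𝓣.thru_comap_p1 n).2.1 a1
    have z1 := (𝓣.thru_comap_p1 n).2.2 a2
    obtain ⟨n'', hn'', t0, hc⟩ := 𝓣.exists_over_p1 0 (by decide) (n.comap p1) hz z0
    have t2 := (𝓣.over_node_p1 𝓕 n'' hn'' (hc ▸ z0) (hc ▸ z1)).1
    rw [𝓣.unique_over_p1 2 n n'' hn hn'' a2 t2 hc.symm]
    exact t0
  have hC : 𝓣.m2.Thru n 0 → 𝓣.m2.Thru n 2 → 𝓣.m2.Thru n 1 := by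
    intro a0 a2
    have hz : (n.comap p1).IsMaximal := 𝓣.L2c_comap_isMaximal p1 𝓣.p1_fin n hn
    have z0 := (𝓣.thru_comap_p1 n).1 a0
    have z1 := (𝓣.thru_comap_p1 n).2.2 a2
    obtain ⟨n'', hn'', t1, hc⟩ := 𝓣.exists_over_p1 1 (by decide) (n.comap p1) hz z0
    have t2 := (𝓣.over_node_p1 𝓕 n'' hn'' (hc ▸ z0) (hc ▸ z1)).1
    rw [𝓣.unique_over_p1 2 n n'' hn hn'' a2 t2 hc.symm]
    exact t1
  have hall : 𝓣.m2.Thru n 0 ∧ 𝓣.m2.Thru n 1 ∧ 𝓣.m2.Thru n 2 := by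
    fin_cases c <;> fin_cases c'
    · exact absurd rfl hcc
    · exact ⟨h, h', hA h h'⟩
    · exact ⟨h, hC h h', h'⟩
    · exact ⟨h', h, hA h' h⟩
    · exact absurd rfl hcc
    · exact ⟨hB h h', h, h'⟩
    · exact ⟨h', hC h' h, h⟩
    · exact ⟨hB h' h, h', h⟩
    · exact absurd rfl hcc
  intro c''
  fin_cases c''
  · exact hall.1
  · exact hall.2.1
  · exact hall.2.2

/-- (T4) a triple point is the only maximal ideal over its images. -/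
theorem triple_unique_over (𝓕 : TowerF l 𝓣 αF φ1 φ2) (n : Ideal M2) (hn : n.IsMaximal)
    (h : ∀ c, 𝓣.m2.Thru n c) (n' : Ideal M2) (hn' : n'.IsMaximal) :
    (n'.comap p1 = n.comap p1 → n' = n) ∧ (n'.comap p2 = n.comap p2 → n' = n) := by
  constructor
  · intro hc
    have z0 := (𝓣.thru_comap_p1 n).1 (h 0)
    have z1 := (𝓣.thru_comap_p1 n).2.2 (h 2)
    have t2 := (𝓣.over_node_p1 𝓕 n' hn' (hc ▸ z0) (hc ▸ z1)).1
    exact 𝓣.unique_over_p1 2 n' n hn' hn t2 (h 2) hc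
  · intro hc
    have z0 := (𝓣.thru_comap_p2 n).1 (h 0)
    have z1 := (𝓣.thru_comap_p2 n).2.2 (h 2)
    have t0 := (𝓣.over_node_p2 𝓕 n' hn' (hc ▸ z0) (hc ▸ z1)).1
    exact 𝓣.unique_over_p2 0 n' n hn' hn t0 (h 0) hc

/-- (helper of `reg_over_nonnode`) algebraic closedness is transported by ring isomorphisms (any universes). -/
theorem L2d_isAlgClosed_of_ringEquiv {k k' : Type*} [Field k] [Field k'] (e : k ≃+* k')
    [IsAlgClosed k] : IsAlgClosed k' := by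
  apply IsAlgClosed.of_exists_root
  intro p hmp hp
  have hpe : Polynomial.degree (p.map e.symm.toRingHom) ≠ 0 := by
    rw [Polynomial.degree_map]
    exact ne_of_gt (Polynomial.degree_pos_of_irreducible hp)
  rcases IsAlgClosed.exists_root (k := k) (p.map e.symm.toRingHom) hpe with ⟨x, hx⟩
  use e x
  rw [Polynomial.IsRoot] at hx
  apply e.symm.injective
  rw [map_zero, ← hx]
  clear hx hpe hp hmp
  induction p using Polynomial.induction_on <;> simp_all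

/-- (helper of `reg_over_nonnode`) the residue field of a closed point of the fibre is algebraically closed. -/
theorem L2d_isAlgClosed_quotient {M R : Type*} [CommRing M] [CommRing R] [IsDomain R] {π : M}
    {ι : Type*} (𝓜 : Model M R π ι)
    (halg : ∀ (𝔫 : Ideal R) [𝔫.IsMaximal], @IsAlgClosed (R ⧸ 𝔫) (Ideal.Quotient.field 𝔫))
    (n : Ideal M) [hn : n.IsMaximal] (c : ι) (hc : 𝓜.Thru n c) :
    @IsAlgClosed (M ⧸ n) (Ideal.Quotient.field n) := by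
  obtain ⟨hmax, hcomap⟩ := 𝓜.map_isMaximal n hn c hc
  letI := Ideal.Quotient.field n
  letI := Ideal.Quotient.field (n.map (𝓜.ρ c))
  have := halg (n.map (𝓜.ρ c))
  have hle : n ≤ (n.map (𝓜.ρ c)).comap (𝓜.ρ c) := hcomap.ge
  have hbij : Function.Bijective (Ideal.quotientMap (n.map (𝓜.ρ c)) (𝓜.ρ c) hle) :=
    ⟨Ideal.quotientMap_injective' hcomap.le, Ideal.quotientMap_surjective (𝓜.surj c)⟩
  exact L2d_isAlgClosed_of_ringEquiv (RingEquiv.ofBijective _ hbij).symm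

/-- (S2) for `p1` at a non-node `z` of `∞¹`: `π f = T h`, `ρ¹₀ T ≠ 0` ⟹ `T ∣ s f` for some `s ∉ z`.
(`s ∈ 𝔭¹_0 \ z`; `sat` in `M2` for `p1 s * h`: `t = p1 T` at `0, 1`; `pow` for `p1 s` at `2`.) -/
theorem s2_p1 (z : Ideal M1) (h1 : ¬ 𝓣.m1.Thru z 1) (T : M1) (hT : 𝓣.m1.ρ 0 T ≠ 0) (f h : M2)
    (hfh : p1 (α π) * f = p1 T * h) : ∃ s, s ∉ z ∧ p1 T ∣ p1 s * f := by
  obtain ⟨s, hs1, hsz⟩ := SetLike.not_le_iff_exists.mp h1
  have hs1' : 𝓣.m1.ρ 1 s = 0 := RingHom.mem_ker.mp hs1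
  refine ⟨s, hsz, ?_⟩
  have hπ0 : p1 (α π) ≠ 0 := (map_ne_zero_iff p1 𝓣.p1_inj).2 𝓣.L2c_α_pi_ne_zero
  have hT' : p1 (α π) ∣ p1 T * (p1 s * h) := ⟨p1 s * f, by linear_combination (-(p1 s)) * hfh⟩
  have hdvd : p1 (α π) ∣ p1 s * h := by
    apply 𝓣.m2.sat
    intro c
    fin_cases c
    · exact ⟨p1 T, by simpa [𝓣.r2_0_p1] using hT, hT'⟩
    · exact ⟨p1 T, by simpa [𝓣.r2_1_p1] using hT, hT'⟩
    · obtain ⟨t, ht, hd⟩ := 𝓣.m2.pow 2 (p1 s) (by rw [𝓣.r2_2_p1, hs1', map_zero])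
      rw [𝓣.e2_2, pow_one] at hd
      refine ⟨t, ht, ?_⟩
      rw [← mul_assoc]
      exact Dvd.dvd.mul_right hd h
  obtain ⟨w, hw⟩ := hdvd
  refine ⟨w, ?_⟩
  apply mul_left_cancel₀ hπ0
  linear_combination p1 s * hfh + p1 T * hw

/-- at most two points over a non-node of `∞¹`. -/
theorem ncard_over_le_two (z : Ideal M1) (hz : z.IsMaximal) (h0 : 𝓣.m1.Thru z 0)
    (h1 : ¬ 𝓣.m1.Thru z 1) :
    Set.ncard {𝔫 : Ideal M2 | 𝔫.IsMaximal ∧ 𝔫.comap p1 = z} ≤ 2 := by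
  classical
  have hthru : ∀ 𝔫 : Ideal M2, 𝔫.IsMaximal → 𝔫.comap p1 = z → 𝓣.m2.Thru 𝔫 0 ∨ 𝓣.m2.Thru 𝔫 1 := by
    intro 𝔫 h𝔫 hc
    have hπ : p1 (α π) ∈ 𝔫 := by
      have h2 : α π ∈ 𝔫.comap p1 := by
        rw [hc]
        exact h0 (𝓣.m1.pi_mem_P 0)
      exact h2
    obtain ⟨c, hcT⟩ := 𝓣.m2.exists_thru 𝔫 h𝔫.isPrime hπ
    fin_cases c
    · exact Or.inl hcT
    · exact Or.inr hcT
    · exact absurd (hc ▸ (𝓣.thru_comap_p1 𝔫).2.2 hcT) h1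
  have hle := Set.ncard_le_ncard_of_injOn (s := {𝔫 : Ideal M2 | 𝔫.IsMaximal ∧ 𝔫.comap p1 = z})
    (t := (Set.univ : Set Bool)) (fun 𝔫 => decide (𝓣.m2.Thru 𝔫 0)) (fun _ _ => Set.mem_univ _)
    (by
      rintro 𝔫 ⟨h𝔫, hc⟩ 𝔫' ⟨h𝔫', hc'⟩ heq
      have heq' : 𝓣.m2.Thru 𝔫 0 ↔ 𝓣.m2.Thru 𝔫' 0 := by simpa using heq
      by_cases ht : 𝓣.m2.Thru 𝔫 0
      · exact 𝓣.unique_over_p1 0 𝔫 𝔫' h𝔫 h𝔫' ht (heq'.1 ht) (hc.trans hc'.symm)
      · have ht' : ¬ 𝓣.m2.Thru 𝔫' 0 := fun h => ht (heq'.2 h)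
        exact 𝓣.unique_over_p1 1 𝔫 𝔫' h𝔫 h𝔫' ((hthru 𝔫 h𝔫 hc).resolve_left ht)
          ((hthru 𝔫' h𝔫' hc').resolve_left ht') (hc.trans hc'.symm))
    Set.finite_univ
  simpa [Set.ncard_univ] using hle

/-- (T5) = (R3): the points over a non-node of `∞¹` are regular (`regStep`, `n = l`, `a = l - 2`, at most two points;
`Model.exists_reg2At_of_single` at level 1 gives `Reg2At z π T`). -/
theorem reg_over_nonnode (hl : 2 ≤ l) (𝓕 : TowerF l 𝓣 αF φ1 φ2) (n : Ideal M2) (hn : n.IsMaximal)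
    (h0 : 𝓣.m1.Thru (n.comap p1) 0) (h1 : ¬ 𝓣.m1.Thru (n.comap p1) 1) : ∃ a b, Reg2At n a b := by
  have hz : (n.comap p1).IsMaximal := 𝓣.L2c_comap_isMaximal p1 𝓣.p1_fin n hn
  obtain ⟨T, hreg, hT⟩ := 𝓣.m1.exists_reg2At_of_single 𝓣.notField (n.comap p1) hz 0 h0 (𝓣.e1 0)
    (fun c' hc' => by
      fin_cases c'
      · exact absurd rfl hc'
      · exact h1)
  obtain ⟨θ, δ, hδ, hdisc⟩ := 𝓕.db2
  have hcard := 𝓣.ncard_over_le_two (n.comap p1) hz h0 h1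
  obtain ⟨θ', hθ'⟩ := regStep p1 𝓣.p1_fin 𝓣.p1_inj φ1 𝓕.φ1_map (n.comap p1)
    (L2d_isAlgClosed_quotient 𝓣.m1 𝓣.algClosed (n.comap p1) 0 h0) (α π) T hreg
    (fun f h hfh => 𝓣.s2_p1 (n.comap p1) h1 T hT f h hfh) l (l - 2) 𝓕.deg_1
    (fun k hk => by
      obtain ⟨j, hj⟩ := 𝓣.hchar k hk
      refine ⟨j, ?_⟩
      have := map_dvd α hj
      rwa [map_natCast, map_pow] at this)
    (𝓣.unr2 (n.comap p1) hz h0 h1) θ δ
    (fun s hs hdvd => by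
      obtain ⟨w, hw⟩ := hdvd
      have h2 := congrArg (𝓣.m1.ρ 0) hw
      rw [map_mul, map_mul, 𝓣.m1.map_pi, zero_mul] at h2
      rcases mul_eq_zero.1 h2 with h3 | h3
      · exact hs (h0 (RingHom.mem_ker.2 h3))
      · exact hδ h3)
    hdisc (by omega) n hn rfl
  exact ⟨_, _, hθ'⟩

/-- (T6) **every closed point of the fibre is regular.**
`n.comap p1` contains `π`: through `∞¹` or `0¹`.  Node: (T1) + `Model.exists_reg2At_of_locPrin`.  Only `∞¹`: (T5).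
Only `0¹`: only the component `2` passes through `n`: `Model.exists_reg2At_of_single`. -/
theorem reg_all (hl : 2 ≤ l) (𝓕 : TowerF l 𝓣 αF φ1 φ2) (n : Ideal M2) (hn : n.IsMaximal)
    (hπ : p1 (α π) ∈ n) : ∃ a b, Reg2At n a b := by
  by_cases h0 : 𝓣.m1.Thru (n.comap p1) 0
  · by_cases h1 : 𝓣.m1.Thru (n.comap p1) 1
    · obtain ⟨hc, g, hg⟩ := 𝓣.over_node_p1 𝓕 n hn h0 h1
      obtain ⟨T, hT, -⟩ := 𝓣.m2.exists_reg2At_of_locPrin 𝓣.notField n hn 2 hc g hg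
      exact ⟨_, _, hT⟩
    · exact 𝓣.reg_over_nonnode hl 𝓕 n hn h0 h1
  · have hn0 : ¬ 𝓣.m2.Thru n 0 := fun h => h0 ((𝓣.thru_comap_p1 n).1 h)
    have hn1 : ¬ 𝓣.m2.Thru n 1 := fun h => h0 ((𝓣.thru_comap_p1 n).2.1 h)
    have hn2 : 𝓣.m2.Thru n 2 := by
      obtain ⟨c, hcT⟩ := 𝓣.m2.exists_thru n hn.isPrime hπ
      fin_cases c
      · exact absurd hcT hn0
      · exact absurd hcT hn1
      · exact hcT
    obtain ⟨T, hT, -⟩ := 𝓣.m2.exists_reg2At_of_single 𝓣.notField n hn 2 hn2 𝓣.e2_2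
      (fun c' hc' => by
        fin_cases c'
        · exact hn0
        · exact hn1
        · exact absurd rfl hc')
    exact ⟨_, _, hT⟩

end Tower

end Fermat.Agent.S36.R
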