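import Fermat.Agent.S36.R.Defs

/-!
# S36 / R / Model : general lemmas on one chart   (pure algebra, each ≤ 60 lines)

`𝓜 : Model M R π ι`, `ι` finite, `R` a domain (Dedekind where stated).
-/

set_option autoImplicit false

namespace Fermat.Agent.S36.R.Model

variable {M R : Type*} [CommRing M] [CommRing R] [IsDomain R] {π : M} {ι : Type*} [Finite ι]
  (𝓜 : Model M R π ι)

omit [Finite ι] in
theorem mem_P {c : ι} {f : M} : f ∈ 𝓜.P c ↔ 𝓜.ρ c f = 0 := RingHom.mem_ker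

omit [Finite ι] in
theorem P_isPrime (c : ι) : (𝓜.P c).IsPrime := RingHom.ker_isPrime _

omit [Finite ι] [IsDomain R] in
theorem pi_mem_P (c : ι) : π ∈ 𝓜.P c := RingHom.mem_ker.mpr (𝓜.map_pi c)

/-- (M3) LOCAL SATURATION.  Only the components through `n` have to be tested.
Proof: for `c` not through `n` pick `u_c ∈ 𝔭_c \ n`; `s = ∏ u_c ^ (e c)` (product over those `c`; `n` prime so `s ∉ n`);
`pow` gives `t_c`, `ρ c t_c ≠ 0`, `π ∣ t_c * u_c ^ e c`; apply `sat` to `s * a`. -/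
theorem exists_dvd_of_thru (n : Ideal M) (hn : n.IsPrime) (a : M)
    (h : ∀ c, 𝓜.Thru n c → ∃ t, 𝓜.ρ c t ≠ 0 ∧ π ∣ t * a) : ∃ s, s ∉ n ∧ π ∣ s * a := by
  classical
  cases nonempty_fintype ι
  have hex : ∀ c, ∃ u : M, u ∉ n ∧ (¬ 𝓜.Thru n c → 𝓜.ρ c u = 0) := by
    intro c
    by_cases hc : 𝓜.Thru n c
    · exact ⟨1, fun h1 => hn.ne_top ((Ideal.eq_top_iff_one n).mpr h1), fun h' => absurd hc h'⟩
    · obtain ⟨u, hu, hun⟩ := SetLike.not_le_iff_exists.mp hc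
      exact ⟨u, hun, fun _ => RingHom.mem_ker.mp hu⟩
  choose u hun hu using hex
  refine ⟨∏ c, u c ^ 𝓜.e c, ?_, ?_⟩
  · intro hmem
    obtain ⟨c, -, hc⟩ := (hn.prod_mem_iff).mp hmem
    exact hun c (hn.mem_of_pow_mem _ hc)
  · apply 𝓜.sat
    intro c
    by_cases hc : 𝓜.Thru n c
    · obtain ⟨t, ht, hdvd⟩ := h c hc
      refine ⟨t, ht, ?_⟩
      rw [mul_left_comm]
      exact Dvd.dvd.mul_left hdvd _
    · obtain ⟨t, ht, hdvd⟩ := 𝓜.pow c (u c) (hu c hc)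
      refine ⟨t, ht, ?_⟩
      rw [← mul_assoc]
      refine Dvd.dvd.mul_right (hdvd.trans ?_) _
      exact mul_dvd_mul_left t (Finset.dvd_prod_of_mem (fun c => u c ^ 𝓜.e c) (Finset.mem_univ c))

/-- (M2) a prime containing `π` contains some `𝔭_c`  (apply (M3) to `a = 1`). -/
theorem exists_thru (n : Ideal M) (hn : n.IsPrime) (hπ : π ∈ n) : ∃ c, 𝓜.Thru n c := by
  by_contra hcon
  push Not at hcon
  obtain ⟨s, hs, hdvd⟩ := 𝓜.exists_dvd_of_thru n hn 1 (fun c hc => absurd hc (hcon c))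
  rw [mul_one] at hdvd
  exact hs (Ideal.mem_of_dvd n hdvd hπ)

omit [Finite ι] [IsDomain R] in
/-- auxiliary form of (M4'). -/
theorem mem_of_map_mem (n : Ideal M) (c : ι) (h : 𝓜.Thru n c) (f : M)
    (hf : 𝓜.ρ c f ∈ n.map (𝓜.ρ c)) : f ∈ n := by
  obtain ⟨x, hx, hxf⟩ := (Ideal.mem_map_iff_of_surjective _ (𝓜.surj c)).1 hf
  have h1 : f - x ∈ 𝓜.P c := by
    rw [Model.P, RingHom.mem_ker, map_sub, hxf, sub_self]
  have h2 := n.add_mem (h h1) hx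
  simpa using h2

omit [Finite ι] in
/-- (M4) a maximal ideal through `c` is the preimage of a maximal ideal of `R`. -/
theorem map_isMaximal (n : Ideal M) (hn : n.IsMaximal) (c : ι) (h : 𝓜.Thru n c) :
    (n.map (𝓜.ρ c)).IsMaximal ∧ (n.map (𝓜.ρ c)).comap (𝓜.ρ c) = n := by
  have hcomap : (n.map (𝓜.ρ c)).comap (𝓜.ρ c) = n := by
    ext f
    rw [Ideal.mem_comap]
    exact ⟨𝓜.mem_of_map_mem n c h f, fun hf => Ideal.mem_map_of_mem _ hf⟩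
  refine ⟨?_, hcomap⟩
  rcases Ideal.map_eq_top_or_isMaximal_of_surjective _ (𝓜.surj c) hn with h1 | h1
  · exfalso
    rw [h1, Ideal.comap_top] at hcomap
    exact hn.ne_top hcomap.symm
  · exact h1

omit [Finite ι] in
/-- (M4') -/
theorem mem_iff_of_thru (n : Ideal M) (c : ι) (h : 𝓜.Thru n c) (f : M) :
    f ∈ n ↔ 𝓜.ρ c f ∈ n.map (𝓜.ρ c) := by
  exact ⟨fun hf => Ideal.mem_map_of_mem _ hf, 𝓜.mem_of_map_mem n c h f⟩

/-- (M6) if only the component `c` passes through `n` and `e c = 1` then `π` generates `𝔭_c` at `n`  ((M3) + `pow`). -/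
theorem locPrin_pi (n : Ideal M) (hn : n.IsPrime) (c : ι) (hc : 𝓜.Thru n c) (he : 𝓜.e c = 1)
    (honly : ∀ c', c' ≠ c → ¬ 𝓜.Thru n c') : LocPrin n (𝓜.P c) π := by
  refine ⟨RingHom.mem_ker.mpr (𝓜.map_pi c), fun f hf => ?_⟩
  apply 𝓜.exists_dvd_of_thru n hn f
  intro c' hc'
  obtain rfl : c' = c := by
    by_contra hne
    exact honly c' hne hc'
  obtain ⟨t, ht, hdvd⟩ := 𝓜.pow c' f (RingHom.mem_ker.mp hf)
  rw [he, pow_one] at hdvd
  exact ⟨t, ht, hdvd⟩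

/-- a local generator of a maximal ideal of a Dedekind domain (elementwise). -/
theorem exists_local_generator {R : Type*} [CommRing R] [IsDedekindDomain R] (hR : ¬ IsField R)
    (𝔫 : Ideal R) (h𝔫 : 𝔫.IsMaximal) :
    ∃ τ ∈ 𝔫, τ ≠ 0 ∧ ∀ r ∈ 𝔫, ∃ s, s ∉ 𝔫 ∧ τ ∣ s * r := by
  have hbot : 𝔫 ≠ ⊥ := Ring.ne_bot_of_isMaximal_of_not_isField h𝔫 hR
  obtain ⟨τ, hτ1, hτ2⟩ := Ideal.exists_mem_pow_notMem_pow_succ 𝔫 hbot h𝔫.ne_top 1
  rw [pow_one] at hτ1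
  have hle : Ideal.span {τ} ≤ 𝔫 := (Ideal.span_singleton_le_iff_mem _).2 hτ1
  obtain ⟨J, hJ⟩ := Ideal.dvd_iff_le.2 hle
  have hJn : ¬ J ≤ 𝔫 := by
    intro hJle
    apply hτ2
    have : Ideal.span {τ} ≤ 𝔫 ^ (1 + 1) := by
      rw [hJ, pow_succ, pow_one]
      exact Ideal.mul_mono_right hJle
    exact this (Ideal.mem_span_singleton_self τ)
  obtain ⟨s, hsJ, hsn⟩ := Set.not_subset.1 hJn
  refine ⟨τ, hτ1, ?_, fun r hr => ⟨s, hsn, ?_⟩⟩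
  · rintro rfl
    exact hτ2 (Ideal.zero_mem _)
  · rw [← Ideal.mem_span_singleton, hJ, mul_comm s r]
    exact Ideal.mul_mem_mul hr hsJ

omit [Finite ι] in
/-- (M7) THE UNIFORM CRITERION (helper36): if ONE vertical prime through `n` is locally principal, `n` is a regular point.
Proof: `𝔫 = ρ c (n)` maximal in the Dedekind domain `R`, not `⊥`?? (if `𝔫 = ⊥`, `R` is a field: excluded by `hR`);
choose `τ ∈ 𝔫` generating `𝔫 R_𝔫`: `∀ r ∈ 𝔫, ∃ s ∉ 𝔫, τ ∣ s * r`, `τ ≠ 0`; `T` a lift of `τ`.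
`gen`: `f ∈ n`, `σ (ρ f) = τ r`, lift: `s f - T r' ∈ 𝔭_c`, then `LocPrin`.  `nonnil`: `ρ c (s T^k) ≠ 0 = ρ c g`. -/
theorem exists_reg2At_of_locPrin [IsDedekindDomain R] (hR : ¬ IsField R) (n : Ideal M) (hn : n.IsMaximal) (c : ι)
    (hc : 𝓜.Thru n c) (g : M) (hg : LocPrin n (𝓜.P c) g) :
    ∃ T, Reg2At n g T ∧ 𝓜.ρ c T ≠ 0 := by
  obtain ⟨hmax, -⟩ := map_isMaximal 𝓜 n hn c hc
  obtain ⟨τ, hτ, hτ0, hgen⟩ := exists_local_generator hR _ hmax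
  obtain ⟨T, rfl⟩ := 𝓜.surj c τ
  have hmem := mem_iff_of_thru 𝓜 n c hc
  refine ⟨T, ⟨hc hg.1, (hmem T).2 hτ, ?_, ?_⟩, hτ0⟩
  · intro f hf
    obtain ⟨σ, hσ, r, hr⟩ := hgen _ ((hmem f).1 hf)
    obtain ⟨s₀, rfl⟩ := 𝓜.surj c σ
    obtain ⟨r', rfl⟩ := 𝓜.surj c r
    have hs₀ : s₀ ∉ n := fun h => hσ ((hmem s₀).1 h)
    have h1 : s₀ * f - T * r' ∈ 𝓜.P c := by
      rw [Model.P, RingHom.mem_ker, map_sub, map_mul, map_mul, hr, sub_self]
    obtain ⟨s₁, hs₁, w, hw⟩ := hg.2 _ h1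
    refine ⟨s₁ * s₀, w, s₁ * r', ?_, ?_⟩
    · intro h
      rcases hn.isPrime.mem_or_mem h with h | h
      · exact hs₁ h
      · exact hs₀ h
    · linear_combination hw
  · intro k s hs hdvd
    obtain ⟨w, hw⟩ := hdvd
    have h1 : 𝓜.ρ c g = 0 := RingHom.mem_ker.1 hg.1
    have h2 := congrArg (𝓜.ρ c) hw
    rw [map_mul, map_mul, map_pow, h1, zero_mul] at h2
    have hs' : 𝓜.ρ c s ≠ 0 := fun h => hs (hc (RingHom.mem_ker.2 h))
    exact mul_ne_zero hs' (pow_ne_zero k hτ0) h2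

/-- (M5) = (R1): a point on exactly one component, of multiplicity one, is regular. -/
theorem exists_reg2At_of_single [IsDedekindDomain R] (hR : ¬ IsField R) (n : Ideal M) (hn : n.IsMaximal) (c : ι)
    (hc : 𝓜.Thru n c) (he : 𝓜.e c = 1) (honly : ∀ c', c' ≠ c → ¬ 𝓜.Thru n c') :
    ∃ T, Reg2At n π T ∧ 𝓜.ρ c T ≠ 0 :=
  𝓜.exists_reg2At_of_locPrin hR n hn c hc π (𝓜.locPrin_pi n hn.isPrime c hc he honly)

end Fermat.Agent.S36.R.Model
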