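import Fermat.Agent.S36.R.Level2
import Fermat.Agent.S36.R.Engine

/-!
# S36 / R / Toric : the norm relations between the branch values at a triple point         (= (5) of #1240)
-/

set_option autoImplicit false

namespace Fermat.Agent.S36.R

open Fermat.Agent.S36.Norm

section BVcalculus

variable {M R F : Type*} [CommRing M] [IsDomain M] [CommRing R] [IsDomain R] [Field F] [Algebra M F]
  [IsFractionRing M F] {π : M} {ι : Type*} (𝓜 : Model M R π ι)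

/-- the branch value only matters modulo `n`. -/
theorem BV.congr {n : Ideal M} {c : ι} {y : F} {v v' : M} (h : BV 𝓜 n c y v) (hv : v - v' ∈ n) :
    BV 𝓜 n c y v' := by
  obtain ⟨a, b, g, s, h1, h2, h3, h4, h5⟩ := h
  refine ⟨a, b, g, s, h1, h2, h3, h4, ?_⟩
  have : g - v' * s = (g - v * s) + (v - v') * s := by ring
  rw [this]
  exact n.add_mem h5 (n.mul_mem_right _ hv)

theorem BV.mul {n : Ideal M} (hn : n.IsPrime) {c : ι} {y y' : F} {v v' : M} (h : BV 𝓜 n c y v)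
    (h' : BV 𝓜 n c y' v') : BV 𝓜 n c (y * y') (v * v') := by
  obtain ⟨a, b, g, s, h1, h2, h3, h4, h5⟩ := h
  obtain ⟨a', b', g', s', h1', h2', h3', h4', h5'⟩ := h'
  refine ⟨a * a', b * b', g * g', s * s', ?_, ?_, ?_, ?_, ?_⟩
  · rw [map_mul, map_mul, ← h1, ← h1']
    ring
  · rw [map_mul]
    exact mul_ne_zero h2 h2'
  · intro hss
    rcases hn.mem_or_mem hss with h | h
    · exact h3 h
    · exact h3' h
  · have e : s * s' * (a * a') - g * g' * (b * b')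
        = (s * a - g * b) * (s' * a') + (g * b) * (s' * a' - g' * b') := by ring
    rw [e, map_add, map_mul, map_mul _ (g * b), h4, h4', zero_mul, mul_zero, add_zero]
  · have e : g * g' - v * v' * (s * s') = (g - v * s) * g' + (v * s) * (g' - v' * s') := by ring
    rw [e]
    exact n.add_mem (n.mul_mem_right _ h5) (n.mul_mem_left _ h5')

theorem BV.pow {n : Ideal M} (hn : n.IsPrime) {c : ι} {y : F} {v : M} (h : BV 𝓜 n c y v) (k : ℕ) :
    BV 𝓜 n c (y ^ k) (v ^ k) := by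
  induction k with
  | zero =>
    refine ⟨1, 1, 1, 1, by simp, by simp, ?_, by simp, by simp⟩
    exact fun h1 => hn.ne_top ((Ideal.eq_top_iff_one n).2 h1)
  | succ k ih =>
    rw [pow_succ, pow_succ]
    exact BV.mul 𝓜 hn ih h

/-- `λ ≡ u` at `c`, `u * u' = 1` ⟹ `λ⁻¹` has branch value `u'`  (`n` through `c`). -/
theorem BV.inv_of_congAt {n : Ideal M} (hn : n.IsPrime) {c : ι} (hc : 𝓜.Thru n c) {lam : F} {u u' : M}
    (h : CongAt 𝓜 c lam u) (huu : u * u' = 1) : BV 𝓜 n c lam⁻¹ u' := by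
  obtain ⟨a, b, t, hb, ht, hdvd, hlam⟩ := h
  have h0 : 𝓜.ρ c (t * (a - u * b)) = 0 := by
    obtain ⟨w, hw⟩ := hdvd
    rw [hw, map_mul, 𝓜.map_pi, zero_mul]
  rw [map_mul, map_sub, map_mul] at h0
  have ha : 𝓜.ρ c a = 𝓜.ρ c u * 𝓜.ρ c b :=
    sub_eq_zero.1 ((mul_eq_zero.1 h0).resolve_left ht)
  have huu' : 𝓜.ρ c u * 𝓜.ρ c u' = 1 := by rw [← map_mul, huu, map_one]
  have hu : 𝓜.ρ c u ≠ 0 := by
    intro h
    rw [h, zero_mul] at huu'
    exact zero_ne_one huu'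
  have ha0 : 𝓜.ρ c a ≠ 0 := by
    rw [ha]
    exact mul_ne_zero hu hb
  have haM : a ≠ 0 := by
    rintro rfl
    exact ha0 (map_zero _)
  have haF : algebraMap M F a ≠ 0 := by
    intro h
    exact haM ((IsFractionRing.injective M F) (by rw [h, map_zero]))
  have hlam0 : lam ≠ 0 := by
    rintro rfl
    rw [zero_mul] at hlam
    exact haF hlam.symm
  refine ⟨b, a, u', 1, ?_, ha0, ?_, ?_, by simp⟩
  · rw [← hlam, ← mul_assoc, inv_mul_cancel₀ hlam0, one_mul]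
  · exact fun h1 => hn.ne_top ((Ideal.eq_top_iff_one n).2 h1)
  · rw [map_sub, map_mul, map_mul, map_one, one_mul, ha, ← mul_assoc, mul_comm (𝓜.ρ c u'), huu',
      one_mul, sub_self]

/-- uniqueness of the branch value (`n` through `c`). -/
theorem BV.unique {n : Ideal M} (hn : n.IsPrime) {c : ι} (hc : 𝓜.Thru n c) {y : F} {v v' : M}
    (h : BV 𝓜 n c y v) (h' : BV 𝓜 n c y v') : v - v' ∈ n := by
  obtain ⟨a, b, g, s, h1, h2, h3, h4, h5⟩ := h
  obtain ⟨a', b', g', s', h1', h2', h3', h4', h5'⟩ := h'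
  have hab : a * b' = a' * b := by
    apply IsFractionRing.injective M F
    rw [map_mul, map_mul, ← h1, ← h1']
    ring
  have hρ : 𝓜.ρ c (g * s' - g' * s) = 0 := by
    have e : (g * s' - g' * s) * (b * b')
        = (s' * a' - g' * b') * (s * b) - (s * a - g * b) * (s' * b')
          + s * s' * (a * b' - a' * b) := by ring
    have h0 : 𝓜.ρ c ((g * s' - g' * s) * (b * b')) = 0 := by
      rw [e, hab, sub_self, mul_zero, add_zero, map_sub, map_mul, map_mul _ (s * a - g * b), h4, h4',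
        zero_mul, zero_mul, sub_zero]
    rw [map_mul, map_mul _ b] at h0
    exact (mul_eq_zero.1 h0).resolve_right (mul_ne_zero h2 h2')
  have hmem : g * s' - g' * s ∈ n := hc hρ
  have e : (v - v') * (s * s')
      = (g * s' - g' * s) - (g - v * s) * s' + (g' - v' * s') * s := by ring
  have hm : (v - v') * (s * s') ∈ n := by
    rw [e]
    exact n.add_mem (n.sub_mem hmem (n.mul_mem_right _ h5)) (n.mul_mem_right _ h5')
  rcases hn.mem_or_mem hm with h | h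
  · exact h
  · rcases hn.mem_or_mem h with h | h
    · exact absurd h h3
    · exact absurd h h3'

end BVcalculus

/-- change of representation in a branch value. -/
theorem NormBranch_rep {M R F : Type*} [CommRing M] [IsDomain M] [CommRing R] [IsDomain R] [Field F]
    [Algebra M F] [IsFractionRing M F] {π : M} {ι : Type*} (𝓜 : Model M R π ι) {c : ι} {y : F}
    {a₀ b₀ g s a b : M} (h0 : y * algebraMap M F b₀ = algebraMap M F a₀) (hb0 : 𝓜.ρ c b₀ ≠ 0)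
    (hr : 𝓜.ρ c (s * a₀ - g * b₀) = 0) (h : y * algebraMap M F b = algebraMap M F a) :
    𝓜.ρ c s * 𝓜.ρ c a = 𝓜.ρ c g * 𝓜.ρ c b := by
  have h1 : a * b₀ = a₀ * b := by
    apply IsFractionRing.injective M F
    rw [map_mul, map_mul, ← h, ← h0]
    ring
  have h2 : 𝓜.ρ c a * 𝓜.ρ c b₀ = 𝓜.ρ c a₀ * 𝓜.ρ c b := by rw [← map_mul, ← map_mul, h1]
  have h3 : 𝓜.ρ c s * 𝓜.ρ c a₀ = 𝓜.ρ c g * 𝓜.ρ c b₀ := by
    rw [map_sub, map_mul, map_mul, sub_eq_zero] at hr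
    exact hr
  apply mul_right_cancel₀ hb0
  calc 𝓜.ρ c s * 𝓜.ρ c a * 𝓜.ρ c b₀ = 𝓜.ρ c s * (𝓜.ρ c a * 𝓜.ρ c b₀) := by ring
    _ = (𝓜.ρ c s * 𝓜.ρ c a₀) * 𝓜.ρ c b := by rw [h2]; ring
    _ = 𝓜.ρ c g * 𝓜.ρ c b * 𝓜.ρ c b₀ := by rw [h3]; ring

/-- the reduction of a `CongAt`. -/
theorem NormBranch_cong {M R F : Type*} [CommRing M] [CommRing R] [IsDomain R] [Field F]
    [Algebra M F] {π : M} {ι : Type*} (𝓜 : Model M R π ι) {c : ι} {h : F} {u : M}
    (hu : CongAt 𝓜 c h u) : ∃ a b : M, 𝓜.ρ c b ≠ 0 ∧ 𝓜.ρ c a = 𝓜.ρ c u * 𝓜.ρ c b ∧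
      h * algebraMap M F b = algebraMap M F a := by
  obtain ⟨a, b, t, hb, ht, ⟨r, hr⟩, hab⟩ := hu
  refine ⟨a, b, hb, ?_, hab⟩
  have h1 : 𝓜.ρ c t * (𝓜.ρ c a - 𝓜.ρ c u * 𝓜.ρ c b) = 0 := by
    rw [← map_mul, ← map_sub, ← map_mul, hr, map_mul, 𝓜.map_pi, zero_mul]
  rcases mul_eq_zero.mp h1 with h2 | h2
  · exact absurd h2 ht
  · exact sub_eq_zero.mp h2

/-- step (1): an element outside `n` divides an element of `M1` outside `z`. -/
theorem NormBranch_unit {M1 M2 : Type*} [CommRing M1] [CommRing M2]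
    (φ : M1 →+* M2) (hφ : φ.IsIntegral) (n : Ideal M2) (hn : n.IsMaximal)
    (huniq : ∀ n' : Ideal M2, n'.IsMaximal → n'.comap φ = n.comap φ → n' = n)
    (u : M2) (hu : u ∉ n) : ∃ (u' : M2) (s : M1), s ∉ n.comap φ ∧ u * u' = φ s := by
  by_contra hcon
  push Not at hcon
  letI := φ.toAlgebra
  haveI : Algebra.IsIntegral M1 M2 := ⟨hφ⟩
  haveI hz : (n.comap φ).IsMaximal := Ideal.isMaximal_comap_of_isIntegral_of_isMaximal (R := M1) n
  have hle : (Ideal.span {u}).comap (algebraMap M1 M2) ≤ n.comap φ := by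
    intro s hs
    by_contra hs'
    rw [Ideal.mem_comap, Ideal.mem_span_singleton] at hs
    obtain ⟨u', hu'⟩ := hs
    exact hcon u' s hs' hu'.symm
  obtain ⟨Q, hQ, hQp, hQc⟩ := Ideal.exists_ideal_over_prime_of_isIntegral (n.comap φ) (Ideal.span {u}) hle
  have hQm : Q.IsMaximal := by
    apply Ideal.isMaximal_of_isIntegral_of_isMaximal_comap (R := M1) Q
    rw [hQc]; exact hz
  have := huniq Q hQm hQc
  apply hu
  rw [← this]
  exact hQ (Ideal.mem_span_singleton_self u)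

/-- **NORM RELATION** (general form, used for `p1` and for `p2`).
`φ : M1 → M2`; the components `cs1` (multiplicity 1), `cs2` (multiplicity `l - 1`) of `M2` lie over `ca` with residue degree one,
`ci` lies over `cb`, purely inseparably; `n` is the only maximal ideal over `z = n.comap φ`.

Proof.  (1) `u ∉ n ⟹ ∃ u' s, s ∉ z, u * u' = φ s` (else a maximal ideal over `z` contains `u`: lying over for
`M1/(uM2 ∩ M1) → M2/uM2`).  Hence `N(u) ∉ z` (`N u * N u' = s ^ l`), where `N` is given by `hnm`.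
(2) `G := N(y) * h`, `G ^ m = N(y ^ m W) = N u₁ / N u₂`; `M1` integrally closed ⟹ `G = Ga / Gb`, `Ga Gb ∉ z`
    (`Gb G` is integral over `M1` for `Gb = N u₂`; the same for `G⁻¹`).
(3) write `y = a / b` with `ρ_c b ≠ 0` for `c = cs1, cs2, ci` simultaneously (combine the three representations of the `BV`s with
    `Model.sep`); `h = ha / hb`.  Identity in `M1`: `Ga * N b * hb = Gb * N a * ha`.
(4) apply `ρ_ca`: `ρ(Ga) ρ_cs1(b) ρ_cs2(b)^(l-1) = ρ(Gb ua) ρ_cs1(a) ρ_cs2(a)^(l-1)`; multiply by `ρ_cs1(s₁) ρ_cs2(s₂)^(l-1)`, use the `BV`s, cancel: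
    `ρ_ca(Ga) ρ_cs1(s₁) ρ_cs2(s₂)^(l-1) = ρ_ca(Gb ua) ρ_cs1(g₁) ρ_cs2(g₂)^(l-1)`.  Lift `ρ_cs(x) = ρ_ca(x')`, `x - φ x' ∈ 𝔭_cs ≤ n`:
    `φ Ga ≡ φ (Gb ua) v₁ v₂^(l-1) mod n`.
(5) apply `Fr ∘ ρ_cb = ρ_ci ∘ φ`: `φ Ga ≡ φ (Gb ub) vi ^ l mod n`.   (6) `φ Gb ∉ n`. -/
theorem normBranch {M1 M2 R F1 F2 : Type*} [CommRing M1] [CommRing M2] [CommRing R] [IsDomain M1]
    [IsDomain M2] [IsDomain R] [IsIntegrallyClosed M1] [Field F1] [Field F2] [Algebra M1 F1] [Algebra M2 F2]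
    [IsFractionRing M1 F1] [IsFractionRing M2 F2] {π1 : M1} {π2 : M2}
    (φ : M1 →+* M2) (hφ : φ.IsIntegral) (hinj : Function.Injective φ) (φF : F1 →+* F2)
    (hφF : ∀ g, φF (algebraMap M1 F1 g) = algebraMap M2 F2 (φ g)) (l m : ℕ) (hm : m ≠ 0)
    (hdeg : degHom φF = l) (hl : l ≠ 0)
    (m1 : Model M1 R π1 (Fin 2)) (m2 : Model M2 R π2 (Fin 3)) (Fr : R →+* R)
    (Fr_inj : Function.Injective Fr) (ca cb : Fin 2) (cs1 cs2 ci : Fin 3)
    (h12 : cs1 ≠ cs2) (h1i : cs1 ≠ ci) (h2i : cs2 ≠ ci)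
    (hs1 : ∀ g, m2.ρ cs1 (φ g) = m1.ρ ca g) (hs2 : ∀ g, m2.ρ cs2 (φ g) = m1.ρ ca g)
    (hi : ∀ g, m2.ρ ci (φ g) = Fr (m1.ρ cb g))
    (hnm : ∀ a : M2, ∃ b : M1, algebraMap M1 F1 b = normHom φF (algebraMap M2 F2 a) ∧
      m1.ρ ca b = m2.ρ cs1 a * m2.ρ cs2 a ^ (l - 1) ∧ Fr (m1.ρ cb b) = m2.ρ ci a ^ l)
    (n : Ideal M2) (hn : n.IsMaximal) (ht1 : m2.Thru n cs1) (ht2 : m2.Thru n cs2) (hti : m2.Thru n ci)
    (huniq : ∀ n' : Ideal M2, n'.IsMaximal → n'.comap φ = n.comap φ → n' = n)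
    (W y : F2) (hy : LocGen m W n y) (v1 v2 vi : M2) (hv1 : BV m2 n cs1 y v1) (hv2 : BV m2 n cs2 y v2)
    (hvi : BV m2 n ci y vi) (h : F1) (hN : normHom φF W = h ^ m) (ua ub : M1)
    (hua : CongAt m1 ca h ua) (hub : CongAt m1 cb h ub) :
    v1 * v2 ^ (l - 1) * φ ua - vi ^ l * φ ub ∈ n := by
  have inj1 : Function.Injective (algebraMap M1 F1) := IsFractionRing.injective M1 F1
  choose Nm hNm hNa hNb using hnm
  haveI hnp : n.IsPrime := hn.isPrime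
  have hzp : (n.comap φ).IsPrime := Ideal.comap_isPrime φ n
  -- (1)
  have step1 : ∀ u : M2, u ∉ n → Nm u ∉ n.comap φ := by
    intro u hu
    obtain ⟨u', s, hs, hus⟩ := NormBranch_unit φ hφ n hn huniq u hu
    have h1 : Nm u * Nm u' = s ^ l := by
      apply inj1
      rw [map_mul, hNm, hNm, ← map_mul, ← map_mul, hus, ← hφF, normHom_map, hdeg, map_pow]
    intro hmem
    have h2 : s ^ l ∈ n.comap φ := h1 ▸ Ideal.mul_mem_right _ _ hmem
    exact hs (hzp.mem_of_pow_mem l h2)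
  obtain ⟨hy0, u₁, u₂, hu₁, hu₂, hyW⟩ := hy
  -- (2)
  have hGm : (normHom φF y * h) ^ m * algebraMap M1 F1 (Nm u₂) = algebraMap M1 F1 (Nm u₁) := by
    rw [mul_pow, ← hN, ← map_pow, ← map_mul, hNm, ← map_mul, hyW, hNm]
  have hpow : (algebraMap M1 F1 (Nm u₂) * (normHom φF y * h)) ^ m =
      algebraMap M1 F1 (Nm u₂ ^ (m - 1) * Nm u₁) := by
    obtain ⟨k, rfl⟩ := Nat.exists_eq_succ_of_ne_zero hm
    rw [map_mul, map_pow, ← hGm, Nat.succ_sub_one, mul_pow, pow_succ (algebraMap M1 F1 (Nm u₂)) k]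
    ring
  obtain ⟨Ga, hGa⟩ : ∃ Ga : M1, algebraMap M1 F1 Ga =
      algebraMap M1 F1 (Nm u₂) * (normHom φF y * h) := by
    apply IsIntegrallyClosed.isIntegral_iff.mp
    apply IsIntegral.of_pow (Nat.pos_of_ne_zero hm)
    rw [hpow]
    exact isIntegral_algebraMap
  have hGb : Nm u₂ ∉ n.comap φ := step1 u₂ hu₂
  -- the basic identity for every representation of `y` and of `h`
  have ident : ∀ a b : M2, y * algebraMap M2 F2 b = algebraMap M2 F2 a → ∀ ha hb : M1,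
      h * algebraMap M1 F1 hb = algebraMap M1 F1 ha → Ga * Nm b * hb = Nm u₂ * Nm a * ha := by
    intro a b hab ha hb hh
    apply inj1
    have h1 : normHom φF y * algebraMap M1 F1 (Nm b) = algebraMap M1 F1 (Nm a) := by
      rw [hNm, hNm, ← map_mul, hab]
    rw [map_mul, map_mul, map_mul, map_mul, hGa, ← h1, ← hh]
    ring
  obtain ⟨a1, b1, g1, s1, hab1, hb1, hs1n, hr1, hg1⟩ := hv1
  obtain ⟨a2, b2, g2, s2, hab2, hb2, hs2n, hr2, hg2⟩ := hv2
  obtain ⟨a3, b3, g3, s3, hab3, hb3, hs3n, hr3, hg3⟩ := hvi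
  obtain ⟨ha, hb, hhb, hha, hhab⟩ := NormBranch_cong m1 hua
  obtain ⟨ha', hb', hhb', hha', hhab'⟩ := NormBranch_cong m1 hub
  -- the quotient
  let q := Ideal.Quotient.mk n
  have qz : ∀ x : M2, x ∈ n → q x = 0 := fun x hx => Ideal.Quotient.eq_zero_iff_mem.mpr hx
  have qnz : ∀ x : M2, x ∉ n → q x ≠ 0 := fun x hx h0 => hx (Ideal.Quotient.eq_zero_iff_mem.mp h0)
  have qeq : ∀ x x' : M2, x - x' ∈ n → q x = q x' := fun x x' hx => by
    have := qz _ hx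
    rwa [map_sub, sub_eq_zero] at this
  -- (3) a common representation for `cs1`, `cs2`
  obtain ⟨w1, hw1z, hw1⟩ := m2.sep cs1 cs2 h12
  obtain ⟨w2, hw2z, hw2⟩ := m2.sep cs2 cs1 h12.symm
  have hab : y * algebraMap M2 F2 (b1 * w1 + b2 * w2) = algebraMap M2 F2 (a1 * w1 + a2 * w2) := by
    rw [map_add, map_add, map_mul, map_mul, map_mul, map_mul, ← hab1, ← hab2]
    ring
  have hβ1 : m2.ρ cs1 (b1 * w1 + b2 * w2) ≠ 0 := by
    rw [map_add, map_mul, map_mul, hw2z, mul_zero, add_zero]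
    exact mul_ne_zero hb1 hw1
  have hβ2 : m2.ρ cs2 (b1 * w1 + b2 * w2) ≠ 0 := by
    rw [map_add, map_mul, map_mul, hw1z, mul_zero, zero_add]
    exact mul_ne_zero hb2 hw2
  have e1 := NormBranch_rep m2 hab1 hb1 hr1 hab
  have e2 := NormBranch_rep m2 hab2 hb2 hr2 hab
  have e3 := NormBranch_rep m2 hab3 hb3 hr3 hab3
  -- (4)
  have idA := congrArg (m1.ρ ca) (ident _ _ hab ha hb hhab)
  simp only [map_mul, hNa, hha] at idA
  have starA : m1.ρ ca Ga * (m2.ρ cs1 s1 * m2.ρ cs2 s2 ^ (l - 1)) =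
      m1.ρ ca (Nm u₂) * m1.ρ ca ua * (m2.ρ cs1 g1 * m2.ρ cs2 g2 ^ (l - 1)) := by
    apply mul_right_cancel₀ (mul_ne_zero (mul_ne_zero hβ1 (pow_ne_zero (l - 1) hβ2)) hhb)
    calc m1.ρ ca Ga * (m2.ρ cs1 s1 * m2.ρ cs2 s2 ^ (l - 1)) *
          (m2.ρ cs1 (b1 * w1 + b2 * w2) * m2.ρ cs2 (b1 * w1 + b2 * w2) ^ (l - 1) * m1.ρ ca hb)
        = (m1.ρ ca Ga * (m2.ρ cs1 (b1 * w1 + b2 * w2) * m2.ρ cs2 (b1 * w1 + b2 * w2) ^ (l - 1)) *
            m1.ρ ca hb) * (m2.ρ cs1 s1 * m2.ρ cs2 s2 ^ (l - 1)) := by ring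
      _ = m1.ρ ca (Nm u₂) * m1.ρ ca ua * m1.ρ ca hb *
            ((m2.ρ cs1 s1 * m2.ρ cs1 (a1 * w1 + a2 * w2)) *
              (m2.ρ cs2 s2 * m2.ρ cs2 (a1 * w1 + a2 * w2)) ^ (l - 1)) := by
          rw [idA, hNa u₂]; ring
      _ = _ := by rw [e1, e2]; ring
  obtain ⟨s1', hs1'⟩ := m1.surj ca (m2.ρ cs1 s1)
  obtain ⟨g1', hg1'⟩ := m1.surj ca (m2.ρ cs1 g1)
  obtain ⟨s2', hs2'⟩ := m1.surj ca (m2.ρ cs2 s2)
  obtain ⟨g2', hg2'⟩ := m1.surj ca (m2.ρ cs2 g2)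
  have lift1 : ∀ x : M2, ∀ x' : M1, m1.ρ ca x' = m2.ρ cs1 x → q (φ x') = q x := by
    intro x x' hx
    apply qeq
    apply ht1
    change m2.ρ cs1 (φ x' - x) = 0
    rw [map_sub, hs1, hx, sub_self]
  have lift2 : ∀ x : M2, ∀ x' : M1, m1.ρ ca x' = m2.ρ cs2 x → q (φ x') = q x := by
    intro x x' hx
    apply qeq
    apply ht2
    change m2.ρ cs2 (φ x' - x) = 0
    rw [map_sub, hs2, hx, sub_self]
  have qA : q (φ Ga) * (q s1 * q s2 ^ (l - 1)) =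
      q (φ (Nm u₂)) * q (φ ua) * (q g1 * q g2 ^ (l - 1)) := by
    have h0 : m1.ρ ca (Ga * (s1' * s2' ^ (l - 1)) - Nm u₂ * ua * (g1' * g2' ^ (l - 1))) = 0 := by
      simp only [map_sub, map_mul, map_pow, hs1', hs2', hg1', hg2']
      rw [starA, sub_self]
    have h1 : φ (Ga * (s1' * s2' ^ (l - 1)) - Nm u₂ * ua * (g1' * g2' ^ (l - 1))) ∈ n := by
      apply ht1
      change m2.ρ cs1 (φ _) = 0
      rw [hs1, h0]
    have h2 := qz _ h1
    simp only [map_sub, map_mul, map_pow] at h2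
    rw [lift1 s1 s1' hs1', lift1 g1 g1' hg1', lift2 s2 s2' hs2', lift2 g2 g2' hg2', sub_eq_zero] at h2
    exact h2
  have qg1 : q g1 = q v1 * q s1 := by rw [← map_mul]; exact qeq _ _ hg1
  have qg2 : q g2 = q v2 * q s2 := by rw [← map_mul]; exact qeq _ _ hg2
  have qg3 : q g3 = q vi * q s3 := by rw [← map_mul]; exact qeq _ _ hg3
  have resA : q (φ Ga) = q (φ (Nm u₂)) * q (φ ua) * (q v1 * q v2 ^ (l - 1)) := by
    apply mul_right_cancel₀ (mul_ne_zero (qnz s1 hs1n) (pow_ne_zero (l - 1) (qnz s2 hs2n)))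
    rw [qA, qg1, qg2]
    ring
  -- (5)
  have idB := congrArg (fun r => Fr (m1.ρ cb r)) (ident _ _ hab3 ha' hb' hhab')
  simp only [map_mul, hNb, hha'] at idB
  have hFb : Fr (m1.ρ cb hb') ≠ 0 := fun h0 => hhb' (Fr_inj (by rw [h0, map_zero]))
  have starB : m2.ρ ci (φ Ga) * m2.ρ ci s3 ^ l =
      m2.ρ ci (φ (Nm u₂)) * m2.ρ ci (φ ub) * m2.ρ ci g3 ^ l := by
    rw [hi, hi, hi]
    apply mul_right_cancel₀ (mul_ne_zero (pow_ne_zero l hb3) hFb)
    calc Fr (m1.ρ cb Ga) * m2.ρ ci s3 ^ l * (m2.ρ ci b3 ^ l * Fr (m1.ρ cb hb'))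
        = (Fr (m1.ρ cb Ga) * m2.ρ ci b3 ^ l * Fr (m1.ρ cb hb')) * m2.ρ ci s3 ^ l := by ring
      _ = Fr (m1.ρ cb (Nm u₂)) * Fr (m1.ρ cb ub) * Fr (m1.ρ cb hb') *
            (m2.ρ ci s3 * m2.ρ ci a3) ^ l := by rw [idB, hNb u₂]; ring
      _ = _ := by rw [e3]; ring
  have qB : q (φ Ga) * q s3 ^ l = q (φ (Nm u₂)) * q (φ ub) * q g3 ^ l := by
    have h1 : φ Ga * s3 ^ l - φ (Nm u₂) * φ ub * g3 ^ l ∈ n := by
      apply hti
      change m2.ρ ci _ = 0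
      simp only [map_sub, map_mul, map_pow]
      rw [starB, sub_self]
    have h2 := qz _ h1
    simp only [map_sub, map_mul, map_pow] at h2
    exact sub_eq_zero.mp h2
  have resB : q (φ Ga) = q (φ (Nm u₂)) * q (φ ub) * q vi ^ l := by
    apply mul_right_cancel₀ (pow_ne_zero l (qnz s3 hs3n))
    rw [qB, qg3]
    ring
  -- (6)
  have hGbn : q (φ (Nm u₂)) ≠ 0 := qnz _ (fun hmem => hGb hmem)
  apply Ideal.Quotient.eq_zero_iff_mem.mp
  change q _ = 0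
  simp only [map_sub, map_mul, map_pow]
  apply mul_left_cancel₀ hGbn
  rw [mul_zero]
  have := resA.symm.trans resB
  linear_combination this

end Fermat.Agent.S36.R
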